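import Fermat.Agent.S18.AsmN
import Fermat.Agent.S29.Defs
import Fermat.Prelude.Def_ModularCurve_HeckeModule

/-!
# S37: shared definitions for the change of level `N ∣ M`
-/

set_option autoImplicit false
set_option linter.unusedSectionVars false

namespace Fermat.Agent.S37

open ModularCurve AlgebraicCurve Fermat.Agent.S24

variable {N M : ℕ} [NeZero N] [NeZero M]

/-- the inclusion `FN N ⊆ FN M`. -/
noncomputable abbrev incl (h : N ∣ M) : FN N →ₐ[Kb] FN M :=
  IntermediateField.inclusion (Fermat.Agent.S18.Asm.FN_le h)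

theorem incl_integral (h : N ∣ M) : (incl h).toRingHom.IsIntegral :=
  fun x => Fermat.Agent.S18.Asm.isIntegralElem_inclusion h x

/-- pull-back of divisors from level `N` to level `M`. -/
noncomputable def pb (h : N ∣ M) [HasPrincipalDivisors Kb (FN M)] :
    Divisor Kb (FN N) →+ Divisor Kb (FN M) :=
  Divisor.pullbackAlong (incl h) (incl_integral h)

/-- the semilinear automorphism of `FN N` attached to `σ`. -/
noncomputable abbrev sg (N : ℕ) (σ : Kb ≃ₐ[ℚ] Kb) : SemilinearAut Kb (FN N) :=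
  arithmeticGalois (modularFunctionFieldFull N) σ

theorem sg_smul (N : ℕ) (σ : Kb ≃ₐ[ℚ] Kb) (x : FN N) : sg N σ • x = Fermat.Agent.S29.gal N σ x := rfl

theorem coe_incl (h : N ∣ M) (x : FN N) :
    ((incl h x : FN M) : LaurentSeries Kb) = (x : LaurentSeries Kb) :=
  IntermediateField.coe_inclusion _ x

theorem incl_gal (h : N ∣ M) (σ : Kb ≃ₐ[ℚ] Kb) (x : FN N) :
    incl h (Fermat.Agent.S29.gal N σ x) = Fermat.Agent.S29.gal M σ (incl h x) := by
  apply Subtype.ext
  rw [coe_incl, Fermat.Agent.S29.coe_gal, Fermat.Agent.S29.coe_gal, coe_incl]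

theorem intertwines (h : N ∣ M) (σ : Kb ≃ₐ[ℚ] Kb) :
    SemilinearAut.IntertwinesAlong (incl h : FN N →+* FN M) (sg N σ) (sg M σ) := fun x => by
  rw [sg_smul, sg_smul]
  exact (incl_gal h σ x).symm

end Fermat.Agent.S37
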