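import Mathlib
import Fermat.Prelude.Def_ModularCurve_HeckeOperator
import Fermat.Agent.S29.HeckeMem
import Fermat.Agent.S18.AsmN
import Fermat.Agent.S18.Asm5
import Fermat.Agent.S20.CardQuo
import Fermat.Agent.S24.Engine

set_option autoImplicit false
set_option linter.style.haveILetI false
set_option synthInstance.maxHeartbeats 400000

/-! # S37 [SP5]: the norm of `β x` along `α` is the multiplicative Hecke operator `TT N l x` -/

namespace Fermat.Agent.S37.NH

open UpperHalfPlane ModularForm Matrix.SpecialLinearGroup CongruenceSubgroup ModularCurve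
open scoped MatrixGroups ModularForm Manifold
open Fermat.Agent.S24 Fermat.Agent.S29 Fermat.Agent.S29.HA
open P2MW.S_ModularForm_heckeT_slash_eq_self_of_mem_Gamma0.ModularForm.HeckeSlashInvariance

/-- the norm as a product over an explicit full family of embeddings. -/
theorem norm_eq_prod_of_embeddings {F F' Ω X : Type*} [Field F] [Field F'] [Field Ω] [Algebra F F']
    [FiniteDimensional F F'] [Algebra.IsSeparable F F'] [Fintype X] (ι : F →+* Ω)
    (τ : X → (F' →+* Ω)) (hτ : ∀ x a, τ x (algebraMap F F' a) = ι a)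
    (hinj : Function.Injective τ) (hcard : Fintype.card X = Module.finrank F F') (y : F') :
    ι (Algebra.norm F y) = ∏ x, τ x y := by
  let E := AlgebraicClosure Ω
  letI : Algebra F E := ((algebraMap Ω E).comp ι).toAlgebra
  let T : X → (F' →ₐ[F] E) := fun x =>
    { toRingHom := (algebraMap Ω E).comp (τ x)
      commutes' := fun a => by
        change algebraMap Ω E (τ x (algebraMap F F' a)) = algebraMap Ω E (ι a)
        rw [hτ] }
  have hT : Function.Injective T := by
    intro x x' h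
    apply hinj
    ext y
    have := DFunLike.congr_fun h y
    exact (algebraMap Ω E).injective this
  have hb : Function.Bijective T := by
    rw [Fintype.bijective_iff_injective_and_card]
    exact ⟨hT, by rw [hcard, AlgHom.card]⟩
  apply (algebraMap Ω E).injective
  have h1 := Algebra.norm_eq_prod_embeddings F E y
  have h2 : ∏ σ : F' →ₐ[F] E, σ y = ∏ x, T x y :=
    (Equiv.prod_comp (Equiv.ofBijective T hb) (fun σ : F' →ₐ[F] E => σ y)).symm
  rw [map_prod]
  exact h1.trans h2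

/-- the embedding of `FN M` attached to `γ`. -/
noncomputable def sig (M : ℕ) [NeZero M] (γ : SL(2, ℤ)) : FN M →ₐ[Kb] LaurentSeries ℂ :=
  (exists_sigma M γ (Mer M) (fun d => jdg_mem_Mer M d γ) (expInf M) (expInf_injective M)).choose

theorem sig_Jd (M : ℕ) [NeZero M] (γ : SL(2, ℤ)) (d : Dv M) :
    sig M γ (Jd M d) = expInf M ⟨jdg M d γ, jdg_mem_Mer M d γ⟩ :=
  (exists_sigma M γ (Mer M) (fun d => jdg_mem_Mer M d γ) (expInf M)
    (expInf_injective M)).choose_spec d

theorem sig_aeval (M : ℕ) [NeZero M] (γ : SL(2, ℤ)) (P : MvPolynomial (Dv M) Kb) :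
    ∃ h : (fun z : ℍ => MvPolynomial.aeval (fun d => jdg M d 1) P (γ • z)) ∈ Mer M,
      sig M γ (MvPolynomial.aeval (Jd M) P) = expInf M ⟨_, h⟩ := by
  obtain ⟨h, hE⟩ := exists_mem_aeval (Mer M) (expInf M) (fun d => jdg M d γ)
    (fun d => jdg_mem_Mer M d γ) P
  have e : MvPolynomial.aeval (fun d => jdg M d γ) P =
      fun z : ℍ => MvPolynomial.aeval (fun d => jdg M d 1) P (γ • z) :=
    funext fun z => aeval_jdg_apply M γ P z
  have h' : (fun z : ℍ => MvPolynomial.aeval (fun d => jdg M d 1) P (γ • z)) ∈ Mer M := e ▸ h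
  refine ⟨h', ?_⟩
  have e2 : (⟨_, h'⟩ : Mer M) = ⟨_, h⟩ := Subtype.ext e.symm
  have e3 : (fun i => sig M γ (Jd M i)) = fun d => expInf M ⟨jdg M d γ, jdg_mem_Mer M d γ⟩ :=
    funext fun d => sig_Jd M γ d
  rw [e2, hE, MvPolynomial.comp_aeval_apply (Jd M) (sig M γ) P, e3]

variable {N l : ℕ} [NeZero N] [Fact l.Prime]

/-- `d ∣ N ↦ d ∣ N l`. -/
def da (l : ℕ) (d : Dv N) : Dv (N * l) := ⟨d.1, d.2.mul_right l⟩

/-- `d ∣ N ↦ l d ∣ N l`. -/
def db (l : ℕ) (d : Dv N) : Dv (N * l) := ⟨l * d.1, by rw [mul_comm]; exact mul_dvd_mul_right d.2 l⟩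

theorem alpha_Jd (d : Dv N) : heckeAlphaBar Kb N l (Jd N d) = Jd (N * l) (da l d) :=
  Subtype.ext rfl

theorem beta_Jd (d : Dv N) : heckeBetaBar Kb N l (Jd N d) = Jd (N * l) (db l d) := by
  haveI : NeZero d.1 := ⟨d.ne_zero⟩
  apply Subtype.ext
  rw [coe_heckeBetaBar, coe_Jd, coe_Jd, coeffEmb, ← ModularCurve.coeffMap_qExpand, qExpand_qExpand]
  rfl

theorem alpha_aeval (P : MvPolynomial (Dv N) Kb) :
    heckeAlphaBar Kb N l (MvPolynomial.aeval (Jd N) P) =
      MvPolynomial.aeval (Jd (N * l)) (MvPolynomial.rename (da l) P) := by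
  have e : (fun d => heckeAlphaBar Kb N l (Jd N d)) = Jd (N * l) ∘ da l :=
    funext fun d => alpha_Jd d
  rw [MvPolynomial.aeval_rename, MvPolynomial.comp_aeval_apply (Jd N) (heckeAlphaBar Kb N l) P, e]

theorem beta_aeval (P : MvPolynomial (Dv N) Kb) :
    heckeBetaBar Kb N l (MvPolynomial.aeval (Jd N) P) =
      MvPolynomial.aeval (Jd (N * l)) (MvPolynomial.rename (db l) P) := by
  have e : (fun d => heckeBetaBar Kb N l (Jd N d)) = Jd (N * l) ∘ db l :=
    funext fun d => beta_Jd d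
  rw [MvPolynomial.aeval_rename, MvPolynomial.comp_aeval_apply (Jd N) (heckeBetaBar Kb N l) P, e]

/-- the analytic function attached to a polynomial in the `j(dz)`. -/
noncomputable def aP (P : MvPolynomial (Dv N) Kb) : ℍ → ℂ :=
  MvPolynomial.aeval (fun d => jdg N d 1) P

theorem aP_da (P : MvPolynomial (Dv N) Kb) :
    aP (MvPolynomial.rename (da l) P) = aP P := by
  unfold aP
  rw [MvPolynomial.aeval_rename]
  rfl

theorem aP_db (P : MvPolynomial (Dv N) Kb) (z : ℍ) :
    aP (MvPolynomial.rename (db l) P) z = aP P (heckeRep l OnePoint.infty • z) := by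
  have e : (fun d => ((fun d => jdg (N * l) d 1) ∘ db l) d z) =
      fun d : Dv N => jdg N d 1 (heckeRep l OnePoint.infty • z) := by
    funext d
    change jfun (S22.tri (db l d).1 1 0 _ _ • ((1 : SL(2, ℤ)) • z)) =
      jfun (S22.tri d.1 1 0 _ _ • ((1 : SL(2, ℤ)) • (heckeRep l OnePoint.infty • z)))
    rw [one_smul, one_smul, heckeRep_infty_smul]
    congr 1
    ext
    rw [S22.coe_tri_smul, S22.coe_tri_smul, S22.coe_tri_smul]
    have e0 : (((db l d).1 : ℕ) : ℂ) = (l : ℂ) * (d.1 : ℂ) := by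
      simp [db]
    rw [e0]
    push_cast
    ring
  unfold aP
  rw [MvPolynomial.aeval_rename, aeval_fun_apply, aeval_fun_apply, e]

theorem aP_Gamma0 (P : MvPolynomial (Dv N) Kb) (γ : SL(2, ℤ)) (hγ : γ ∈ Gamma0 N) (z : ℍ) :
    aP P (γ • z) = aP P z := by
  have e : (fun d => jdg N d γ) = fun d => jdg N d 1 := by
    funext d
    have := jdg_Gamma0_mul N d γ 1 hγ
    rwa [mul_one] at this
  unfold aP
  rw [← aeval_jdg_apply, e]

theorem aP_mem_Mer_one (P : MvPolynomial (Dv N) Kb) : aP P ∈ Mer 1 := (expInf_aeval_one N P).choose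

theorem expInf_aP (P : MvPolynomial (Dv N) Kb) :
    expInf 1 ⟨aP P, aP_mem_Mer_one P⟩ = thetaHom N (MvPolynomial.aeval (Jd N) P) :=
  (expInf_aeval_one N P).choose_spec

theorem sig_alpha (γ : SL(2, ℤ)) (hγ : γ ∈ Gamma0 N) (P : MvPolynomial (Dv N) Kb) :
    sig (N * l) γ (heckeAlphaBar Kb N l (MvPolynomial.aeval (Jd N) P)) =
      qExpand ℂ (N * l) (thetaHom N (MvPolynomial.aeval (Jd N) P)) := by
  obtain ⟨h, e⟩ := sig_aeval (N * l) γ (MvPolynomial.rename (da l) P)
  rw [alpha_aeval, e, ← expInf_aP]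
  have e1 : (fun z : ℍ => MvPolynomial.aeval (fun d => jdg (N * l) d 1)
      (MvPolynomial.rename (da l) P) (γ • z)) = aP P := by
    funext z
    change aP (MvPolynomial.rename (da l) P) (γ • z) = _
    rw [aP_da, aP_Gamma0 P γ hγ]
  have h' : aP P ∈ Mer (N * l) := e1 ▸ h
  rw [← expInf_level (N * l) ⟨aP P, aP_mem_Mer_one P⟩ h']
  congr 1
  exact Subtype.ext e1

theorem sig_beta (hl : ¬ l ∣ N) (γ : SL(2, ℤ)) (hγ : γ ∈ Gamma0 N) (P : MvPolynomial (Dv N) Kb) :
    ∃ h : (fun z : ℍ => aP P (heckeRep l (redMatrix l γ • OnePoint.infty) • z)) ∈ Mer (N * l),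
    sig (N * l) γ (heckeBetaBar Kb N l (MvPolynomial.aeval (Jd N) P)) = expInf (N * l) ⟨_, h⟩ := by
  obtain ⟨h, e⟩ := sig_aeval (N * l) γ (MvPolynomial.rename (db l) P)
  have e1 : (fun z : ℍ => MvPolynomial.aeval (fun d => jdg (N * l) d 1)
      (MvPolynomial.rename (db l) P) (γ • z)) =
      fun z : ℍ => aP P (heckeRep l (redMatrix l γ • OnePoint.infty) • z) := by
    funext z
    change aP (MvPolynomial.rename (db l) P) (γ • z) = _
    rw [aP_db]
    obtain ⟨g', hg', hmul⟩ := heckeRep_mul (N := N) (p := l) hl γ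
      (by simpa [Gamma0_mem, ZMod.intCast_zmod_eq_zero_iff_dvd] using hγ) OnePoint.infty
    have hg'' : g' ∈ Gamma0 N := by
      simpa [Gamma0_mem, ZMod.intCast_zmod_eq_zero_iff_dvd] using hg'
    rw [← aP_Gamma0 P g' hg'' (heckeRep l (redMatrix l γ • OnePoint.infty) • z)]
    congr 1
    change heckeRep l OnePoint.infty • (mapGL ℝ γ • z) =
      mapGL ℝ g' • (heckeRep l (redMatrix l γ • OnePoint.infty) • z)
    rw [← mul_smul, ← mul_smul, hmul]
  refine ⟨e1 ▸ h, ?_⟩
  rw [beta_aeval, e]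
  congr 1
  exact Subtype.ext e1

/-! ### coset representatives -/

omit [NeZero N] in
theorem exists_gamma (hl : ¬ l ∣ N) (x : OnePoint (ZMod l)) :
    ∃ γ : SL(2, ℤ), γ ∈ Gamma0 N ∧ redMatrix l γ • (OnePoint.infty : OnePoint (ZMod l)) = x := by
  induction x using OnePoint.rec with
  | infty =>
    refine ⟨1, one_mem _, ?_⟩
    rw [OnePoint.smul_infty_eq_ite]
    simp
  | coe j =>
    have hN : ((N : ℕ) : ZMod l) ≠ 0 := by
      rwa [Ne, ZMod.natCast_eq_zero_iff]
    set k : ℤ := ((j - (N : ZMod l)⁻¹ : ZMod l).val : ℤ) with hk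
    have hk' : ((k : ℤ) : ZMod l) = j - (N : ZMod l)⁻¹ := by
      rw [hk]
      simp
    obtain ⟨γ, h10, h11⟩ : ∃ γ : SL(2, ℤ), γ 1 0 = (N : ℤ) ∧ γ 1 1 = N * k + 1 :=
      ⟨⟨!![1, k; N, N * k + 1], by rw [Matrix.det_fin_two_of]; ring⟩, rfl, rfl⟩
    refine ⟨γ, ?_, ?_⟩
    · rw [Gamma0_mem, h10]
      simp
    · rw [OnePoint.smul_infty_eq_ite, if_neg]
      · congr 1
        rw [redMatrix_apply_zero_zero, redMatrix_apply_one_zero, h10, h11]
        push_cast
        rw [hk']
        field_simp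
        ring
      · rw [redMatrix_apply_one_zero, h10]
        simpa using hN

/-- representatives of `Γ₀(N l) \ Γ₀(N)`. -/
noncomputable def gam (hl : ¬ l ∣ N) (x : OnePoint (ZMod l)) : SL(2, ℤ) := (exists_gamma hl x).choose

theorem gam_mem (hl : ¬ l ∣ N) (x : OnePoint (ZMod l)) : gam hl x ∈ Gamma0 N :=
  (exists_gamma hl x).choose_spec.1

theorem gam_spec (hl : ¬ l ∣ N) (x : OnePoint (ZMod l)) :
    redMatrix l (gam hl x) • (OnePoint.infty : OnePoint (ZMod l)) = x :=
  (exists_gamma hl x).choose_spec.2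

/-- the base embedding. -/
noncomputable def iotaF (N l : ℕ) [NeZero N] [Fact l.Prime] : FN N →+* LaurentSeries ℂ :=
  (qExpand ℂ (N * l)).comp (thetaHom N).toRingHom

theorem iotaF_apply (a : FN N) : iotaF N l a = qExpand ℂ (N * l) (thetaHom N a) := rfl

theorem sig_alpha' (γ : SL(2, ℤ)) (hγ : γ ∈ Gamma0 N) (a : FN N) :
    sig (N * l) γ (heckeAlphaBar Kb N l a) = iotaF N l a := by
  obtain ⟨P, Q, rfl⟩ := exists_aeval_div N a
  rw [map_div₀, map_div₀, map_div₀, sig_alpha γ hγ, sig_alpha γ hγ, iotaF_apply, iotaF_apply]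

theorem sig_gam_beta (hl : ¬ l ∣ N) (x : OnePoint (ZMod l)) (P : MvPolynomial (Dv N) Kb) :
    ∃ h : (fun z : ℍ => aP P (heckeRep l x • z)) ∈ Mer (N * l),
    sig (N * l) (gam hl x) (heckeBetaBar Kb N l (MvPolynomial.aeval (Jd N) P)) =
      expInf (N * l) ⟨_, h⟩ := by
  have := sig_beta hl (gam hl x) (gam_mem hl x) P
  rwa [gam_spec hl x] at this

/-! ### distinctness -/

theorem heckeRep_inj (V : Mer 1) (hV : (expInf 1 V).coeff (-1) ≠ 0) (x x' : OnePoint (ZMod l))
    (h : (fun z : ℍ => V.1 (heckeRep l x • z)) = fun z : ℍ => V.1 (heckeRep l x' • z)) :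
    x = x' := by
  have h1 : (expInf l ⟨_, comp_heckeRep_mem_Mer_one V x⟩).coeff (-1) =
      (expInf l ⟨_, comp_heckeRep_mem_Mer_one V x'⟩).coeff (-1) := by
    congr 2
    exact Subtype.ext h
  have hinf : (expInf l ⟨_, comp_heckeRep_mem_Mer_one V (OnePoint.infty : OnePoint (ZMod l))⟩).coeff
      (-1) = 0 := by
    rw [expInf_comp_infty, qExpand_coeff_of_not_dvd]
    intro hd
    have h2 : (l : ℤ) ∣ 1 := (dvd_neg.mp hd)
    have h3 : l ∣ 1 := by exact_mod_cast h2
    exact (Fact.out : l.Prime).one_lt.ne' (Nat.dvd_one.mp h3)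
  have hco : ∀ j : ZMod l, (expInf l ⟨_, comp_heckeRep_mem_Mer_one V
      (j : OnePoint (ZMod l))⟩).coeff (-1) =
      (((zetaC l ^ j.val) ^ (-1 : ℤ) : ℂˣ) : ℂ) * (expInf 1 V).coeff (-1) := by
    intro j
    rw [expInf_comp_coe, rotU_coeff]
  induction x using OnePoint.rec with
  | infty =>
    induction x' using OnePoint.rec with
    | infty => rfl
    | coe j' =>
      exfalso
      rw [hinf, hco] at h1
      exact mul_ne_zero (Units.ne_zero _) hV h1.symm
  | coe j =>
    induction x' using OnePoint.rec with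
    | infty =>
      exfalso
      rw [hinf, hco] at h1
      exact mul_ne_zero (Units.ne_zero _) hV h1
    | coe j' =>
      rw [hco, hco] at h1
      have h2 := mul_right_cancel₀ hV h1
      have h3 : (zetaC l ^ j.val) ^ (-1 : ℤ) = (zetaC l ^ j'.val) ^ (-1 : ℤ) := Units.ext h2
      rw [zpow_neg_one, zpow_neg_one, inv_inj] at h3
      have h4 := (zetaC_spec l).pow_inj (ZMod.val_lt j) (ZMod.val_lt j') h3
      rw [ZMod.val_injective l h4]

/-- the family of embeddings. -/
noncomputable def tau (hl : ¬ l ∣ N) (x : OnePoint (ZMod l)) : FN (N * l) →+* LaurentSeries ℂ :=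
  (sig (N * l) (gam hl x)).toRingHom

theorem tau_apply (hl : ¬ l ∣ N) (x : OnePoint (ZMod l)) (y : FN (N * l)) :
    tau hl x y = sig (N * l) (gam hl x) y := rfl

theorem coeff_thetaHom_jF : (thetaHom N (jF N)).coeff (-1) = 1 := by
  rw [thetaHom_apply, coe_jF, coeffEmb, coeffMap_coeffMap, coeffMap_coeff, ModularCurve.coeff_jq_neg_one, map_one]

theorem tau_injective (hl : ¬ l ∣ N) : Function.Injective (tau (N := N) hl) := by
  intro x x' h
  set P : MvPolynomial (Dv N) Kb := MvPolynomial.X ⟨1, one_dvd N⟩ with hP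
  have h1 := DFunLike.congr_fun h (heckeBetaBar Kb N l (MvPolynomial.aeval (Jd N) P))
  rw [tau_apply, tau_apply] at h1
  obtain ⟨m, e⟩ := sig_gam_beta hl x P
  obtain ⟨m', e'⟩ := sig_gam_beta hl x' P
  rw [e, e'] at h1
  have h2 := congrArg Subtype.val (expInf_injective (N * l) h1)
  refine heckeRep_inj ⟨aP P, aP_mem_Mer_one P⟩ ?_ x x' h2
  rw [expInf_aP, hP, MvPolynomial.aeval_X]
  change (thetaHom N (jF N)).coeff (-1) ≠ 0
  rw [coeff_thetaHom_jF]
  exact one_ne_zero

/-! ### the degree -/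

theorem finrank_inclusion {K Ω : Type*} [Field K] [Field Ω] [Algebra K Ω]
    {E₁ E₂ : IntermediateField K Ω} (h : E₁ ≤ E₂) :
    letI := (IntermediateField.inclusion h).toRingHom.toAlgebra
    Module.finrank E₁ E₂ = IntermediateField.relfinrank E₁ E₂ := by
  letI := (IntermediateField.inclusion h).toRingHom.toAlgebra
  rw [IntermediateField.relfinrank_eq_finrank_of_le h]
  let e : E₂ ≃ₗ[E₁] IntermediateField.extendScalars h :=
    { toFun := fun x => ⟨x.1, x.2⟩
      invFun := fun x => ⟨x.1, x.2⟩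
      map_add' := fun _ _ => rfl
      map_smul' := fun _ _ => rfl
      left_inv := fun _ => rfl
      right_inv := fun _ => rfl }
  exact e.finrank_eq

theorem finrank_alpha (hl : ¬ l ∣ N) :
    letI := AlgebraicCurve.algebraAlong (heckeAlphaBar Kb N l)
    Module.finrank (FN N) (FN (N * l)) = l + 1 := by
  have h1 := finrank_inclusion (S18.Asm.FN_le (N := N) (M := N * l) (dvd_mul_right N l))
  have h2 := S18.Asm.relfinrank_FN (N := N) (M := N * l) (dvd_mul_right N l)
  have hcop : Nat.Coprime N l :=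
    ((Nat.Prime.coprime_iff_not_dvd (Fact.out : l.Prime)).mpr hl).symm
  have h3 : dedekindPsi l = l + 1 := by
    have := S20.dedekindPsi_prime_pow (Fact.out : l.Prime) 0
    simpa using this
  rw [S20.dedekindPsi_mul hcop, h3,
    Nat.mul_div_cancel_left _ (S18.Asm.dedekindPsi_pos N (NeZero.ne N))] at h2
  exact h1.trans h2

/-! ### the product -/

theorem prod_tau_beta_aeval (hl : ¬ l ∣ N) (P : MvPolynomial (Dv N) Kb) :
    ∏ x, tau hl x (heckeBetaBar Kb N l (MvPolynomial.aeval (Jd N) P)) =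
      iotaF N l (TT N l (MvPolynomial.aeval (Jd N) P)) := by
  set V : Mer 1 := ⟨aP P, aP_mem_Mer_one P⟩ with hV
  have hm : ∀ x : OnePoint (ZMod l), (fun z : ℍ => aP P (heckeRep l x • z)) ∈ Mer (N * l) :=
    fun x => (sig_gam_beta hl x P).choose
  have e1 : ∀ x : OnePoint (ZMod l),
      tau hl x (heckeBetaBar Kb N l (MvPolynomial.aeval (Jd N) P)) = expInf (N * l) ⟨_, hm x⟩ :=
    fun x => (sig_gam_beta hl x P).choose_spec
  rw [Finset.prod_congr rfl fun x _ => e1 x, ← map_prod]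
  have hp : heckeProd l V.1 ∈ Mer (N * l) := by
    have e : heckeProd l V.1 = ∏ x : OnePoint (ZMod l), fun z : ℍ => aP P (heckeRep l x • z) := by
      funext z
      rw [heckeProd_apply, Finset.prod_apply]
    rw [e]
    exact Subalgebra.prod_mem _ fun x _ => hm x
  have e2 : (∏ x : OnePoint (ZMod l), (⟨_, hm x⟩ : Mer (N * l))) = ⟨heckeProd l V.1, hp⟩ := by
    apply Subtype.ext
    rw [SubmonoidClass.coe_finsetProd]
    funext z
    rw [Finset.prod_apply]
    rfl
  rw [e2, expInf_level (N * l) ⟨_, heckeProd_mem_Mer_one (l := l) V⟩ hp, expInf_heckeProd, hV,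
    expInf_aP, iotaF_apply, thetaHom_apply, thetaHom_apply, coe_TT (heckeMem hl),
    coeffMap_iota_heckeS _ (zl_spec l)]

theorem TT_zero (hl : ¬ l ∣ N) : TT N l (0 : FN N) = 0 := by
  apply Subtype.ext
  rw [coe_TT (heckeMem hl)]
  exact heckeS_zero _

theorem prod_tau_beta (hl : ¬ l ∣ N) (a : FN N) :
    ∏ x, tau hl x (heckeBetaBar Kb N l a) = iotaF N l (TT N l a) := by
  obtain ⟨P, Q, rfl⟩ := exists_aeval_div N a
  by_cases hQ : MvPolynomial.aeval (Jd N) Q = 0
  · have := prod_tau_beta_aeval hl (0 : MvPolynomial (Dv N) Kb)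
    rw [map_zero] at this
    rw [hQ, div_zero]
    exact this
  · rw [TT_div (heckeMem hl) hQ, map_div₀ (iotaF N l), ← prod_tau_beta_aeval,
      ← prod_tau_beta_aeval, ← Finset.prod_div_distrib]
    refine Finset.prod_congr rfl fun x _ => ?_
    rw [map_div₀, map_div₀]

/-- **[SP5]** the norm of `β x` along `α` is `TT N l x`. -/
theorem norm_heckeBeta (hl : ¬ l ∣ N) (x : FN N) :
    (letI := AlgebraicCurve.algebraAlong (heckeAlphaBar Kb N l)
     Algebra.norm (FN N) (heckeBetaBar Kb N l x)) = TT N l x := by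
  letI := AlgebraicCurve.algebraAlong (heckeAlphaBar Kb N l)
  have hfr : Module.finrank (FN N) (FN (N * l)) = l + 1 := finrank_alpha hl
  haveI : FiniteDimensional (FN N) (FN (N * l)) :=
    Module.finite_of_finrank_pos (by rw [hfr]; exact Nat.succ_pos l)
  apply (iotaF N l).injective
  rw [← prod_tau_beta hl]
  refine norm_eq_prod_of_embeddings (iotaF N l) (tau hl) (fun y a => ?_) (tau_injective hl) ?_ _
  · exact sig_alpha' (gam hl y) (gam_mem hl y) a
  · rw [hfr]
    exact (Fintype.card_option (α := ZMod l)).trans (by rw [ZMod.card])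

theorem finiteAlong_alpha (hl : ¬ l ∣ N) :
    AlgebraicCurve.FiniteAlong Kb (heckeAlphaBar Kb N l) := by
  letI := AlgebraicCurve.algebraAlong (heckeAlphaBar Kb N l)
  have hfr : Module.finrank (FN N) (FN (N * l)) = l + 1 := finrank_alpha hl
  exact Module.finite_of_finrank_pos (by rw [hfr]; exact Nat.succ_pos l)

theorem finrankAlong_alpha (hl : ¬ l ∣ N) :
    AlgebraicCurve.finrankAlong Kb (heckeAlphaBar Kb N l) = l + 1 := finrank_alpha hl

end Fermat.Agent.S37.NH
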