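import Mathlib
import Fermat.Agent.S29.ES
import Fermat.Agent.S18.V1

set_option autoImplicit false
set_option synthInstance.maxHeartbeats 400000
set_option linter.style.haveILetI false
set_option linter.unusedSectionVars false

/-! # S37 [SP3] (ii): the decomposition group acts on the reduction at level `M` -/

namespace Fermat.Agent.S37

noncomputable section

open ModularCurve AlgebraicCurve IntermediateField Fermat.Agent.S24
open Fermat.Agent.S18 Fermat.Agent.S18.Mo1 Fermat.Agent.S18.R1 Fermat.Agent.S29.ES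

variable (A : ValuationSubring Kb)

/-- the residue field of `A`. -/
abbrev kA : Type := IsLocalRing.ResidueField A

/-- the residue map of `A`. -/
abbrev πA : A →+* kA A := IsLocalRing.residue A

theorem πA_surj : Function.Surjective (πA A) := IsLocalRing.residue_surjective

/-- the automorphism of the residue field induced by an element of the decomposition group. -/
def resAut (g : A.decompositionSubgroup ℚ) : kA A ≃+* kA A :=
  MulSemiringAction.toRingEquiv _ (kA A) g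

theorem resAut_apply (g : A.decompositionSubgroup ℚ) (r : kA A) : resAut A g r = g • r := rfl

theorem resAut_symm (g : A.decompositionSubgroup ℚ) : (resAut A g).symm = resAut A g⁻¹ := rfl

theorem resAut_inertia (g : A.decompositionSubgroup ℚ) (hg : g ∈ A.inertiaSubgroup ℚ) :
    resAut A g = RingEquiv.refl _ := by
  ext r
  have : g • r = r := by
    have := congrArg (fun f => f r) (MonoidHom.mem_ker.mp hg)
    simpa using this
  exact this

theorem resAut_frob {ℓ : ℕ} (σ : Kb ≃ₐ[ℚ] Kb) (hσ : σ ∈ A.decompositionSubgroup ℚ)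
    (hfr : ∀ x : kA A, (⟨σ, hσ⟩ : A.decompositionSubgroup ℚ) • x = x ^ ℓ) (r : kA A) :
    resAut A ⟨σ, hσ⟩ r = r ^ ℓ := hfr r

variable {A} {M : ℕ}
variable (G : GenData A (πA A) (modularFunctionFieldBar M))

theorem gal_mem_O (g : A.decompositionSubgroup ℚ) {x : FN M} (hx : x ∈ (G.V (πA_surj A)).O) :
    gal M (g : Kb ≃ₐ[ℚ] Kb) x ∈ (G.V (πA_surj A)).O := by
  obtain ⟨s, a, hs, e⟩ := hx
  refine ⟨gW A M g s, gW A M g a, ?_, ?_⟩
  · rw [rW_gW A M g (resAut A g : kA A →+* kA A) (fun r => rfl)]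
    exact (map_ne_zero_iff _ (S24.coeffMap_injective _ (resAut A g).injective)).2 hs
  · rw [iW_gW, iW_gW, ← map_mul, e]

theorem gal_mem_O_iff (g : A.decompositionSubgroup ℚ) {x : FN M} :
    gal M (g : Kb ≃ₐ[ℚ] Kb) x ∈ (G.V (πA_surj A)).O ↔ x ∈ (G.V (πA_surj A)).O := by
  refine ⟨fun h => ?_, gal_mem_O G g⟩
  have h1 := gal_mem_O G g⁻¹ h
  have h2 : gal M ((g⁻¹ : A.decompositionSubgroup ℚ) : Kb ≃ₐ[ℚ] Kb) (gal M (g : Kb ≃ₐ[ℚ] Kb) x)
      = x := (gal M (g : Kb ≃ₐ[ℚ] Kb)).symm_apply_apply x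
  rwa [h2] at h1

theorem coe_rd_gal (g : A.decompositionSubgroup ℚ) (x : FN M) :
    (((G.V (πA_surj A)).rd (gal M (g : Kb ≃ₐ[ℚ] Kb) x) : G.kp (πA_surj A)) : LaurentSeries (kA A))
      = coeffMap (resAut A g : kA A →+* kA A) ((G.V (πA_surj A)).rd x : G.kp (πA_surj A)) := by
  by_cases hx : x ∈ (G.V (πA_surj A)).O
  · have hx' := gal_mem_O G g hx
    rw [vdata_rd G.normHyp (πA_surj A) hx, vdata_rd G.normHyp (πA_surj A) hx']
    obtain ⟨s, a, hs, e⟩ := hx
    have hs' : rW A (πA A) _ (gW A M g s) ≠ 0 := by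
      rw [rW_gW A M g (resAut A g : kA A →+* kA A) (fun r => rfl)]
      exact (map_ne_zero_iff _ (S24.coeffMap_injective _ (resAut A g).injective)).2 hs
    have e' : iW A _ (gW A M g s) * gal M (g : Kb ≃ₐ[ℚ] Kb) x = iW A _ (gW A M g a) := by
      rw [iW_gW, iW_gW, ← map_mul, e]
    rw [rdF_eq_div hs e, rdF_eq_div hs' e',
      rW_gW A M g (resAut A g : kA A →+* kA A) (fun r => rfl),
      rW_gW A M g (resAut A g : kA A →+* kA A) (fun r => rfl), map_div₀]
  · have hx' : gal M (g : Kb ≃ₐ[ℚ] Kb) x ∉ (G.V (πA_surj A)).O := fun h =>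
      hx ((gal_mem_O_iff G g).1 h)
    rw [(G.V (πA_surj A)).rd_of_not_mem hx, (G.V (πA_surj A)).rd_of_not_mem hx']
    simp

theorem coeffMap_mem_kp (g : A.decompositionSubgroup ℚ) (y : G.kp (πA_surj A)) :
    coeffMap (resAut A g : kA A →+* kA A) (y : LaurentSeries (kA A)) ∈ G.kp (πA_surj A) := by
  obtain ⟨x, -, rfl⟩ := (G.V (πA_surj A)).rd_surj y
  rw [← coe_rd_gal]
  exact SetLike.coe_mem _

/-- the automorphism of the residue function field induced by an element of the decomposition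
group. -/
def sbar (g : A.decompositionSubgroup ℚ) : G.kp (πA_surj A) ≃+* G.kp (πA_surj A) where
  toFun y := ⟨coeffMap (resAut A g : kA A →+* kA A) (y : LaurentSeries (kA A)),
    coeffMap_mem_kp G g y⟩
  invFun y := ⟨coeffMap (resAut A g⁻¹ : kA A →+* kA A) (y : LaurentSeries (kA A)),
    coeffMap_mem_kp G g⁻¹ y⟩
  left_inv y := Subtype.ext <| by
    show coeffMap (resAut A g⁻¹ : kA A →+* kA A) (coeffMap (resAut A g : kA A →+* kA A)
      (y : LaurentSeries (kA A))) = (y : LaurentSeries (kA A))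
    rw [coeffMap_coeffMap,
      coeffMap_congr (g := RingHom.id (kA A)) (RingHom.ext fun a => inv_smul_smul g a)
        (y : LaurentSeries (kA A)), coeffMap_id]
  right_inv y := Subtype.ext <| by
    show coeffMap (resAut A g : kA A →+* kA A) (coeffMap (resAut A g⁻¹ : kA A →+* kA A)
      (y : LaurentSeries (kA A))) = (y : LaurentSeries (kA A))
    rw [coeffMap_coeffMap,
      coeffMap_congr (g := RingHom.id (kA A)) (RingHom.ext fun a => smul_inv_smul g a)
        (y : LaurentSeries (kA A)), coeffMap_id]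
  map_mul' x y := Subtype.ext (map_mul (coeffMap (resAut A g : kA A →+* kA A))
    (x : LaurentSeries (kA A)) (y : LaurentSeries (kA A)))
  map_add' x y := Subtype.ext (map_add (coeffMap (resAut A g : kA A →+* kA A))
    (x : LaurentSeries (kA A)) (y : LaurentSeries (kA A)))

theorem coe_sbar (g : A.decompositionSubgroup ℚ) (y : G.kp (πA_surj A)) :
    ((sbar G g y : G.kp (πA_surj A)) : LaurentSeries (kA A)) =
      coeffMap (resAut A g : kA A →+* kA A) (y : LaurentSeries (kA A)) := rfl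

/-- **(ii)** the reduction is equivariant for the decomposition group. -/
theorem rd_gal (g : A.decompositionSubgroup ℚ) (x : FN M) :
    (G.V (πA_surj A)).rd (gal M (g : Kb ≃ₐ[ℚ] Kb) x) = sbar G g ((G.V (πA_surj A)).rd x) :=
  Subtype.ext (coe_rd_gal G g x)

theorem sbar_congr {g g' : A.decompositionSubgroup ℚ} (h : resAut A g = resAut A g') :
    sbar G g = sbar G g' := by
  refine RingEquiv.ext fun y => Subtype.ext ?_
  rw [coe_sbar, coe_sbar, h]

theorem sbar_algebraMap (g : A.decompositionSubgroup ℚ) (c : kA A) :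
    sbar G g (algebraMap (kA A) (G.kp (πA_surj A)) c) =
      algebraMap (kA A) (G.kp (πA_surj A)) (resAut A g c) :=
  Subtype.ext (coeffMap_algebraMap (resAut A g : kA A →+* kA A) c)

/-- inertia acts trivially on the reduction. -/
theorem sbar_inertia (g : A.decompositionSubgroup ℚ) (hg : g ∈ A.inertiaSubgroup ℚ) :
    sbar G g = RingEquiv.refl _ := by
  refine RingEquiv.ext fun y => Subtype.ext ?_
  rw [coe_sbar, resAut_inertia A g hg]
  exact coeffMap_id (y : LaurentSeries (kA A))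

/-- two Frobenius lifts act in the same way on the reduction. -/
theorem sbar_frob {ℓ : ℕ} {σ σ' : Kb ≃ₐ[ℚ] Kb} (hσ : σ ∈ A.decompositionSubgroup ℚ)
    (hσ' : σ' ∈ A.decompositionSubgroup ℚ)
    (hfr : ∀ x : kA A, (⟨σ, hσ⟩ : A.decompositionSubgroup ℚ) • x = x ^ ℓ)
    (hfr' : ∀ x : kA A, (⟨σ', hσ'⟩ : A.decompositionSubgroup ℚ) • x = x ^ ℓ) :
    sbar G ⟨σ, hσ⟩ = sbar G ⟨σ', hσ'⟩ :=
  sbar_congr G (RingEquiv.ext fun r => (hfr r).trans (hfr' r).symm)

/-- the Galois action on divisors of level `M`. -/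
abbrev aG (M : ℕ) (σ : Kb ≃ₐ[ℚ] Kb) : SemilinearAut Kb (FN M) :=
  arithmeticGalois (modularFunctionFieldFull M) σ

theorem aG_smul (σ : Kb ≃ₐ[ℚ] Kb) (x : FN M) : aG M σ • x = gal M σ x := rfl

theorem ord_gal (σ : Kb ≃ₐ[ℚ] Kb) (P : Place Kb (FN M)) (x : FN M) :
    (aG M σ • P).ord (gal M σ x) = P.ord x := SemilinearAut.ord_smul (aG M σ) P x

theorem gal_mem_Lof (σ : Kb ≃ₐ[ℚ] Kb) (D : Divisor Kb (FN M)) {x : FN M}
    (hx : x ∈ Lof (D : Place Kb (FN M) → ℤ)) :
    gal M σ x ∈ Lof ((aG M σ • D : Divisor Kb (FN M)) : Place Kb (FN M) → ℤ) := by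
  rcases hx with rfl | hx
  · exact Or.inl (map_zero _)
  · refine Or.inr fun P => ?_
    have h1 := ord_gal σ ((aG M σ)⁻¹ • P) x
    rw [smul_inv_smul] at h1
    rw [h1, SemilinearAut.divisor_smul_apply]
    exact hx _

theorem gal_mem_Lof_iff (σ : Kb ≃ₐ[ℚ] Kb) (D : Divisor Kb (FN M)) {x : FN M} :
    gal M σ x ∈ Lof ((aG M σ • D : Divisor Kb (FN M)) : Place Kb (FN M) → ℤ) ↔
      x ∈ Lof (D : Place Kb (FN M) → ℤ) := by
  refine ⟨fun h => ?_, gal_mem_Lof σ D⟩
  rcases h with h | h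
  · exact Or.inl ((map_eq_zero_iff _ (gal M σ).injective).1 h)
  · refine Or.inr fun P => ?_
    have h1 := h (aG M σ • P)
    rwa [ord_gal, SemilinearAut.divisor_smul_apply_smul] at h1

/-- `L(σ D) = σ L(D)`. -/
theorem Lof_smul (σ : Kb ≃ₐ[ℚ] Kb) (D : Divisor Kb (FN M)) :
    (Lof ((aG M σ • D : Divisor Kb (FN M)) : Place Kb (FN M) → ℤ) : Set (FN M)) =
      gal M σ '' (Lof (D : Place Kb (FN M) → ℤ) : Set (FN M)) := by
  ext y
  constructor
  · intro hy
    obtain ⟨x, rfl⟩ := (gal M σ).surjective y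
    exact ⟨x, (gal_mem_Lof_iff σ D).1 hy, rfl⟩
  · rintro ⟨x, hx, rfl⟩
    exact gal_mem_Lof σ D hx

/-- **(ii)** the reduction of `L(σ D)` is `sbar` of the reduction of `L(D)`. -/
theorem redSpace_smul (g : A.decompositionSubgroup ℚ) (D : Divisor Kb (FN M)) :
    ((G.V (πA_surj A)).redSpace
      (Lof ((aG M (g : Kb ≃ₐ[ℚ] Kb) • D : Divisor Kb (FN M)) : Place Kb (FN M) → ℤ)) :
        Set (G.kp (πA_surj A))) =
      sbar G g '' ((G.V (πA_surj A)).redSpace (Lof (D : Place Kb (FN M) → ℤ)) :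
        Set (G.kp (πA_surj A))) := by
  ext y
  constructor
  · rintro ⟨x, hx, hxO, rfl⟩
    obtain ⟨x, rfl⟩ := (gal M (g : Kb ≃ₐ[ℚ] Kb)).surjective x
    exact ⟨_, ⟨x, (gal_mem_Lof_iff _ D).1 hx, (gal_mem_O_iff G g).1 hxO, rfl⟩, (rd_gal G g x).symm⟩
  · rintro ⟨_, ⟨x, hx, hxO, rfl⟩, rfl⟩
    exact ⟨_, gal_mem_Lof _ D hx, gal_mem_O G g hxO, rd_gal G g x⟩

/-- the divisor of `σ f` is `σ` of the divisor of `f`. -/
theorem smul_principal (σ : Kb ≃ₐ[ℚ] Kb) (D : Divisor Kb (FN M)) (f : FN M)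
    (h : ∀ P, D P = P.ord f) (P : Place Kb (FN M)) :
    (aG M σ • D : Divisor Kb (FN M)) P = P.ord (gal M σ f) := by
  have h1 := ord_gal σ ((aG M σ)⁻¹ • P) f
  rw [smul_inv_smul] at h1
  rw [h1, SemilinearAut.divisor_smul_apply, h]

end

end Fermat.Agent.S37
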