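import Mathlib
import Fermat.Agent.S18.R1d
import Fermat.Agent.S18.NormalBasisF
import Fermat.Agent.S24.Degree
import Fermat.Agent.S18.ModB
import Fermat.Prelude.Def_ModularCurve_HeckeOperatorTotal

set_option autoImplicit false
set_option linter.unusedSectionVars false
set_option linter.style.haveILetI false

/-! # S37 [SP4a]: principal divisors, functions with a single pole, the fundamental identity -/

namespace Fermat.Agent.S37

open AlgebraicCurve IntermediateField Fermat.Agent.S24 Fermat.Agent.S18 Fermat.Agent.S18.R1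
open scoped Classical

variable {K F : Type} [Field K] [Field F] [Algebra K F] [IsAlgClosed K] [CharZero K]

/-- principal divisors exist and have degree `0`. -/
theorem hasPrincipalDivisors (x : F) (hx : Transcendental K x) [FiniteDimensional K⟮x⟯ F] :
    HasPrincipalDivisors K F where
  exists_divisor f hf := by
    have hfin : (Function.support fun v : Place K F => v.ord f).Finite :=
      finite_support_ord x hx f hf
    refine ⟨Finsupp.ofSupportFinite (fun v : Place K F => v.ord f) hfin, fun v => rfl, ?_⟩
    rw [degree_eq_sum x hx, ← finsum_ord_eq_zero x hx f hf]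
    symm
    apply finsum_eq_sum_of_support_subset
    intro v hv
    rw [Finset.mem_coe, Finsupp.mem_support_iff]
    exact hv

/-- a nonconstant function whose only pole is `v`. -/
theorem exists_pole_only (x : F) (hx : Transcendental K x) [FiniteDimensional K⟮x⟯ F]
    (v : Place K F) : ∃ t : F, Transcendental K t ∧ ∀ P : Place K F, P ≠ v → 0 ≤ P.ord t := by
  obtain ⟨π, hπ⟩ := exists_ord_eq_one v
  have hπ0 : π ≠ 0 := by
    rintro rfl
    simp at hπ
  set y : F := π⁻¹ with hy
  have hyord : v.ord y = -1 := by rw [hy, v.ord_inv, hπ]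
  have hytr : Transcendental K y := by
    intro halg
    obtain ⟨a, ha⟩ := exists_algebraMap_eq_of_isAlgebraic halg
    rw [← ha, ord_algebraMap] at hyord
    omega
  haveI : FiniteDimensional K⟮y⟯ F := finiteDimensional_adjoin_of_transcendental x y hx hytr
  obtain ⟨g, m0, hfd, hL, -⟩ := NB.exists_Lsp_formula (K := K) hytr
  set n : ℤ := (Module.finrank K⟮y⟯ F : ℤ) with hn
  -- choose `m`
  set m : ℤ := max (max m0 (g + 1)) 0 with hm
  have hm0 : m0 ≤ m := (le_max_left _ _).trans (le_max_left _ _)
  have hmg : g + 1 ≤ m := (le_max_right _ _).trans (le_max_left _ _)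
  have hmnn : 0 ≤ m := le_max_right _ _
  set dv : Place K F → ℤ := fun P => if P = v then m else 0 with hdv
  set G : Place K F → ℤ := fun P => Efun y m 0 P - dv P with hG
  have hG0 : ∀ P, 0 ≤ G P := by
    intro P
    simp only [hG, hdv, Efun]
    by_cases hP : P = v
    · subst hP
      rw [if_pos rfl, hyord]
      simp
    · rw [if_neg hP]
      have : (0 : ℤ) ≤ max (-(P.ord y)) 0 := le_max_right _ _
      nlinarith
  have hsupp1 : (Function.support fun P : Place K F => max (-(P.ord y)) 0).Finite :=
    support_pole_finite y hytr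
  have hsuppdv : (Function.support dv).Finite := by
    refine (Set.finite_singleton v).subset ?_
    intro P hP
    by_contra hne
    exact hP (if_neg hne)
  have hsuppE : (Function.support (Efun (K := K) y m 0)).Finite := by
    refine hsupp1.subset ?_
    intro P hP
    rw [Function.mem_support] at hP ⊢
    intro h
    apply hP
    simp only [Efun, h]
    ring
  have hGfin : (Function.support G).Finite := by
    refine (hsuppE.union hsuppdv).subset ?_
    intro P hP
    by_contra hne
    rw [Set.mem_union, not_or, Function.notMem_support, Function.notMem_support] at hne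
    apply hP
    simp only [hG, hne.1, hne.2, sub_zero]
  obtain ⟨Gf, hGf, hGsum⟩ := exists_finsupp G hG0 hGfin
  have hsumG : ∑ᶠ P, G P = m * n - m := by
    have h1 : ∑ᶠ P, G P = ∑ᶠ P, Efun (K := K) y m 0 P - ∑ᶠ P, dv P :=
      finsum_sub_distrib hsuppE hsuppdv
    have h2 : ∑ᶠ P, Efun (K := K) y m 0 P = m * n := by
      have : (fun P : Place K F => Efun y m 0 P) = fun P => m * max (-(P.ord y)) 0 := by
        funext P
        simp only [Efun]
        ring
      rw [this, ← mul_finsum (fun P : Place K F => max (-(P.ord y)) 0) m, finsum_pole y hytr]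
    have h3 : ∑ᶠ P, dv P = m := by
      rw [finsum_eq_single dv v (fun P hP => if_neg hP)]
      exact if_pos rfl
    rw [h1, h2, h3]
  have hle := finrank_Lof_le_sub y hytr Gf (Efun (K := K) y m 0)
  have hfun : (fun P : Place K F => Efun y m 0 P - (Gf P : ℤ)) = dv := by
    funext P
    rw [hGf P]
    simp only [hG]
    ring
  rw [hfun, ← Lsp_eq_Lof y hytr] at hle
  have hLm := hL m 0 (by omega)
  have h2 : 2 ≤ Module.finrank K (Lof dv) := by
    have h3 : (Module.finrank K (Lsp K y m 0) : ℤ) ≤
        (Module.finrank K (Lof dv) : ℤ) + ((Gf.sum fun _ k => k : ℕ) : ℤ) := by exact_mod_cast hle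
    rw [hLm, hGsum, hsumG] at h3
    have : (2 : ℤ) ≤ (Module.finrank K (Lof dv) : ℤ) := by
      have e : (m + 0) * (Module.finrank K⟮y⟯ F : ℤ) = m * n := by rw [add_zero]
      rw [e] at h3
      linarith
    exact_mod_cast this
  -- a nonconstant element
  haveI : Module.Finite K (Lof dv) := Module.finite_of_finrank_pos (by omega)
  have hex : ∃ t ∈ Lof dv, t ∉ (K ∙ (1 : F)) := by
    by_contra hcon
    push Not at hcon
    have h3 : Lof dv ≤ K ∙ (1 : F) := hcon
    have h4 := Submodule.finrank_mono h3
    have h5 : Module.finrank K (K ∙ (1 : F)) ≤ 1 := (finrank_span_singleton (one_ne_zero)).le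
    omega
  obtain ⟨t, ht, htK⟩ := hex
  have httr : Transcendental K t := by
    intro halg
    obtain ⟨a, ha⟩ := exists_algebraMap_eq_of_isAlgebraic halg
    apply htK
    rw [Submodule.mem_span_singleton]
    exact ⟨a, by rw [← ha, Algebra.smul_def, mul_one]⟩
  refine ⟨t, httr, fun P hP => ?_⟩
  have ht0 : t ≠ 0 := by
    rintro rfl
    exact htK (Submodule.zero_mem _)
  have := (mem_Lof_of_ne ht0).mp ht P
  simp only [hdv, if_neg hP, neg_zero] at this
  exact this

/-! ## towers -/

section Tower

variable {F' : Type} [Field F'] [Algebra K F'] [Algebra F F'] [IsScalarTower K F F']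

omit [IsAlgClosed K] [CharZero K] in
theorem finrank_adjoin_algebraMap (t : F) [FiniteDimensional K⟮t⟯ F] [Module.Finite F F'] :
    Module.finrank K⟮algebraMap F F' t⟯ F' = Module.finrank K⟮t⟯ F * Module.finrank F F' := by
  haveI : IsScalarTower K⟮t⟯ F F' := inferInstance
  rw [Module.finrank_mul_finrank K⟮t⟯ F F']
  let φ : F →ₐ[K] F' := IsScalarTower.toAlgHom K F F'
  have hmap : K⟮t⟯.map φ = K⟮algebraMap F F' t⟯ := by
    rw [IntermediateField.adjoin_map, Set.image_singleton]
    rfl
  let e : K⟮t⟯ ≃ₐ[K] K⟮algebraMap F F' t⟯ :=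
    (IntermediateField.equivMap K⟮t⟯ φ).trans (IntermediateField.equivOfEq hmap)
  symm
  refine Algebra.finrank_eq_of_equiv_equiv e.toRingEquiv (RingEquiv.refl F') ?_
  ext a
  rfl

omit [IsAlgClosed K] [CharZero K] in
theorem finiteDimensional_adjoin_algebraMap (t : F) [FiniteDimensional K⟮t⟯ F]
    [Module.Finite F F'] : FiniteDimensional K⟮algebraMap F F' t⟯ F' := by
  apply Module.finite_of_finrank_pos
  rw [finrank_adjoin_algebraMap t]
  exact Nat.mul_pos Module.finrank_pos Module.finrank_pos

/-- the fundamental identity `∑ e_w = [F' : F]`. -/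
theorem fundamentalIdentity [Algebra.IsIntegral F F'] [HasPrincipalDivisors K F']
    [Module.Finite F F'] (x : F) (hx : Transcendental K x) [FiniteDimensional K⟮x⟯ F] :
    FundamentalIdentity K F F' where
  sum_ramificationIndex_mul_deg v := by
    obtain ⟨t, httr, htv⟩ := exists_pole_only x hx v
    haveI : FiniteDimensional K⟮t⟯ F := finiteDimensional_adjoin_of_transcendental x t hx httr
    haveI : FiniteDimensional K⟮algebraMap F F' t⟯ F' := finiteDimensional_adjoin_algebraMap t
    have httr' : Transcendental K (algebraMap F F' t) :=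
      (transcendental_algebraMap_iff (algebraMap F F').injective).mpr httr
    have h1 := finsum_pole t httr
    have h2 := finsum_pole (algebraMap F F' t) httr'
    rw [finrank_adjoin_algebraMap t] at h2
    rw [finsum_eq_single _ v (fun P hP => max_eq_right (by have := htv P hP; omega))] at h1
    have hpos : (0 : ℤ) < (Module.finrank K⟮t⟯ F : ℤ) := by exact_mod_cast Module.finrank_pos
    have hsub : (Function.support fun P : Place K F' => max (-(P.ord (algebraMap F F' t))) 0) ⊆
        ((v.fiber F' : Finset (Place K F')) : Set (Place K F')) := by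
      intro w hw
      rw [Finset.mem_coe, Place.mem_fiber]
      by_contra hne
      apply hw
      have := htv _ hne
      show max (-(w.ord (algebraMap F F' t))) 0 = 0
      rw [Place.ord_restrict]
      apply max_eq_right
      have h3 : (0 : ℤ) ≤ (w.ramificationIndex F : ℤ) := Int.natCast_nonneg _
      nlinarith
    rw [finsum_eq_sum_of_support_subset _ hsub] at h2
    have h4 : ∀ w ∈ v.fiber F', max (-(w.ord (algebraMap F F' t))) 0 =
        (w.ramificationIndex F : ℤ) * (Module.finrank K⟮t⟯ F : ℤ) := by
      intro w hw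
      rw [Place.ord_restrict, Place.mem_fiber.mp hw, ← h1]
      have h3 : (0 : ℤ) ≤ (w.ramificationIndex F : ℤ) := Int.natCast_nonneg _
      rw [← mul_neg, mul_max_of_nonneg _ _ h3, mul_zero]
    rw [Finset.sum_congr rfl h4, ← Finset.sum_mul] at h2
    have h5 : ∑ w ∈ v.fiber F', (w.ramificationIndex F : ℤ) = (Module.finrank F F' : ℤ) := by
      apply mul_right_cancel₀ hpos.ne'
      rw [h2]
      push_cast
      ring
    rw [deg_eq_one x hx v, ← h5]
    have hx' : Transcendental K (algebraMap F F' x) :=
      (transcendental_algebraMap_iff (algebraMap F F').injective).mpr hx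
    haveI : FiniteDimensional K⟮algebraMap F F' x⟯ F' := finiteDimensional_adjoin_algebraMap x
    simp only [Nat.cast_one, mul_one]
    apply Finset.sum_congr rfl
    intro w _
    rw [deg_eq_one (algebraMap F F' x) hx' w]
    simp

end Tower

/-! ## versions along an algebra hom -/

section Along

variable {F' : Type} [Field F'] [Algebra K F']

omit [IsAlgClosed K] [CharZero K] in
theorem finiteAlong_of (φ : F →ₐ[K] F') (y : F) [FiniteDimensional K⟮φ y⟯ F'] :
    FiniteAlong K φ := by
  letI := algebraAlong φ
  haveI := isScalarTower_along φ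
  show Module.Finite F F'
  -- `F'` is finite over `K⟮φ y⟯`, whose elements are images of elements of `F`
  obtain ⟨s, hs⟩ := (inferInstance : Module.Finite K⟮φ y⟯ F').fg_top
  refine ⟨⟨s, ?_⟩⟩
  rw [eq_top_iff]
  intro z hz0
  clear hz0
  have hz : z ∈ Submodule.span K⟮φ y⟯ (s : Set F') := hs ▸ Submodule.mem_top
  have hle : K⟮φ y⟯ ≤ φ.fieldRange := by
    rw [IntermediateField.adjoin_simple_le_iff]
    exact ⟨y, rfl⟩
  induction hz using Submodule.span_induction with
  | mem a ha => exact Submodule.subset_span ha
  | zero => exact Submodule.zero_mem _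
  | add a b _ _ ha hb => exact Submodule.add_mem _ ha hb
  | smul c a _ ha =>
    obtain ⟨c', hc'⟩ := hle c.2
    have : c • a = c' • a := by
      rw [Algebra.smul_def c' a]
      show (c : F') * a = φ c' * a
      rw [← hc']
      rfl
    rw [this]
    exact Submodule.smul_mem _ _ ha

omit [IsAlgClosed K] [CharZero K] in
theorem isIntegral_of_finiteAlong (φ : F →ₐ[K] F') (h : FiniteAlong K φ) :
    φ.toRingHom.IsIntegral := by
  letI := algebraAlong φ
  haveI : Module.Finite F F' := h
  exact (Algebra.IsIntegral.of_finite F F').isIntegral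

theorem fundamentalIdentityAlong (φ : F →ₐ[K] F') (hφ : φ.toRingHom.IsIntegral)
    [HasPrincipalDivisors K F'] (x : F) (hx : Transcendental K x) [FiniteDimensional K⟮x⟯ F]
    (hfin : FiniteAlong K φ) : FundamentalIdentityAlong K φ hφ := by
  letI := algebraAlong φ
  haveI := isScalarTower_along φ
  haveI := isIntegral_along φ hφ
  haveI : Module.Finite F F' := hfin
  exact fundamentalIdentity x hx

end Along

/-! ## the modular function fields -/

section Modular

open ModularCurve

theorem hasPrincipalDivisors_FN (M : ℕ) [NeZero M] : HasPrincipalDivisors Kb (FN M) :=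
  haveI := ModB.finiteDimensional_FN M
  hasPrincipalDivisors (jF M) (transcendental_jF M)

variable (N ℓ : ℕ) [NeZero N] [NeZero ℓ]

theorem heckeAlphaBar_jF : heckeAlphaBar Kb N ℓ (jF N) = jF (N * ℓ) := by
  apply Subtype.ext
  rw [coe_heckeAlphaBar, coe_jF, coe_jF]

theorem finiteAlong_alpha : FiniteAlong Kb (heckeAlphaBar Kb N ℓ) := by
  haveI : FiniteDimensional Kb⟮heckeAlphaBar Kb N ℓ (jF N)⟯ (FN (N * ℓ)) := by
    rw [heckeAlphaBar_jF]
    exact ModB.finiteDimensional_FN (N * ℓ)
  exact finiteAlong_of (heckeAlphaBar Kb N ℓ) (jF N)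

theorem finiteAlong_beta : FiniteAlong Kb (heckeBetaBar Kb N ℓ) := by
  haveI := ModB.finiteDimensional_FN (N * ℓ)
  haveI : FiniteDimensional Kb⟮heckeBetaBar Kb N ℓ (jF N)⟯ (FN (N * ℓ)) :=
    finiteDimensional_adjoin_of_transcendental (jF (N * ℓ)) _ (transcendental_jF (N * ℓ))
      (fun h => transcendental_jF N
        ((isAlgebraic_algHom_iff (heckeBetaBar Kb N ℓ) (heckeBetaBar Kb N ℓ).injective).mp h))
  exact finiteAlong_of (heckeBetaBar Kb N ℓ) (jF N)

theorem heckeAlphaBarIntegral : HeckeAlphaBarIntegral Kb N ℓ :=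
  isIntegral_of_finiteAlong _ (finiteAlong_alpha N ℓ)

theorem heckeBetaBarIntegral : HeckeBetaBarIntegral Kb N ℓ :=
  isIntegral_of_finiteAlong _ (finiteAlong_beta N ℓ)

theorem fundamentalIdentityAlong_beta [HasPrincipalDivisors Kb (FN (N * ℓ))]
    (hβ : HeckeBetaBarIntegral Kb N ℓ) :
    FundamentalIdentityAlong Kb (heckeBetaBar Kb N ℓ) hβ :=
  haveI := ModB.finiteDimensional_FN N
  fundamentalIdentityAlong _ hβ (jF N) (transcendental_jF N) (finiteAlong_beta N ℓ)

theorem fundamentalIdentityAlong_alpha [HasPrincipalDivisors Kb (FN (N * ℓ))]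
    (hα : HeckeAlphaBarIntegral Kb N ℓ) :
    FundamentalIdentityAlong Kb (heckeAlphaBar Kb N ℓ) hα :=
  haveI := ModB.finiteDimensional_FN N
  fundamentalIdentityAlong _ hα (jF N) (transcendental_jF N) (finiteAlong_alpha N ℓ)

end Modular

end Fermat.Agent.S37
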