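import Mathlib
import Fermat.Agent.S18.AsmK
import Fermat.Agent.S18.R1d

set_option autoImplicit false
set_option linter.unusedSectionVars false
set_option linter.style.haveILetI false

/-! # S37 [SP0], part a: places of a function field which is finite separable over `K(t)`
(any characteristic) -/

namespace Fermat.Agent.S37.RR

open AlgebraicCurve IntermediateField IsDedekindDomain Fermat.Agent.S24 Fermat.Agent.S18
  Fermat.Agent.S18.R1
open scoped Classical
open scoped IntermediateField.algebraAdjoinAdjoin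

variable {K F : Type} [Field K] [Field F] [Algebra K F]

theorem adjoin_le_vs (P : Place K F) (t : F) (h : 0 ≤ P.ord t)
    (r : Algebra.adjoin K {t}) : algebraMap (Algebra.adjoin K {t}) F r ∈ P.toValuationSubring := by
  let S : Subalgebra K F :=
    { P.toValuationSubring.toSubring with algebraMap_mem' := P.algebraMap_mem' }
  have hle : Algebra.adjoin K {t} ≤ S := by
    apply Algebra.adjoin_le
    intro z hz
    rw [Set.mem_singleton_iff] at hz
    rw [hz]
    exact (mem_valuationSubring_iff P t).2 (Or.inr h)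
  exact hle r.2

section Sep

variable (y : F) (hy : Transcendental K y) [FiniteDimensional K⟮y⟯ F]
  [Algebra.IsSeparable K⟮y⟯ F]

include hy in
theorem intOver_iff (x : F) :
    IntOver K y x ↔ ∀ P : Place K F, 0 ≤ P.ord y → 0 ≤ P.ord x := by
  constructor
  · intro hx P hP
    let e0 := Polynomial.algEquivOfTranscendental K y hy
    haveI : IsPrincipalIdealRing (Algebra.adjoin K {y}) :=
      IsPrincipalIdealRing.of_surjective e0.toRingEquiv e0.surjective
    have h1 := algebraMap_mem_of_isIntegral P (adjoin_le_vs P y hP) x hx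
    rcases (mem_valuationSubring_iff P x).1 h1 with rfl | h
    · simp
    · exact h
  · exact AsmK.intOver_of_ord_nonneg y hy x

variable [IsAlgClosed K]

include hy in
theorem main_sep :
    (zeroSet K y).Finite ∧ ∑ᶠ v ∈ zeroSet K y, v.ord y = (Module.finrank K⟮y⟯ F : ℤ) := by
  let e0 := Polynomial.algEquivOfTranscendental K y hy
  haveI : IsPrincipalIdealRing (Algebra.adjoin K {y}) :=
    IsPrincipalIdealRing.of_surjective e0.toRingEquiv e0.surjective
  haveI : IsDedekindDomain (integralClosure (Algebra.adjoin K {y}) F) :=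
    integralClosure.isDedekindDomain (Algebra.adjoin K {y}) K⟮y⟯ F
  haveI : IsFractionRing (integralClosure (Algebra.adjoin K {y}) F) F :=
    integralClosure.isFractionRing_of_finite_extension K⟮y⟯ F
  haveI : Module.Finite (Algebra.adjoin K {y}) (integralClosure (Algebra.adjoin K {y}) F) :=
    IsIntegralClosure.finite (Algebra.adjoin K {y}) K⟮y⟯ F _
  let y' : Algebra.adjoin K {y} := ⟨y, Algebra.self_mem_adjoin_singleton K y⟩
  have hy0 : y' ≠ 0 := by
    intro h
    have h1 : y = 0 := congrArg Subtype.val h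
    exact hy (h1 ▸ isAlgebraic_zero)
  have hmapX : Ideal.span {y'} = (Ideal.span {(Polynomial.X : Polynomial K)}).map
      (e0.toRingEquiv : Polynomial K →+* Algebra.adjoin K {y}) := by
    rw [Ideal.map_span, Set.image_singleton]
    congr 2
    exact (Polynomial.algEquivOfTranscendental_apply_X K y hy).symm
  let e1 : (Polynomial K ⧸ Ideal.span {(Polynomial.X : Polynomial K)}) ≃+*
      (Algebra.adjoin K {y} ⧸ Ideal.span {y'}) :=
    Ideal.quotientEquiv _ _ e0.toRingEquiv hmapX
  have hX : Ideal.span {(Polynomial.X : Polynomial K)} =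
      Ideal.span {(Polynomial.X - Polynomial.C (0 : K) : Polynomial K)} := by simp
  let e2 : (Polynomial K ⧸ Ideal.span {(Polynomial.X : Polynomial K)}) ≃+* K :=
    (Ideal.quotEquivOfEq hX).trans (Polynomial.quotientSpanXSubCAlgEquiv (0 : K)).toRingEquiv
  let e : K ≃+* (Algebra.adjoin K {y} ⧸ Ideal.span {y'}) := e2.symm.trans e1
  haveI hmax : (Ideal.span {y'}).IsMaximal :=
    Ideal.Quotient.maximal_of_isField _ (e.symm.toMulEquiv.isField (Field.toIsField K))
  have hR : ∀ v : Place K F, 0 < v.ord (algebraMap (Algebra.adjoin K {y}) F y') →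
      ∀ r : Algebra.adjoin K {y}, algebraMap (Algebra.adjoin K {y}) F r ∈ v.toValuationSubring :=
    fun v hv r => adjoin_le_vs v y hv.le r
  have := main_abstract (K := K) (F := F) (R := Algebra.adjoin K {y})
    (A := integralClosure (Algebra.adjoin K {y}) F) K⟮y⟯ y' hy0 e hR
  exact ⟨this.1, this.2.1⟩

include hy in
theorem ne_zero_of_tr : y ≠ 0 := by
  rintro rfl
  exact hy isAlgebraic_zero

theorem fd_inv : FiniteDimensional K⟮y⁻¹⟯ F := by rw [adjoin_inv']; infer_instance

theorem sep_inv : Algebra.IsSeparable K⟮y⁻¹⟯ F := by rw [adjoin_inv']; infer_instance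

theorem fd_sub (c : K) : FiniteDimensional K⟮y - algebraMap K F c⟯ F := by
  rw [adjoin_sub_algebraMap]; infer_instance

theorem sep_sub (c : K) : Algebra.IsSeparable K⟮y - algebraMap K F c⟯ F := by
  rw [adjoin_sub_algebraMap]; infer_instance

include hy in
theorem tr_sub (c : K) : Transcendental K (y - algebraMap K F c) := by
  intro h
  apply hy
  have := h.add (isAlgebraic_algebraMap (R := K) (A := F) c)
  rwa [sub_add_cancel] at this

include hy in
theorem finite_support_sep : (Function.support fun v : Place K F => v.ord y).Finite := by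
  haveI := fd_inv (K := K) y
  haveI := sep_inv (K := K) y
  have h := support_ord_eq (K := K) y
  have : Function.support (fun v : Place K F => v.ord y) = {v : Place K F | v.ord y ≠ 0} := rfl
  rw [this, h]
  exact (main_sep y hy).1.union (main_sep y⁻¹ (transcendental_inv hy)).1

include hy in
theorem finsum_ord_sep : ∑ᶠ v : Place K F, v.ord y = 0 := by
  haveI := fd_inv (K := K) y
  haveI := sep_inv (K := K) y
  have hf1 := (main_sep y hy).1
  have hf2 := (main_sep y⁻¹ (transcendental_inv hy)).1
  have hdisj : Disjoint (zeroSet K y) (zeroSet K y⁻¹) := by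
    rw [Set.disjoint_left]
    intro v hv hv'
    have h3 : 0 < v.ord y := hv
    have h4 : 0 < v.ord y⁻¹ := hv'
    rw [v.ord_inv] at h4
    omega
  have hsupp : Function.support (fun v : Place K F => v.ord y) ⊆ zeroSet K y ∪ zeroSet K y⁻¹ := by
    rw [← support_ord_eq]
    intro v hv
    exact hv
  have hU : ∑ᶠ v : Place K F, v.ord y = ∑ᶠ v ∈ zeroSet K y ∪ zeroSet K y⁻¹, v.ord y := by
    rw [← finsum_mem_univ]
    apply finsum_mem_inter_support_eq
    rw [Set.univ_inter, Set.inter_eq_right.mpr hsupp]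
  rw [hU, finsum_mem_union hdisj hf1 hf2, (main_sep y hy).2]
  have h5 : ∑ᶠ v ∈ zeroSet K y⁻¹, v.ord y = - ∑ᶠ v ∈ zeroSet K y⁻¹, v.ord y⁻¹ := by
    rw [← finsum_mem_neg_distrib _ hf2]
    refine finsum_mem_congr rfl fun v _ => ?_
    rw [v.ord_inv, neg_neg]
  rw [h5, (main_sep y⁻¹ (transcendental_inv hy)).2]
  have h6 : Module.finrank K⟮y⁻¹⟯ F = Module.finrank K⟮y⟯ F := by
    rw [adjoin_inv']
  rw [h6]
  ring

include hy in
theorem finsum_pole_sep :
    ∑ᶠ P : Place K F, max (-(P.ord y)) 0 = (Module.finrank K⟮y⟯ F : ℤ) := by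
  haveI := fd_inv (K := K) y
  haveI := sep_inv (K := K) y
  have h := (main_sep y⁻¹ (transcendental_inv hy)).2
  have h6 : Module.finrank K⟮y⁻¹⟯ F = Module.finrank K⟮y⟯ F := by
    rw [adjoin_inv']
  rw [h6, finsum_mem_def] at h
  rw [← h]
  refine finsum_congr fun P => ?_
  by_cases hP : P ∈ zeroSet K y⁻¹
  · rw [Set.indicator_of_mem hP]
    have : 0 < P.ord y⁻¹ := hP
    rw [P.ord_inv] at this ⊢
    exact max_eq_left this.le
  · rw [Set.indicator_of_notMem hP]
    have : ¬ 0 < P.ord y⁻¹ := hP
    rw [P.ord_inv] at this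
    exact max_eq_right (by omega)

include hy in
theorem finsum_zero_sep :
    ∑ᶠ P : Place K F, max (P.ord y) 0 = (Module.finrank K⟮y⟯ F : ℤ) := by
  have h := (main_sep y hy).2
  rw [finsum_mem_def] at h
  rw [← h]
  refine finsum_congr fun P => ?_
  by_cases hP : P ∈ zeroSet K y
  · rw [Set.indicator_of_mem hP]
    have : 0 < P.ord y := hP
    exact max_eq_left this.le
  · rw [Set.indicator_of_notMem hP]
    have : ¬ 0 < P.ord y := hP
    exact max_eq_right (by omega)

include hy in
theorem finite_pos_of_intOver (a : F) (ha0 : a ≠ 0) (ha : IntOver K y a) :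
    {P : Place K F | 0 ≤ P.ord y ∧ 0 < P.ord a}.Finite := by
  let e0 := Polynomial.algEquivOfTranscendental K y hy
  haveI : IsPrincipalIdealRing (Algebra.adjoin K {y}) :=
    IsPrincipalIdealRing.of_surjective e0.toRingEquiv e0.surjective
  haveI : IsDedekindDomain (integralClosure (Algebra.adjoin K {y}) F) :=
    integralClosure.isDedekindDomain (Algebra.adjoin K {y}) K⟮y⟯ F
  haveI : IsFractionRing (integralClosure (Algebra.adjoin K {y}) F) F :=
    integralClosure.isFractionRing_of_finite_extension K⟮y⟯ F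
  let a' : integralClosure (Algebra.adjoin K {y}) F := ⟨a, ha⟩
  have ha'0 : a' ≠ 0 := fun h => ha0 (congrArg Subtype.val h)
  have hfin : {w : HeightOneSpectrum (integralClosure (Algebra.adjoin K {y}) F) |
      a' ∈ w.asIdeal}.Finite := by
    have h := Ideal.finite_factors (I := Ideal.span {a'})
      (by rwa [Ne, Ideal.zero_eq_bot, Ideal.span_singleton_eq_bot])
    refine h.subset ?_
    intro w hw
    simp only [Set.mem_setOf_eq] at hw ⊢
    rw [Ideal.dvd_iff_le, Ideal.span_singleton_le_iff_mem]
    exact hw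
  refine (hfin.image (Place.ofHeightOneSpectrum (K := K) (F := F))).subset ?_
  rintro P ⟨hP, hPa⟩
  have hA : ∀ b : integralClosure (Algebra.adjoin K {y}) F,
      algebraMap (integralClosure (Algebra.adjoin K {y}) F) F b ∈ P.toValuationSubring :=
    fun b => algebraMap_mem_of_isIntegral P (adjoin_le_vs P y hP) _ b.2
  obtain ⟨w, rfl⟩ := exists_eq_ofHeightOneSpectrum P hA
  refine ⟨w, ?_, rfl⟩
  exact (ord_ofHeightOneSpectrum_pos_iff (K := K) (F := F) w a' ha'0).1 hPa

include hy in
theorem exists_num_sep (f : F) (hf : f ≠ 0) : ∃ f₁ f₂ : F, f₁ ≠ 0 ∧ f₂ ≠ 0 ∧ f = f₁ / f₂ ∧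
    IntOver K y f₁ ∧ IntOver K y f₂ := by
  haveI : IsFractionRing (integralClosure (Algebra.adjoin K {y}) F) F :=
    integralClosure.isFractionRing_of_finite_extension K⟮y⟯ F
  obtain ⟨a, s, hs, rfl⟩ :=
    IsFractionRing.div_surjective (A := integralClosure (Algebra.adjoin K {y}) F) f
  refine ⟨a, s, ?_, ?_, rfl, a.2, s.2⟩
  · rintro h
    apply hf
    have : algebraMap (integralClosure (Algebra.adjoin K {y}) F) F a = 0 := h
    rw [this, zero_div]
  · rintro h
    apply hf
    have : algebraMap (integralClosure (Algebra.adjoin K {y}) F) F s = 0 := h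
    rw [this, div_zero]

include hy in
theorem finite_support_ord_sep (f : F) : (Function.support fun P : Place K F => P.ord f).Finite := by
  by_cases hf : f = 0
  · subst hf
    simp
  haveI := fd_inv (K := K) y
  haveI := sep_inv (K := K) y
  obtain ⟨f₁, f₂, hf₁, hf₂, hff, hi₁, hi₂⟩ := exists_num_sep y hy f hf
  have h1 := finite_pos_of_intOver y hy f₁ hf₁ hi₁
  have h2 := finite_pos_of_intOver y hy f₂ hf₂ hi₂
  have h3 := (main_sep y⁻¹ (transcendental_inv hy)).1
  refine ((h1.union h2).union h3).subset ?_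
  intro P hP
  rw [Function.mem_support] at hP
  rcases lt_or_ge (P.ord y) 0 with h | h
  · right
    show 0 < P.ord y⁻¹
    rw [P.ord_inv]; omega
  · left
    have e1 := (intOver_iff y hy f₁).1 hi₁ P h
    have e2 := (intOver_iff y hy f₂).1 hi₂ P h
    have h6 : P.ord f = P.ord f₁ - P.ord f₂ := by
      rw [hff, div_eq_mul_inv, P.ord_mul hf₁ (inv_ne_zero hf₂), P.ord_inv]; ring
    by_cases h7 : 0 < P.ord f₁
    · exact Or.inl ⟨h, h7⟩
    · refine Or.inr ⟨h, ?_⟩
      omega

include hy in
theorem Lsp_eq_Lof_sep (a b : ℤ) : Lsp K y a b = Lof (Efun (K := K) y a b) := by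
  haveI := fd_inv (K := K) y
  haveI := sep_inv (K := K) y
  have ht0 := ne_zero_of_tr y hy
  ext x
  rw [mem_Lsp]
  by_cases hx : x = 0
  · subst hx
    simp only [mul_zero]
    exact ⟨fun _ => Or.inl rfl, fun _ => ⟨IntOver.zero _, IntOver.zero _⟩⟩
  rw [mem_Lof_of_ne hx, intOver_iff y hy, intOver_iff y⁻¹ (transcendental_inv hy)]
  constructor
  · rintro ⟨h1, h2⟩ P
    rcases le_total 0 (P.ord y) with h | h
    · have := h1 P h
      rw [P.ord_mul (zpow_ne_zero _ ht0) hx, P.ord_zpow] at this
      rw [Efun_of_nonneg h]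
      omega
    · have := h2 P (by rw [P.ord_inv]; omega)
      rw [P.ord_mul (zpow_ne_zero _ ht0) hx, P.ord_zpow] at this
      rw [Efun_of_nonpos h]
      linarith
  · intro h
    refine ⟨fun P hP => ?_, fun P hP => ?_⟩
    · have := h P
      rw [Efun_of_nonneg hP] at this
      rw [P.ord_mul (zpow_ne_zero _ ht0) hx, P.ord_zpow]
      omega
    · rw [P.ord_inv] at hP
      have := h P
      rw [Efun_of_nonpos (by omega)] at this
      rw [P.ord_mul (zpow_ne_zero _ ht0) hx, P.ord_zpow]
      linarith

end Sep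

end Fermat.Agent.S37.RR
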