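import Mathlib
import Fermat.Agent.S37.RRa

set_option autoImplicit false
set_option linter.unusedSectionVars false
set_option linter.style.haveILetI false

/-! # S37 [SP0]: Riemann's theorem from the dimension formula for the spaces `Lsp`
(any characteristic) -/

namespace Fermat.Agent.S37.RR

open AlgebraicCurve IntermediateField IsDedekindDomain Fermat.Agent.S24 Fermat.Agent.S18
  Fermat.Agent.S18.R1 Module
open AlgebraicCurve.Divisor (degree)
open scoped Classical

/-- the hypothesis: `F` is finite separable of degree `n` over `K(t)` and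
`dim L(a (t)_∞ + b (t)_0) = (a + b) n + 1 - g` for `a + b ≥ m0`. -/
structure RRH (K : Type) {F : Type} [Field K] [Field F] [Algebra K F] (t : F) (n : ℕ)
    (g m0 : ℤ) : Prop where
  tr : Transcendental K t
  fd : FiniteDimensional K⟮t⟯ F
  sep : Algebra.IsSeparable K⟮t⟯ F
  hn : Module.finrank K⟮t⟯ F = n
  fdL : ∀ a b : ℤ, FiniteDimensional K (Lsp K t a b)
  hL : ∀ a b : ℤ, m0 ≤ a + b → (Module.finrank K (Lsp K t a b) : ℤ) = (a + b) * n + 1 - g

variable {K F : Type} [Field K] [Field F] [Algebra K F] [IsAlgClosed K]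
  {t : F} {n : ℕ} {g m0 : ℤ} (H : RRH K t n g m0)

namespace RRH

include H

theorem finite_support_ord (f : F) : (Function.support fun P : Place K F => P.ord f).Finite :=
  haveI := H.fd
  haveI := H.sep
  finite_support_ord_sep t H.tr f

/-- the divisor of a function. -/
noncomputable def dv (f : F) : Divisor K F :=
  Finsupp.ofSupportFinite (fun P => P.ord f) (H.finite_support_ord f)

theorem dv_apply (f : F) (P : Place K F) : H.dv f P = P.ord f := rfl

theorem dv_mul {f f' : F} (hf : f ≠ 0) (hf' : f' ≠ 0) : H.dv (f * f') = H.dv f + H.dv f' := by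
  ext P
  rw [Finsupp.add_apply, dv_apply, dv_apply, dv_apply, P.ord_mul hf hf']

theorem dv_inv (f : F) : H.dv f⁻¹ = - H.dv f := by
  ext P
  rw [Finsupp.neg_apply, dv_apply, dv_apply, P.ord_inv]

theorem dv_one : H.dv 1 = 0 := by
  ext P
  rw [dv_apply, P.ord_one]; rfl

theorem degree_eq_sum (D : Divisor K F) : degree D = D.sum fun _ n => n := by
  haveI := H.fd
  unfold AlgebraicCurve.Divisor.degree
  rw [Finsupp.liftAddHom_apply]
  refine Finsupp.sum_congr fun P _ => ?_
  rw [AddMonoidHom.coe_mulRight, deg_eq_one t H.tr P]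
  simp

theorem degree_eq_finsum (D : Divisor K F) : degree D = ∑ᶠ P, D P := by
  rw [H.degree_eq_sum, Finsupp.sum]
  rw [finsum_eq_sum_of_support_subset (s := D.support)]
  intro P hP
  rw [Finset.mem_coe, Finsupp.mem_support_iff]
  exact hP

/-- the polar divisor of `t`. -/
noncomputable def pol : Divisor K F :=
  Finsupp.ofSupportFinite (fun P => max (-(P.ord t)) 0) (by
    refine (H.finite_support_ord t).subset ?_
    intro P hP
    rw [Function.mem_support] at hP ⊢
    intro h
    rw [h] at hP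
    simp at hP)

/-- the zero divisor of `t`. -/
noncomputable def zer : Divisor K F :=
  Finsupp.ofSupportFinite (fun P => max (P.ord t) 0) (by
    refine (H.finite_support_ord t).subset ?_
    intro P hP
    rw [Function.mem_support] at hP ⊢
    intro h
    rw [h] at hP
    simp at hP)

theorem degree_pol : degree H.pol = n := by
  haveI := H.fd
  haveI := H.sep
  rw [H.degree_eq_finsum]
  have h := finsum_pole_sep t H.tr
  rw [H.hn] at h
  exact h

theorem degree_zer : degree H.zer = n := by
  haveI := H.fd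
  haveI := H.sep
  rw [H.degree_eq_finsum]
  have h := finsum_zero_sep t H.tr
  rw [H.hn] at h
  exact h

/-- the divisor `a (t)_∞ + b (t)_0`. -/
noncomputable def Ed (a b : ℤ) : Divisor K F := a • H.pol + b • H.zer

theorem Ed_apply (a b : ℤ) (P : Place K F) : H.Ed a b P = Efun t a b P := by
  rw [Ed, Finsupp.add_apply, Finsupp.smul_apply, Finsupp.smul_apply]
  rfl

theorem coe_Ed (a b : ℤ) : ⇑(H.Ed a b) = Efun (K := K) t a b := funext (H.Ed_apply a b)

theorem degree_Ed (a b : ℤ) : degree (H.Ed a b) = (a + b) * n := by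
  rw [Ed, map_add, map_zsmul, map_zsmul, degree_pol, degree_zer]
  simp only [smul_eq_mul]
  ring

theorem Lsp_eq_Lof (a b : ℤ) : Lsp K t a b = Lof (Efun (K := K) t a b) :=
  haveI := H.fd
  haveI := H.sep
  Lsp_eq_Lof_sep t H.tr a b

theorem finrank_Ed (a b : ℤ) (h : m0 ≤ a + b) :
    (finrank K (Lof ⇑(H.Ed a b)) : ℤ) = (a + b) * n + 1 - g := by
  rw [coe_Ed, ← H.Lsp_eq_Lof, H.hL a b h]

theorem finrank_le_of_le {D D' : Divisor K F} (h : D ≤ D') :
    (finrank K (Lof ⇑D') : ℤ) ≤ finrank K (Lof ⇑D) + (degree D' - degree D) := by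
  haveI := H.fd
  obtain ⟨Gf, hGf, hsum⟩ := exists_finsupp (fun P => (D' - D) P)
    (fun P => by rw [Finsupp.sub_apply]; exact sub_nonneg.mpr (h P))
    (by
      refine (D' - D).support.finite_toSet.subset ?_
      intro P hP
      rw [Finset.mem_coe, Finsupp.mem_support_iff]
      exact hP)
  have key := finrank_Lof_le_sub t H.tr Gf ⇑D'
  have e : (fun P => D' P - (Gf P : ℤ)) = ⇑D := by
    funext P
    rw [hGf, Finsupp.sub_apply]; ring
  rw [e] at key
  rw [← H.degree_eq_finsum, map_sub] at hsum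
  rw [← hsum]
  exact_mod_cast key

theorem coe_sub_dv (D : Divisor K F) (y : F) : ⇑(D - H.dv y) = fun P => D P - P.ord y := by
  funext P
  rw [Finsupp.sub_apply, dv_apply]

theorem finrank_Lof_sub_dv (D : Divisor K F) (y : F) (hy : y ≠ 0) :
    finrank K (Lof ⇑(D - H.dv y)) = finrank K (Lof ⇑D) := by
  rw [coe_sub_dv]
  exact finrank_Lof_sub_ord _ y hy

theorem finrank_Lof_add_dv (D : Divisor K F) (y : F) (hy : y ≠ 0) :
    finrank K (Lof ⇑(D + H.dv y)) = finrank K (Lof ⇑D) := by
  have := H.finrank_Lof_sub_dv D y⁻¹ (inv_ne_zero hy)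
  rwa [dv_inv, sub_neg_eq_add] at this

theorem dv_pow (f : F) (k : ℕ) : H.dv (f ^ k) = k • H.dv f := by
  ext P
  rw [Finsupp.smul_apply, dv_apply, dv_apply, ord_pow]
  simp

theorem sub_tr (c : K) : Transcendental K (t - algebraMap K F c) :=
  haveI := H.fd
  haveI := H.sep
  tr_sub t H.tr c

theorem sub_ne_zero' (c : K) : t - algebraMap K F c ≠ 0 :=
  fun h => H.sub_tr c (h ▸ isAlgebraic_zero)

theorem t_ne_zero : t ≠ 0 := fun h => H.tr (h ▸ isAlgebraic_zero)

theorem degree_dv_sub (c : K) : degree (H.dv (t - algebraMap K F c)) = 0 := by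
  haveI := H.fd
  haveI := H.sep
  haveI := fd_sub (K := K) t c
  haveI := sep_sub (K := K) t c
  rw [H.degree_eq_finsum]
  exact finsum_ord_sep _ (H.sub_tr c)

theorem Ed_add (a a' : ℤ) : H.Ed (a + a') 0 = H.Ed a 0 + H.Ed a' 0 := by
  simp only [Ed, add_smul, zero_smul, add_zero]

theorem Ed_mono {a a' : ℤ} (h : a ≤ a') : H.Ed a 0 ≤ H.Ed a' 0 := by
  intro P
  rw [Ed_apply, Ed_apply]
  exact Efun_mono t h le_rfl P

theorem ord_sub_of_nonneg (c : K) (P : Place K F) (h : 0 ≤ P.ord t) :
    0 ≤ P.ord (t - algebraMap K F c) := by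
  have h1 : t - algebraMap K F c ≠ 0 := H.sub_ne_zero' c
  have h2 := ord_add_ge P (f := t) (g := -algebraMap K F c) (by rwa [← sub_eq_add_neg])
  rw [ord_neg, ord_algebraMap, ← sub_eq_add_neg] at h2
  exact (le_min h le_rfl).trans h2

theorem ord_sub_of_neg (c : K) (P : Place K F) (h : P.ord t < 0) :
    P.ord (t - algebraMap K F c) = P.ord t := by
  rw [sub_eq_add_neg]
  apply ord_add_eq_of_lt P H.t_ne_zero
  rw [ord_neg, ord_algebraMap]
  exact h

/-- every divisor is dominated, up to the divisor of a function of `t`, by a multiple of the polar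
divisor of `t`. -/
theorem exists_dom (D : Divisor K F) :
    ∃ (h : F) (a : ℤ), h ≠ 0 ∧ degree (H.dv h) = 0 ∧ D - H.dv h ≤ H.Ed a 0 := by
  haveI := H.fd
  induction D using Finsupp.induction_linear with
  | zero =>
    refine ⟨1, 0, one_ne_zero, by rw [dv_one, map_zero], ?_⟩
    rw [dv_one, sub_zero]
    simp [Ed]
  | add D₁ D₂ h₁ h₂ =>
    obtain ⟨h, a, hh, hd, hle⟩ := h₁
    obtain ⟨h', a', hh', hd', hle'⟩ := h₂
    refine ⟨h * h', a + a', mul_ne_zero hh hh', ?_, ?_⟩
    · rw [H.dv_mul hh hh', map_add, hd, hd', add_zero]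
    · rw [H.dv_mul hh hh', Ed_add]
      have e : D₁ + D₂ - (H.dv h + H.dv h') = (D₁ - H.dv h) + (D₂ - H.dv h') := by abel
      rw [e]
      exact add_le_add hle hle'
  | single P₀ m =>
    rcases le_or_gt m 0 with hm | hm
    · refine ⟨1, 0, one_ne_zero, by rw [dv_one, map_zero], ?_⟩
      rw [dv_one, sub_zero]
      intro P
      rw [Ed_apply, Finsupp.single_apply]
      simp only [Efun, zero_mul, add_zero]
      split_ifs
      · exact hm
      · exact le_rfl
    rcases exists_center t H.tr P₀ with hp | ⟨c, hc⟩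
    · refine ⟨1, m, one_ne_zero, by rw [dv_one, map_zero], ?_⟩
      rw [dv_one, sub_zero]
      intro P
      rw [Ed_apply, Finsupp.single_apply]
      simp only [Efun, zero_mul, add_zero]
      have h0 : (0 : ℤ) ≤ max (-(P.ord t)) 0 := le_max_right _ _
      split_ifs with hP
      · subst hP
        have h1 : 0 < P₀.ord t⁻¹ := hp
        rw [P₀.ord_inv] at h1
        have h2 : 1 ≤ max (-(P₀.ord t)) 0 := le_max_of_le_left (by omega)
        nlinarith
      · exact mul_nonneg hm.le h0
    · have hc' : 0 < P₀.ord (t - algebraMap K F c) := hc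
      refine ⟨(t - algebraMap K F c) ^ m.toNat, m,
        pow_ne_zero _ (H.sub_ne_zero' c), ?_, ?_⟩
      · rw [dv_pow, map_nsmul, degree_dv_sub, smul_zero]
      · intro P
        rw [Finsupp.sub_apply, dv_apply, ord_pow, Ed_apply, Int.toNat_of_nonneg hm.le,
          Finsupp.single_apply]
        rcases lt_or_ge (P.ord t) 0 with h | h
        · rw [H.ord_sub_of_neg c P h, Efun_of_nonpos h.le]
          have hne : ¬ P₀ = P := by
            rintro rfl
            rw [H.ord_sub_of_neg c P₀ h] at hc'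
            omega
          rw [if_neg hne]
          omega
        · rw [Efun_of_nonneg h, zero_mul]
          have h1 := H.ord_sub_of_nonneg c P h
          split_ifs with hP
          · subst hP
            nlinarith
          · have := mul_nonneg hm.le h1
            omega

theorem finiteDimensional_Lof (D : Divisor K F) : FiniteDimensional K (Lof ⇑D) := by
  obtain ⟨h, a, hh, hd, hle⟩ := H.exists_dom D
  haveI := H.fdL a 0
  have h1 : Lof ⇑(D - H.dv h) ≤ Lsp K t a 0 := by
    rw [H.Lsp_eq_Lof, ← H.coe_Ed]; exact Lof_mono hle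
  have h2 : FiniteDimensional K (Lof ⇑(D - H.dv h)) := Submodule.finiteDimensional_of_le h1
  rw [coe_sub_dv] at h2
  exact (mulEquiv ⇑D h hh).symm.finiteDimensional

/-- **Riemann's inequality.** -/
theorem riemann_ge (D : Divisor K F) : degree D + 1 - g ≤ (finrank K (Lof ⇑D) : ℤ) := by
  obtain ⟨h, a, hh, hd, hle⟩ := H.exists_dom D
  have hle' : D - H.dv h ≤ H.Ed (max a m0) 0 := hle.trans (H.Ed_mono (le_max_left _ _))
  have key := H.finrank_le_of_le hle'
  rw [H.finrank_Ed _ _ (by rw [add_zero]; exact le_max_right _ _), H.degree_Ed, map_sub, hd,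
    H.finrank_Lof_sub_dv D h hh] at key
  linarith

theorem degree_dv_nonneg (y : F) (hy : y ≠ 0) : 0 ≤ degree (H.dv y) := by
  have h1 := H.riemann_ge (H.Ed m0 0 - H.dv y)
  rw [H.finrank_Lof_sub_dv _ y hy, H.finrank_Ed _ _ (by rw [add_zero]), map_sub, H.degree_Ed] at h1
  linarith

/-- principal divisors have degree zero. -/
theorem degree_dv (f : F) : degree (H.dv f) = 0 := by
  by_cases hf : f = 0
  · have : H.dv f = 0 := by
      ext P
      rw [dv_apply, hf, P.ord_zero]; rfl
    rw [this, map_zero]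
  have h1 := H.degree_dv_nonneg f hf
  have h2 := H.degree_dv_nonneg f⁻¹ (inv_ne_zero hf)
  rw [dv_inv, map_neg] at h2
  omega

theorem degree_of_principal (D : Divisor K F) (f : F) (h : ∀ P, D P = P.ord f) : degree D = 0 := by
  have : D = H.dv f := by
    ext P
    rw [h, dv_apply]
  rw [this, degree_dv]

theorem degree_nonneg {D : Divisor K F} (h : 0 ≤ D) : 0 ≤ degree D := by
  rw [H.degree_eq_sum]
  exact Finsupp.sum_nonneg fun P _ => h P

theorem degree_mono {D D' : Divisor K F} (h : D ≤ D') : degree D ≤ degree D' := by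
  have := H.degree_nonneg (sub_nonneg.mpr h)
  rw [map_sub] at this
  omega

theorem Lof_eq_bot {D : Divisor K F} (h : degree D < 0) : Lof ⇑D = ⊥ := by
  rw [eq_bot_iff]
  intro x hx
  rw [Submodule.mem_bot]
  by_contra hx0
  rw [mem_Lof_of_ne hx0] at hx
  have h1 : 0 ≤ D + H.dv x := by
    intro P
    rw [Finsupp.add_apply, dv_apply]
    have := hx P
    simp only [Finsupp.coe_zero, Pi.zero_apply]
    omega
  have h2 := H.degree_nonneg h1
  rw [map_add, degree_dv] at h2
  omega

theorem n_pos : 0 < n := by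
  haveI := H.fd
  rw [← H.hn]
  exact finrank_pos

theorem exists_place : Nonempty (Place K F) := by
  by_contra hcon
  rw [not_nonempty_iff] at hcon
  have h1 := H.degree_zer
  have h2 : H.zer = 0 := by
    ext P
    exact (hcon.false P).elim
  rw [h2, map_zero] at h1
  have := H.n_pos
  omega

theorem degree_single' (P : Place K F) (m : ℤ) : degree (Finsupp.single P m) = m := by
  haveI := H.fd
  rw [AlgebraicCurve.Divisor.degree_single, deg_eq_one t H.tr P]
  simp

theorem finrank_le (D : Divisor K F) : (finrank K (Lof ⇑D) : ℤ) ≤ max (degree D + 1) 0 := by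
  rcases lt_or_ge (degree D) 0 with h | h
  · rw [H.Lof_eq_bot h, finrank_bot]
    exact le_max_right _ _
  obtain ⟨P₀⟩ := H.exists_place
  have hle : D - Finsupp.single P₀ (degree D + 1) ≤ D := by
    rw [sub_le_self_iff]
    intro P
    rw [Finsupp.single_apply]
    simp only [Finsupp.coe_zero, Pi.zero_apply]
    split_ifs
    · omega
    · exact le_rfl
  have key := H.finrank_le_of_le hle
  have hdeg : degree (D - Finsupp.single P₀ (degree D + 1)) = -1 := by
    rw [map_sub, H.degree_single']; ring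
  have hbot : Lof ⇑(D - Finsupp.single P₀ (degree D + 1)) = ⊥ :=
    H.Lof_eq_bot (by rw [hdeg]; omega)
  rw [hbot, finrank_bot, hdeg] at key
  refine le_trans ?_ (le_max_left _ _)
  push_cast at key
  linarith

theorem const_of_ord_nonneg (x : F) (h : ∀ P : Place K F, 0 ≤ P.ord x) :
    ∃ c : K, x = algebraMap K F c :=
  haveI := H.fd
  haveI := H.sep
  AsmK.const_of_ord_nonneg t H.tr x h

theorem exists_effective (D : Divisor K F) (h : g ≤ degree D) :
    ∃ y : F, y ≠ 0 ∧ ∀ P, 0 ≤ D P + P.ord y := by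
  have h1 := H.riemann_ge D
  have h2 : Lof ⇑D ≠ ⊥ := by
    intro h3
    rw [h3, finrank_bot] at h1
    push_cast at h1
    omega
  obtain ⟨y, hy, hy0⟩ := Submodule.exists_mem_ne_zero_of_ne_bot h2
  refine ⟨y, hy0, fun P => ?_⟩
  rw [mem_Lof_of_ne hy0] at hy
  have := hy P
  omega

/-- **Riemann's theorem.** -/
theorem riemann_eq :
    ∃ c : ℤ, ∀ D : Divisor K F, c ≤ degree D → (finrank K (Lof ⇑D) : ℤ) = degree D + 1 - g := by
  refine ⟨degree (H.Ed m0 0) + g, fun D hD => le_antisymm ?_ (H.riemann_ge D)⟩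
  obtain ⟨y, hy0, hy⟩ := H.exists_effective (D - H.Ed m0 0) (by rw [map_sub]; omega)
  have hle : H.Ed m0 0 ≤ D + H.dv y := by
    intro P
    have := hy P
    rw [Finsupp.sub_apply] at this
    rw [Finsupp.add_apply, dv_apply]
    omega
  have key := H.finrank_le_of_le hle
  rw [H.finrank_Lof_add_dv D y hy0, H.finrank_Ed _ _ (by rw [add_zero]), map_add, degree_dv,
    H.degree_Ed] at key
  linarith

end RRH

/-- the hypothesis `RRH` holds for every separating coordinate. -/
theorem exists_RRH (t : F) (ht : Transcendental K t) [FiniteDimensional K⟮t⟯ F]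
    [Algebra.IsSeparable K⟮t⟯ F] : ∃ g m0 : ℤ, RRH K t (Module.finrank K⟮t⟯ F) g m0 := by
  obtain ⟨g, m0, hfd, hL, -⟩ := NB.exists_Lsp_formula (K := K) (F := F) ht
  exact ⟨g, m0, ⟨ht, inferInstance, inferInstance, rfl, hfd, hL⟩⟩

end Fermat.Agent.S37.RR
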