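import Mathlib
import Fermat.Agent.S18.R1a

set_option autoImplicit false
set_option linter.style.haveILetI false
set_option linter.unusedSectionVars false

/-! # S37 [SP1], part A: the divisor hull of a finite dimensional space of functions -/

namespace Fermat.Agent.S37.Red

open AlgebraicCurve Fermat.Agent.S18.R1 Module

variable {k κ : Type} [Field k] [Field κ] [Algebra k κ]

/-- `E` is the smallest divisor with `W ≤ Lof E`. -/
def IsHull (W : Submodule k κ) (E : Divisor k κ) : Prop :=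
  (∀ h ∈ W, h ≠ 0 → ∀ Q : Place k κ, - E Q ≤ Q.ord h) ∧
    ∀ Q : Place k κ, ∃ h ∈ W, h ≠ 0 ∧ Q.ord h = - E Q

theorem exists_isHull (W : Submodule k κ) [FiniteDimensional k W] (hW : W ≠ ⊥)
    (hsupp : ∀ h : κ, h ≠ 0 → {Q : Place k κ | Q.ord h ≠ 0}.Finite) : ∃ E, IsHull W E := by
  classical
  let b := Module.finBasis k W
  have hpos : 0 < finrank k W := by
    rw [Module.finrank_pos_iff]
    exact (Submodule.nontrivial_iff_ne_bot).mpr hW
  haveI : Nonempty (Fin (finrank k W)) := ⟨⟨0, hpos⟩⟩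
  have hne : (Finset.univ : Finset (Fin (finrank k W))).Nonempty := Finset.univ_nonempty
  let e : Place k κ → ℤ := fun Q => Finset.univ.sup' hne (fun i => - Q.ord ((b i : W) : κ))
  have hb0 : ∀ i, ((b i : W) : κ) ≠ 0 := fun i h => b.ne_zero i (Subtype.ext h)
  have hfin : (Function.support e).Finite := by
    refine (Set.finite_iUnion fun i => hsupp _ (hb0 i)).subset ?_
    intro Q hQ
    by_contra hcon
    simp only [Set.mem_iUnion, Set.mem_ofPred_eq, not_exists, not_not] at hcon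
    apply hQ
    show Finset.univ.sup' hne (fun i => - Q.ord ((b i : W) : κ)) = 0
    simp only [hcon, neg_zero]
    exact Finset.sup'_const hne 0
  let E : Divisor k κ := Finsupp.ofSupportFinite e hfin
  have hE : ∀ Q, E Q = e Q := fun Q => rfl
  have hle : W ≤ Lof (E : Place k κ → ℤ) := by
    intro h hh
    have h1 : h = ∑ i, b.repr ⟨h, hh⟩ i • ((b i : W) : κ) := by
      have h2 := congrArg (fun w : W => (w : κ)) (b.sum_repr ⟨h, hh⟩)
      have h3 : ((∑ i, b.repr ⟨h, hh⟩ i • b i : W) : κ) = h := h2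
      rw [Submodule.coe_sum] at h3
      exact h3.symm
    rw [h1]
    refine Submodule.sum_mem _ fun i _ => Submodule.smul_mem _ _ (Or.inr fun Q => ?_)
    rw [hE, neg_le]
    exact Finset.le_sup' (fun i => - Q.ord ((b i : W) : κ)) (Finset.mem_univ i)
  refine ⟨E, fun h hh h0 Q => ((mem_Lof_of_ne h0).mp (hle hh)) Q, fun Q => ?_⟩
  obtain ⟨i, -, hi⟩ := Finset.exists_mem_eq_sup' hne (fun i => - Q.ord ((b i : W) : κ))
  refine ⟨(b i : W), (b i).2, hb0 i, ?_⟩
  rw [hE]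
  show _ = - Finset.univ.sup' hne (fun i => - Q.ord ((b i : W) : κ))
  rw [hi, neg_neg]

namespace IsHull

variable {W W' W₁ W₂ W₃ : Submodule k κ} {E E' E₁ E₂ E₃ : Divisor k κ}

theorem le_Lof (h : IsHull W E) : W ≤ Lof (E : Place k κ → ℤ) := by
  intro x hx
  by_cases hx0 : x = 0
  · exact Or.inl hx0
  · exact Or.inr (h.1 x hx hx0)

theorem le_of_le_Lof (h : IsHull W E) (hW : W ≤ Lof (E' : Place k κ → ℤ)) : E ≤ E' := by
  intro Q
  obtain ⟨x, hx, hx0, hxQ⟩ := h.2 Q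
  have := (mem_Lof_of_ne hx0).mp (hW hx) Q
  omega

theorem le_of_le (h : IsHull W E) (h' : IsHull W' E') (hW : W ≤ W') : E ≤ E' :=
  h.le_of_le_Lof (hW.trans h'.le_Lof)

theorem unique (h : IsHull W E) (h' : IsHull W E') : E = E' :=
  le_antisymm (h.le_of_le h' le_rfl) (h'.le_of_le h le_rfl)

theorem add_le (h₁ : IsHull W₁ E₁) (h₂ : IsHull W₂ E₂) (h₃ : IsHull W₃ E₃)
    (hmul : ∀ x ∈ W₁, ∀ y ∈ W₂, x * y ∈ W₃) : E₁ + E₂ ≤ E₃ := by
  intro Q
  obtain ⟨x, hx, hx0, hxQ⟩ := h₁.2 Q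
  obtain ⟨y, hy, hy0, hyQ⟩ := h₂.2 Q
  have := h₃.1 _ (hmul x hx y hy) (mul_ne_zero hx0 hy0) Q
  rw [Q.ord_mul hx0 hy0] at this
  rw [Finsupp.add_apply]
  omega

/-- the hull of `u⁻¹ W`. -/
theorem of_mul (h : IsHull W E) {u : κ} (hu : u ≠ 0) {Du : Divisor k κ}
    (hDu : ∀ Q : Place k κ, Du Q = Q.ord u) (hW' : ∀ y, y ∈ W' ↔ u * y ∈ W) :
    IsHull W' (E + Du) := by
  refine ⟨fun y hy hy0 Q => ?_, fun Q => ?_⟩
  · have := h.1 _ ((hW' y).mp hy) (mul_ne_zero hu hy0) Q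
    rw [Q.ord_mul hu hy0] at this
    rw [Finsupp.add_apply, hDu]
    omega
  · obtain ⟨x, hx, hx0, hxQ⟩ := h.2 Q
    refine ⟨u⁻¹ * x, (hW' _).mpr (by rwa [mul_inv_cancel_left₀ hu]),
      mul_ne_zero (inv_ne_zero hu) hx0, ?_⟩
    rw [Q.ord_mul (inv_ne_zero hu) hx0, Q.ord_inv, hxQ, Finsupp.add_apply, hDu]
    omega

end IsHull

/-! ### degrees -/

theorem degree_nonneg {E : Divisor k κ} (h : 0 ≤ E) : 0 ≤ Divisor.degree E := by
  rw [Divisor.degree, Finsupp.liftAddHom_apply]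
  exact Finset.sum_nonneg fun Q _ => mul_nonneg (h Q) (Nat.cast_nonneg _)

theorem degree_mono {E E' : Divisor k κ} (h : E ≤ E') : Divisor.degree E ≤ Divisor.degree E' := by
  have := degree_nonneg (sub_nonneg.mpr h)
  rw [map_sub] at this
  omega

theorem eq_zero_of_degree_le (hdeg : ∀ Q : Place k κ, 0 < Q.deg) {E : Divisor k κ} (h : 0 ≤ E)
    (hd : Divisor.degree E ≤ 0) : E = 0 := by
  have h0 : Divisor.degree E = 0 := le_antisymm hd (degree_nonneg h)
  rw [Divisor.degree, Finsupp.liftAddHom_apply, Finsupp.sum] at h0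
  have h1 := (Finset.sum_eq_zero_iff_of_nonneg
    (fun Q _ => mul_nonneg (h Q) (Nat.cast_nonneg _))).mp h0
  ext Q
  by_cases hQ : Q ∈ E.support
  · have h2 : E Q * (Q.deg : ℤ) = 0 := h1 Q hQ
    have h3 : (Q.deg : ℤ) ≠ 0 := by exact_mod_cast (hdeg Q).ne'
    exact (mul_eq_zero.mp h2).resolve_right h3
  · exact Finsupp.notMem_support_iff.mp hQ

theorem eq_of_le_of_degree_le (hdeg : ∀ Q : Place k κ, 0 < Q.deg) {E E' : Divisor k κ}
    (h : E ≤ E') (hd : Divisor.degree E' ≤ Divisor.degree E) : E = E' := by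
  have := eq_zero_of_degree_le hdeg (sub_nonneg.mpr h) (by rw [map_sub]; omega)
  exact (sub_eq_zero.mp this).symm

end Fermat.Agent.S37.Red
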