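import Mathlib
import Fermat.Agent.S18.V1
import Fermat.Agent.S37.RedHull

set_option autoImplicit false
set_option linter.style.haveILetI false
set_option linter.unusedSectionVars false

/-! # S37 [SP1], part B: specialisation of divisors by reduction of Riemann-Roch spaces -/

namespace Fermat.Agent.S37.Red

open AlgebraicCurve Fermat.Agent.S18 Fermat.Agent.S18.R1 Module

section Ext

variable {G H : Type*} [AddCommGroup G] [AddCommGroup H]

theorem exists_large (deg : G →+ ℤ) (X₀ : G) (hX₀ : 0 < deg X₀) (c : ℤ) (x : G) :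
    ∃ X : G, c ≤ deg X ∧ c ≤ deg (x + X) := by
  refine ⟨(|c| + |deg x|).toNat • X₀, ?_, ?_⟩
  · rw [map_nsmul, nsmul_eq_mul]
    have h1 : ((|c| + |deg x|).toNat : ℤ) = |c| + |deg x| := Int.toNat_of_nonneg (by positivity)
    rw [h1]
    have h2 := le_abs_self c
    have h3 := abs_nonneg (deg x)
    nlinarith [abs_nonneg c]
  · rw [map_add, map_nsmul, nsmul_eq_mul]
    have h1 : ((|c| + |deg x|).toNat : ℤ) = |c| + |deg x| := Int.toNat_of_nonneg (by positivity)
    rw [h1]
    have h2 := le_abs_self c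
    have h3 := neg_abs_le (deg x)
    nlinarith [abs_nonneg c, abs_nonneg (deg x)]

/-- a map which is additive on the elements of large degree extends to a homomorphism. -/
theorem exists_hom_of_additive (deg : G →+ ℤ) (X₀ : G) (hX₀ : 0 < deg X₀) (c : ℤ) (hc : 0 ≤ c)
    (bar : G → H)
    (hadd : ∀ x y, c ≤ deg x → c ≤ deg y → bar (x + y) = bar x + bar y) :
    ∃ red : G →+ H, ∀ x, c ≤ deg x → red x = bar x := by
  choose X hX1 hX2 using exists_large deg X₀ hX₀ c
  have key : ∀ x Y Y', c ≤ deg Y → c ≤ deg Y' → c ≤ deg (x + Y) → c ≤ deg (x + Y') →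
      bar (x + Y) - bar Y = bar (x + Y') - bar Y' := by
    intro x Y Y' h1 h2 h3 h4
    have e1 := hadd (x + Y) Y' h3 h2
    have e2 := hadd (x + Y') Y h4 h1
    have e3 : x + Y + Y' = x + Y' + Y := by abel
    rw [e3, e2] at e1
    rw [sub_eq_sub_iff_add_eq_add, e1]
  refine ⟨AddMonoidHom.mk' (fun x => bar (x + X x) - bar (X x)) ?_, ?_⟩
  · intro x y
    have h1 : c ≤ deg (X x + X y) := by
      rw [map_add]; have := hX1 x; have := hX1 y; omega
    have h2 : c ≤ deg (x + y + (X x + X y)) := by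
      have e : x + y + (X x + X y) = (x + X x) + (y + X y) := by abel
      rw [e, map_add]; have := hX2 x; have := hX2 y; omega
    show bar (x + y + X (x + y)) - bar (X (x + y)) = _
    rw [key (x + y) (X (x + y)) (X x + X y) (hX1 _) h1 (hX2 _) h2, hadd _ _ (hX1 x) (hX1 y)]
    have e : x + y + (X x + X y) = (x + X x) + (y + X y) := by abel
    rw [e, hadd _ _ (hX2 x) (hX2 y)]
    abel
  · intro x hx
    show bar (x + X x) - bar (X x) = bar x
    rw [hadd x (X x) hx (hX1 x)]
    abel

end Ext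

variable {L F k κ : Type} [Field L] [Field F] [Algebra L F] [Field k] [Field κ] [Algebra k κ]
variable (V : VData L F k κ)

/-- the reduction of `L(D)`. -/
def Rsp (D : Divisor L F) : Submodule k κ := V.redSpace (Lof (D : Place L F → ℤ))

theorem Rsp_mono {D D' : Divisor L F} (h : D ≤ D') : Rsp V D ≤ Rsp V D' :=
  V.redSpace_mono (Lof_mono h)

theorem mul_mem_Rsp {D D' : Divisor L F} {x y : κ} (hx : x ∈ Rsp V D) (hy : y ∈ Rsp V D') :
    x * y ∈ Rsp V (D + D') := by
  obtain ⟨x', hx', hxO, rfl⟩ := hx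
  obtain ⟨y', hy', hyO, rfl⟩ := hy
  refine ⟨x' * y', ?_, mul_mem hxO hyO, V.rd_mul hxO hyO⟩
  have := mul_mem_Lof hx' hy'
  exact this

open Classical in
/-- the hull of the reduction of `L(D)`. -/
noncomputable def bar (D : Divisor L F) : Divisor k κ :=
  if h : ∃ E, IsHull (Rsp V D) E then h.choose else 0

theorem isHull_bar {D : Divisor L F} (h : ∃ E, IsHull (Rsp V D) E) : IsHull (Rsp V D) (bar V D) := by
  rw [bar, dif_pos h]
  exact h.choose_spec

theorem mem_Rsp_add_iff {f : F} (hf : V.rd f ≠ 0) {D X : Divisor L F}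
    (hD : ∀ P : Place L F, D P = P.ord f) (y : κ) :
    y ∈ Rsp V (X + D) ↔ V.rd f * y ∈ Rsp V X := by
  have hfO := V.mem_of_rd_ne_zero hf
  have hf0 : f ≠ 0 := by rintro rfl; exact hf V.rd_zero
  constructor
  · rintro ⟨x, hx, hxO, rfl⟩
    refine ⟨f * x, ?_, mul_mem hfO hxO, V.rd_mul hfO hxO⟩
    by_cases hx0 : x = 0
    · rw [hx0, mul_zero]; exact Submodule.zero_mem _
    · refine Or.inr fun P => ?_
      have := (mem_Lof_of_ne hx0).mp hx P
      rw [Finsupp.add_apply, hD] at this
      rw [P.ord_mul hf0 hx0]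
      omega
  · rintro ⟨x, hx, hxO, hxy⟩
    have hiO := V.inv_mem_of_rd_ne_zero hf
    refine ⟨f⁻¹ * x, ?_, mul_mem hiO hxO, ?_⟩
    · by_cases hx0 : x = 0
      · rw [hx0, mul_zero]; exact Submodule.zero_mem _
      · refine Or.inr fun P => ?_
        have := (mem_Lof_of_ne hx0).mp hx P
        rw [Finsupp.add_apply, hD, P.ord_mul (inv_ne_zero hf0) hx0, P.ord_inv]
        omega
    · rw [V.rd_mul hiO hxO, V.rd_inv hf, hxy, inv_mul_cancel_left₀ hf]

variable {V}

/-- **[SP1], abstract form.** -/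
theorem exists_red_abs {t : F} (ht : V.GoodCoord t) (g n : ℤ) (hn : 0 < n)
    (hfdL : ∀ D : Divisor L F, FiniteDimensional L (Lof (D : Place L F → ℤ)))
    (hgeL : ∀ D : Divisor L F,
      Divisor.degree D + 1 - g ≤ (finrank L (Lof (D : Place L F → ℤ)) : ℤ))
    (heqL : ∃ cL : ℤ, ∀ D : Divisor L F, cL ≤ Divisor.degree D →
      (finrank L (Lof (D : Place L F → ℤ)) : ℤ) = Divisor.degree D + 1 - g)
    (hfdk : ∀ E : Divisor k κ, FiniteDimensional k (Lof (E : Place k κ → ℤ)))
    (hlek : ∀ E : Divisor k κ,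
      (finrank k (Lof (E : Place k κ → ℤ)) : ℤ) ≤ max (Divisor.degree E + 1) 0)
    (heqk : ∃ c' : ℤ, ∀ E : Divisor k κ, c' ≤ Divisor.degree E →
      (finrank k (Lof (E : Place k κ → ℤ)) : ℤ) = Divisor.degree E + 1 - g)
    (hsupp : ∀ h : κ, h ≠ 0 → {Q : Place k κ | Q.ord h ≠ 0}.Finite)
    (hdegk : ∀ Q : Place k κ, 0 < Q.deg)
    (EL : ℤ → Divisor L F) (Ek : ℤ → Divisor k κ)
    (hEL : ∀ a, Divisor.degree (EL a) = a * n) (hEk : ∀ a, Divisor.degree (Ek a) = a * n)
    (hE : ∃ m0 : ℤ, ∀ a, m0 ≤ a → Rsp V (EL a) ≤ Lof (Ek a : Place k κ → ℤ)) :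
    ∃ red : Divisor L F →+ Divisor k κ,
      (∀ D, Divisor.degree (red D) = Divisor.degree D) ∧
      (∀ D, 0 ≤ D → 0 ≤ red D) ∧
      (∀ f ∈ V.O, V.rd f ≠ 0 → ∀ D : Divisor L F, (∀ P, D P = P.ord f) →
        ∀ Q, red D Q = Q.ord (V.rd f)) ∧
      (∃ c : ℤ, ∀ D D' : Divisor L F, c ≤ Divisor.degree D → c ≤ Divisor.degree D' →
        V.redSpace (Lof (D : Place L F → ℤ)) = V.redSpace (Lof (D' : Place L F → ℤ)) →
        red D = red D') ∧
      ∃ c : ℤ, ∀ D : Divisor L F, c ≤ Divisor.degree D →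
        V.redSpace (Lof (D : Place L F → ℤ)) = Lof (red D : Place k κ → ℤ) := by
  obtain ⟨c', hc'⟩ := heqk
  obtain ⟨cL, hcL⟩ := heqL
  obtain ⟨m0, hm0⟩ := hE
  set c : ℤ := max c' 0 + max g 0 with hc
  have hc0 : 0 ≤ c := by positivity
  -- dimension of the reduction
  have hdim : ∀ D : Divisor L F, FiniteDimensional k (Rsp V D) ∧
      finrank k (Rsp V D) = finrank L (Lof (D : Place L F → ℤ)) := fun D => by
    haveI := hfdL D
    exact ht.finrank_redSpace _
  -- existence of hulls
  have hex : ∀ D : Divisor L F, c ≤ Divisor.degree D → IsHull (Rsp V D) (bar V D) := by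
    intro D hD
    apply isHull_bar
    haveI := (hdim D).1
    apply exists_isHull _ _ hsupp
    intro hbot
    have h1 := (hdim D).2
    rw [hbot, finrank_bot] at h1
    have h2 := hgeL D
    rw [← h1] at h2
    have := le_max_right c' 0
    have := le_max_left g 0
    push_cast at h2
    omega
  -- (A)
  have hA : ∀ D : Divisor L F, c ≤ Divisor.degree D →
      Divisor.degree D ≤ Divisor.degree (bar V D) := by
    intro D hD
    haveI := hfdk (bar V D)
    have h1 : finrank k (Rsp V D) ≤ finrank k (Lof (bar V D : Place k κ → ℤ)) :=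
      Submodule.finrank_mono (hex D hD).le_Lof
    rw [(hdim D).2] at h1
    have h2 := hgeL D
    have h1' : (finrank L (Lof (D : Place L F → ℤ)) : ℤ) ≤
        finrank k (Lof (bar V D : Place k κ → ℤ)) := by exact_mod_cast h1
    by_cases hcase : c' ≤ Divisor.degree (bar V D)
    · rw [hc' _ hcase] at h1'
      omega
    · have h3 := hlek (bar V D)
      have h4 : max (Divisor.degree (bar V D) + 1) 0 ≤ max c' 0 :=
        max_le_max (by omega) le_rfl
      have := le_max_left g 0
      omega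
  -- (B)
  have hB : ∀ D D' : Divisor L F, c ≤ Divisor.degree D → c ≤ Divisor.degree D' →
      bar V D + bar V D' ≤ bar V (D + D') := by
    intro D D' hD hD'
    exact (hex D hD).add_le (hex D' hD') (hex (D + D') (by rw [map_add]; omega))
      fun x hx y hy => mul_mem_Rsp V hx hy
  -- (D)
  have hDeg : ∀ D : Divisor L F, c ≤ Divisor.degree D →
      Divisor.degree (bar V D) = Divisor.degree D := by
    intro D hD
    set a : ℤ := max m0 (c + Divisor.degree D) with ha
    have ha1 : m0 ≤ a := le_max_left _ _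
    have ha2 : c + Divisor.degree D ≤ a * n := by
      have h1 : c + Divisor.degree D ≤ a := le_max_right _ _
      have h2 : 0 ≤ a := by omega
      nlinarith
    set D' : Divisor L F := EL a - D with hD'
    have hdD' : Divisor.degree D' = a * n - Divisor.degree D := by rw [hD', map_sub, hEL]
    have hcD' : c ≤ Divisor.degree D' := by omega
    have h1 := hB D D' hD hcD'
    have h2 : D + D' = EL a := by rw [hD']; abel
    rw [h2] at h1
    have hcE : c ≤ Divisor.degree (EL a) := by rw [hEL]; omega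
    have h3 : bar V (EL a) ≤ Ek a := (hex _ hcE).le_of_le_Lof (hm0 a ha1)
    have h4 := degree_mono (h1.trans h3)
    rw [map_add, hEk] at h4
    have h5 := hA D hD
    have h6 := hA D' hcD'
    omega
  -- (E)
  have hadd : ∀ D D' : Divisor L F, c ≤ Divisor.degree D → c ≤ Divisor.degree D' →
      bar V (D + D') = bar V D + bar V D' := by
    intro D D' hD hD'
    refine (eq_of_le_of_degree_le hdegk (hB D D' hD hD') ?_).symm
    rw [map_add, hDeg D hD, hDeg D' hD', hDeg (D + D') (by rw [map_add]; omega), map_add]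
  have hX₀ : 0 < Divisor.degree (EL 1) := by rw [hEL]; omega
  obtain ⟨red, hred⟩ := exists_hom_of_additive Divisor.degree (EL 1) hX₀ c hc0 (bar V) hadd
  have hform : ∀ D : Divisor L F, ∃ X : Divisor L F, c ≤ Divisor.degree X ∧
      c ≤ Divisor.degree (D + X) ∧ red D = bar V (D + X) - bar V X := by
    intro D
    obtain ⟨X, hX1, hX2⟩ := exists_large Divisor.degree (EL 1) hX₀ c D
    refine ⟨X, hX1, hX2, ?_⟩
    rw [← hred _ hX2, ← hred _ hX1, map_add]
    abel
  refine ⟨red, ?_, ?_, ?_, ⟨c, ?_⟩, max c (max cL c'), ?_⟩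
  · intro D
    obtain ⟨X, hX1, hX2, hX⟩ := hform D
    rw [hX, map_sub, hDeg _ hX2, hDeg _ hX1, map_add]
    ring
  · intro D hD
    obtain ⟨X, hX1, hX2, hX⟩ := hform D
    rw [hX, sub_nonneg]
    exact (hex X hX1).le_of_le (hex _ hX2) (Rsp_mono V (le_add_of_nonneg_left hD))
  · intro f _ hf D hD Q
    obtain ⟨X, hX1, hX2, hX⟩ := hform D
    let Du : Divisor k κ := Finsupp.ofSupportFinite (fun Q => Q.ord (V.rd f)) (hsupp _ hf)
    have hDu : ∀ Q : Place k κ, Du Q = Q.ord (V.rd f) := fun Q => rfl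
    have h1 : IsHull (Rsp V (X + D)) (bar V X + Du) :=
      (hex X hX1).of_mul hf hDu (mem_Rsp_add_iff V hf hD)
    have h2 : bar V (D + X) = bar V X + Du := by
      rw [add_comm D X] at hX2 ⊢
      exact (hex _ hX2).unique h1
    rw [hX, h2, add_sub_cancel_left, hDu]
  · intro D D' hD hD' hR
    rw [hred D hD, hred D' hD']
    have h1 := hex D hD
    have h2 := hex D' hD'
    have h3 : Rsp V D = Rsp V D' := hR
    rw [h3] at h1
    exact h1.unique h2
  · intro D hD
    have hD1 : c ≤ Divisor.degree D := le_trans (le_max_left _ _) hD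
    have hD2 : cL ≤ Divisor.degree D :=
      le_trans (le_trans (le_max_left _ _) (le_max_right _ _)) hD
    have hD3 : c' ≤ Divisor.degree D :=
      le_trans (le_trans (le_max_right _ _) (le_max_right _ _)) hD
    rw [hred D hD1]
    haveI := hfdk (bar V D)
    refine Submodule.eq_of_le_of_finrank_eq (hex D hD1).le_Lof ?_
    have e1 : finrank k (V.redSpace (Lof (D : Place L F → ℤ))) =
        finrank L (Lof (D : Place L F → ℤ)) := (hdim D).2
    have e2 := hcL D hD2
    have e3 := hc' (bar V D) (by rw [hDeg D hD1]; exact hD3)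
    rw [hDeg D hD1] at e3
    have : (finrank k (V.redSpace (Lof (D : Place L F → ℤ))) : ℤ) =
        finrank k (Lof (bar V D : Place k κ → ℤ)) := by rw [e1, e2, e3]
    exact_mod_cast this

end Fermat.Agent.S37.Red
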