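import Mathlib
import Fermat.Agent.S37.RedAbs

set_option autoImplicit false
set_option linter.style.haveILetI false
set_option linter.unusedSectionVars false

/-! # S37 [SP1]: formal consequences of the properties of the specialisation map -/

namespace Fermat.Agent.S37.Red

open AlgebraicCurve Fermat.Agent.S18 Fermat.Agent.S18.R1 Module

variable {L F k κ : Type} [Field L] [Field F] [Algebra L F] [Field k] [Field κ] [Algebra k κ]

/-- the properties of the specialisation map of divisors. -/
structure IsRed (V : VData L F k κ) (red : Divisor L F →+ Divisor k κ) : Prop where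
  degree_eq : ∀ D, Divisor.degree (red D) = Divisor.degree D
  nonneg : ∀ D, 0 ≤ D → 0 ≤ red D
  principal : ∀ f ∈ V.O, V.rd f ≠ 0 → ∀ D : Divisor L F, (∀ P, D P = P.ord f) →
    ∀ Q, red D Q = Q.ord (V.rd f)
  inj : ∃ c : ℤ, ∀ D D' : Divisor L F, c ≤ Divisor.degree D → c ≤ Divisor.degree D' →
    V.redSpace (Lof (D : Place L F → ℤ)) = V.redSpace (Lof (D' : Place L F → ℤ)) → red D = red D'
  eq_Lof : ∃ c : ℤ, ∀ D : Divisor L F, c ≤ Divisor.degree D →
    V.redSpace (Lof (D : Place L F → ℤ)) = Lof (red D : Place k κ → ℤ)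

variable {V : VData L F k κ} {red : Divisor L F →+ Divisor k κ}

namespace IsRed

/-- two degree preserving operations on divisors which have the same effect on the reductions of
the Riemann-Roch spaces have the same effect after specialisation. -/
theorem comp_eq (h : IsRed V red) (X₀ : Divisor L F) (hX₀ : 0 < Divisor.degree X₀)
    (s s' : Divisor L F →+ Divisor L F) (hs : ∀ D, Divisor.degree (s D) = Divisor.degree D)
    (hs' : ∀ D, Divisor.degree (s' D) = Divisor.degree D)
    (hR : ∀ D : Divisor L F, V.redSpace (Lof (s D : Place L F → ℤ)) =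
      V.redSpace (Lof (s' D : Place L F → ℤ))) (D : Divisor L F) : red (s D) = red (s' D) := by
  obtain ⟨c, hc⟩ := h.inj
  obtain ⟨X, hX1, hX2⟩ := exists_large Divisor.degree X₀ hX₀ c D
  have h1 := hc (s (D + X)) (s' (D + X)) (by rw [hs]; exact hX2) (by rw [hs']; exact hX2) (hR _)
  have h2 := hc (s X) (s' X) (by rw [hs]; exact hX1) (by rw [hs']; exact hX1) (hR _)
  rw [map_add, map_add, map_add, map_add, h2] at h1
  exact add_right_cancel h1

/-- an operation on divisors which transforms the reductions of the Riemann-Roch spaces by a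
bijection of `κ` descends to the specialisations. -/
theorem comp_congr (h : IsRed V red) (X₀ : Divisor L F) (hX₀ : 0 < Divisor.degree X₀)
    (s : Divisor L F →+ Divisor L F) (hs : ∀ D, Divisor.degree (s D) = Divisor.degree D)
    (φ : κ → κ)
    (hR : ∀ (D : Divisor L F) (y : κ), y ∈ V.redSpace (Lof (s D : Place L F → ℤ)) ↔
      φ y ∈ V.redSpace (Lof (D : Place L F → ℤ)))
    {D₁ D₂ : Divisor L F} (h12 : red D₁ = red D₂) : red (s D₁) = red (s D₂) := by
  obtain ⟨c, hc⟩ := h.inj
  obtain ⟨c', hc'⟩ := h.eq_Lof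
  have hdeg : Divisor.degree D₁ = Divisor.degree D₂ := by
    rw [← h.degree_eq D₁, ← h.degree_eq D₂, h12]
  obtain ⟨X, hX1, hX2⟩ := exists_large Divisor.degree X₀ hX₀ (max c c') D₁
  have hX3 : max c c' ≤ Divisor.degree (D₂ + X) := by
    rw [map_add, ← hdeg, ← map_add]; exact hX2
  have e1 : V.redSpace (Lof (D₁ + X : Divisor L F)) = V.redSpace (Lof (D₂ + X : Divisor L F)) := by
    rw [hc' _ (le_trans (le_max_right _ _) hX2), hc' _ (le_trans (le_max_right _ _) hX3),
      map_add, map_add, h12]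
  have e2 : V.redSpace (Lof (s (D₁ + X) : Place L F → ℤ)) =
      V.redSpace (Lof (s (D₂ + X) : Place L F → ℤ)) := by
    ext y
    rw [hR, hR, e1]
  have h1 := hc _ _ (by rw [hs]; exact le_trans (le_max_left _ _) hX2)
    (by rw [hs]; exact le_trans (le_max_left _ _) hX3) e2
  rw [map_add, map_add, map_add, map_add] at h1
  exact add_right_cancel h1

/-- ... and preserves the divisors whose specialisation is principal. -/
theorem comp_principal (h : IsRed V red) (X₀ : Divisor L F) (hX₀ : 0 < Divisor.degree X₀)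
    (s : Divisor L F →+ Divisor L F) (hs : ∀ D, Divisor.degree (s D) = Divisor.degree D)
    (φ : κ → κ)
    (hR : ∀ (D : Divisor L F) (y : κ), y ∈ V.redSpace (Lof (s D : Place L F → ℤ)) ↔
      φ y ∈ V.redSpace (Lof (D : Place L F → ℤ)))
    (hdiv : ∀ f : F, f ≠ 0 → ∃ D : Divisor L F, ∀ P, D P = P.ord f)
    (hτ : ∀ f ∈ V.O, V.rd f ≠ 0 → ∀ D : Divisor L F, (∀ P, D P = P.ord f) →
      ∃ f' ∈ V.O, V.rd f' ≠ 0 ∧ ∀ P, s D P = P.ord f')
    {D : Divisor L F} (hD : Divisor.IsPrincipal (red D)) : Divisor.IsPrincipal (red (s D)) := by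
  obtain ⟨h0, hh0, hDh⟩ := hD
  obtain ⟨f, hfO, hf⟩ := V.rd_surj h0
  have hf' : V.rd f ≠ 0 := by rw [hf]; exact hh0
  have hf0 : f ≠ 0 := by rintro rfl; exact hf' V.rd_zero
  obtain ⟨Df, hDf⟩ := hdiv f hf0
  have h1 : red D = red Df := by
    ext Q
    rw [hDh, h.principal f hfO hf' Df hDf, hf]
  rw [h.comp_congr X₀ hX₀ s hs φ hR h1]
  obtain ⟨f', hf'O, hf'0, hsD⟩ := hτ f hfO hf' Df hDf
  exact ⟨V.rd f', hf'0, h.principal f' hf'O hf'0 _ hsD⟩

/-- principal divisors specialise to principal divisors. -/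
theorem isPrincipal (h : IsRed V red) {D : Divisor L F} (hD : Divisor.IsPrincipal D) :
    Divisor.IsPrincipal (red D) := by
  obtain ⟨f, hf0, hDf⟩ := hD
  obtain ⟨c, hc0, hne⟩ := V.exists_scale hf0
  have hcF : algebraMap L F c ≠ 0 := by simpa using hc0
  refine ⟨V.rd (algebraMap L F c * f), hne,
    h.principal _ (V.mem_of_rd_ne_zero hne) hne D fun P => ?_⟩
  rw [P.ord_mul hcF hf0, Fermat.Agent.S24.ord_algebraMap, zero_add, hDf]

end IsRed

end Fermat.Agent.S37.Red
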