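import Mathlib
import Fermat.Agent.S18.Glue5
import Fermat.Agent.S18.Glue23

set_option autoImplicit false
set_option linter.style.haveILetI false
set_option linter.unusedSectionVars false
set_option synthInstance.maxHeartbeats 400000

/-! # S37 [SP3] (i): a good coordinate with good reduction and CORE at a suitable level -/

namespace Fermat.Agent.S37

open AlgebraicCurve IntermediateField Polynomial ModularCurve
open Fermat.Agent.S24 Fermat.Agent.S18 Fermat.Agent.S18.Mo1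
open Fermat.Agent.S28 (IgusaData)

section abstract

variable {L F k κ : Type} [Field L] [Field F] [Algebra L F] [Field k] [Field κ] [Algebra k κ]

/-- the conclusion of `GR.GoodCoord.good_reduction`. -/
def GRH (V : VData L F k κ) (t : F) : Prop :=
  ∃ g m0 : ℤ,
    (∀ a b : ℤ, FiniteDimensional L (Lsp L t a b)) ∧
    (∀ a b : ℤ, FiniteDimensional k (Lsp k (V.rd t) a b)) ∧
    (∀ a b : ℤ, m0 ≤ a + b → (Module.finrank L (Lsp L t a b) : ℤ)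
      = (a + b) * Module.finrank L⟮t⟯ F + 1 - g) ∧
    (∀ a b : ℤ, m0 ≤ a + b → (Module.finrank k (Lsp k (V.rd t) a b) : ℤ)
      = (a + b) * Module.finrank L⟮t⟯ F + 1 - g) ∧
    (∀ a b a' b' : ℤ, a' ≤ a → b' ≤ b → m0 ≤ a' + b' →
      Lsp L t a b = Lsp L t a b' ⊔ Lsp L t a' b) ∧
    (∀ a b a' b' : ℤ, a' ≤ a → b' ≤ b → m0 ≤ a' + b' →
      Lsp k (V.rd t) a b = Lsp k (V.rd t) a b' ⊔ Lsp k (V.rd t) a' b) ∧
    (∀ a b : ℤ, m0 ≤ a + b → ∀ y ∈ Lsp k (V.rd t) a b,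
      ∃ x ∈ Lsp L t a b, x ∈ V.O ∧ V.rd x = y)

variable [IsAlgClosed L] [CharZero L]

/-- good reduction for a coordinate with three branch values. -/
theorem grh_threePt (V : VData L F k κ) (x : F) (hx : V.GoodCoord x)
    [Algebra.IsSeparable k⟮V.rd x⟯ κ] (a₀ c₂ : V.A) (ha₀ : V.π a₀ ≠ 0) (hc₂ : V.π c₂ ≠ 0)
    (hne : V.π a₀ ≠ V.π c₂)
    (hunb : ∀ c : L, c ≠ 0 → c ≠ c₂ → ∀ P : Place L F, P.ord (x - algebraMap L F c) ≤ 1) :
    GR.GoodCoord V (x - algebraMap L F (a₀ : L))⁻¹ ∧ GRH V (x - algebraMap L F (a₀ : L))⁻¹ := by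
  have hsq0 : Squarefree ((ThreePt.beta0 a₀ c₂).map V.π) := by
    rw [ThreePt.map_beta0]
    exact ThreePt.squarefree_beta0 _ _ ha₀ (sub_ne_zero.2 hne.symm) (by simpa using hc₂)
  have hsq1 : Squarefree ((ThreePt.beta1 a₀ c₂).map V.π) := by
    rw [ThreePt.map_beta1]
    refine ThreePt.squarefree_beta1 _ _ ?_
    intro h
    apply hc₂
    linear_combination h
  exact ⟨ThreePt.goodCoord V x hx a₀, (ThreePt.goodCoord V x hx a₀).good_reduction_of_hunr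
    (ThreePt.beta0 a₀ c₂) (ThreePt.beta1 a₀ c₂) hsq0 hsq1 (ThreePt.hunr0 V x hx a₀ c₂ hunb)
    (ThreePt.hunr1 V x hx a₀ c₂ hunb)⟩

end abstract

section modular

variable {k κ : Type} [Field k] [Infinite k] [Field κ] [Algebra k κ]

theorem grh_j (M : ℕ) [NeZero M] (V : VData Kb (FN M) k κ) (hj : V.GoodCoord (jF M))
    [Algebra.IsSeparable k⟮V.rd (jF M)⟯ κ] (h1728 : (1728 : k) ≠ 0) :
    ∃ t : FN M, GR.GoodCoord V t ∧ GRH V t := by
  classical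
  obtain ⟨ā, hā⟩ := Infinite.exists_notMem_finset ({0, 1728} : Finset k)
  simp only [Finset.mem_insert, Finset.mem_singleton, not_or] at hā
  obtain ⟨a₀, rfl⟩ := V.π_surj ā
  have hπ : V.π (1728 : V.A) = 1728 := map_ofNat V.π 1728
  have hco : ((1728 : V.A) : Kb) = 1728 := rfl
  refine ⟨_, grh_threePt V (jF M) hj a₀ (1728 : V.A) hā.1 (by rw [hπ]; exact h1728)
    (by rw [hπ]; exact hā.2) ?_⟩
  intro c hc0 hc1 P
  rw [hco] at hc1
  exact ModB.ord_sub_le_one M c hc0 hc1 P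

theorem grh_t (M : ℕ) [NeZero M] (V : VData Kb (FN M) k κ) (hj : V.GoodCoord (jF M))
    [Algebra.IsSeparable k⟮V.rd (jF M)⟯ κ]
    (α : Kb) (hα : α ∈ V.A) (hα' : α⁻¹ ∈ V.A) (hα0 : α ≠ 0) (Q : Kb[X]) (hQm : Q.Monic)
    (hd : 2 ≤ Q.natDegree) (hQA : ∀ n, Q.coeff n ∈ V.A) (hQ0 : Q.eval 0 ≠ 0)
    (hQ0A : (Q.eval 0)⁻¹ ∈ V.A) (t : FN M)
    (hrel : algebraMap Kb (FN M) α * jF M * t = aeval t Q)
    (hcard : (Mo3b.brSet α Q).card ≤ 1) :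
    ∃ t : FN M, GR.GoodCoord V t ∧ GRH V t := by
  classical
  obtain ⟨ht, hjt⟩ := Mo3c.goodCoord_of_rel V (jF M) t hj α hα hα' hα0 Q hQm hd hQA hQ0 hQ0A hrel
  haveI := hj.isSeparable_of_mem_adjoin ht.htr hjt
  obtain ⟨c₂, hc₂A, hc₂A', hc₂0, hsub⟩ : ∃ c₂ : Kb, c₂ ∈ V.A ∧ c₂⁻¹ ∈ V.A ∧ c₂ ≠ 0 ∧
      ∀ c ∈ Mo3b.brSet α Q, c = c₂ := by
    rcases (Mo3b.brSet α Q).eq_empty_or_nonempty with he | ⟨c₂, hc₂⟩
    · exact ⟨1, one_mem _, by rw [inv_one]; exact one_mem _, one_ne_zero, by simp [he]⟩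
    · obtain ⟨h1, h2⟩ := Mo3b.unit_of_mem_brSet V.A α hα Q hQm hd hQA hQ0 hQ0A c₂ hc₂
      refine ⟨c₂, h1, h2, ?_, fun c hc => Finset.card_le_one.1 hcard c hc c₂ hc₂⟩
      rintro rfl
      unfold Mo3b.brSet at hc₂
      rcases Finset.mem_union.1 hc₂ with h | h
      · exact Mo3b.ne_zero_of_isRoot α Q 0 0 hQ0 ((Mo3b.mem_badSet_iff α Q hQ0 0 0).1 h).1 rfl
      · exact Mo3b.ne_zero_of_isRoot α Q 1728 0 hQ0
          ((Mo3b.mem_badSet_iff α Q hQ0 1728 0).1 h).1 rfl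
  have hπc := Mo3c.pi_ne_zero_of_inv_mem V hc₂A hc₂A' hc₂0
  obtain ⟨ā, hā⟩ := Infinite.exists_notMem_finset ({0, V.π ⟨c₂, hc₂A⟩} : Finset k)
  simp only [Finset.mem_insert, Finset.mem_singleton, not_or] at hā
  obtain ⟨a₀, rfl⟩ := V.π_surj ā
  refine ⟨_, grh_threePt V t ht a₀ ⟨c₂, hc₂A⟩ hā.1 hπc hā.2 ?_⟩
  intro c hc0 hc1 P
  exact Mo3b.ord_sub_le_one_FN M α hα0 Q hQ0 t hrel c hc0 (fun h => hc1 (hsub c h)) P

end modular

section level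

variable {A : ValuationSubring Kb} {k : Type} [Field k] {π : ↥A →+* k} {M : ℕ} [NeZero M]

theorem goodLevel_five {ℓ : ℕ} (hℓ : ℓ.Prime) (hA : A.LiesOverPrime ℓ)
    (hπ : Function.Surjective π) (h1728 : (1728 : k) ≠ 0)
    (G : GenData A π (modularFunctionFieldBar M)) :
    (∃ t : FN M, GR.GoodCoord (G.V hπ) t ∧ GRH (G.V hπ) t) ∧ Glue.VCore G hπ := by
  haveI : IsAlgClosed k := isAlgClosed_of_valuationSubring A π hπ
  haveI : Infinite k := IsAlgClosed.instInfinite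
  haveI := G.isSeparable hπ
  haveI : Algebra.IsAlgebraic ℚ Kb := AlgebraicClosure.isAlgebraic ℚ
  refine ⟨grh_j M (G.V hπ) (G.goodCoord hπ) h1728, ?_⟩
  intro m hm f t0 ht0 hf hdiv
  exact Mo3c.core_j M (G.V hπ) (G.goodCoord hπ) h1728
    (fun c c0 hc hc0 => rank_one_of_liesOverPrime A hℓ hA c c0 hc hc0) m hm f t0 ht0 hf hdiv

theorem goodLevel_haupt {ℓ : ℕ} (hℓ : ℓ.Prime) (hA : A.LiesOverPrime ℓ)
    (hπ : Function.Surjective π) (s : ℕ) [NeZero s] (hs : s = 2 ∨ s = 3)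
    (hsM : s ∣ M) [Fact ℓ.Prime] (I : IgusaData s ℓ) (H : Mo3a.HauptShape (s + 1) I.Ψ)
    (G : GenData A π (modularFunctionFieldBar M)) :
    (∃ t : FN M, GR.GoodCoord (G.V hπ) t ∧ GRH (G.V hπ) t) ∧ Glue.VCore G hπ := by
  haveI : IsAlgClosed k := isAlgClosed_of_valuationSubring A π hπ
  haveI : Infinite k := IsAlgClosed.instInfinite
  haveI := G.isSeparable hπ
  haveI : Algebra.IsAlgebraic ℚ Kb := AlgebraicClosure.isAlgebraic ℚ
  have hcq : I.Ψ.natDegree = Fintype.card (S20.Quo s) := by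
    rw [H.natDegree]
    rcases hs with rfl | rfl
    · exact Asm.card_quo_two.symm
    · exact Asm.card_quo_three.symm
  have hUs : Mo3d.UU I ∈ modularFunctionFieldBar s := Mo3d.UU_mem I hcq
  have hUM : Mo3d.UU I ∈ modularFunctionFieldBar M := Mo3d.FN_mono hsM hUs
  have hα0 := Mo3d.aa_ne_zero I H
  have hQ0 := Mo3d.eval_QQ_ne_zero I H
  have hdeg : (Mo3d.QQ I).natDegree = s + 1 := by rw [Mo3d.natDegree_QQ, H.natDegree]
  have hcard : (Mo3b.brSet (Mo3d.aa I) (Mo3d.QQ I)).card ≤ 1 := by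
    rcases hs with rfl | rfl
    · exact Mo3b.card_brSet_two _ hα0 _ hQ0 hdeg _ (Mo3d.rel_FN I H 2 hUs)
    · exact Mo3b.card_brSet_three _ hα0 _ hQ0 hdeg _ (Mo3d.rel_FN I H 3 hUs)
  refine ⟨grh_t M (G.V hπ) (G.goodCoord hπ) (Mo3d.aa I) (Mo3d.aa_mem I A hA)
    (Mo3d.aa_inv_mem I H A hA) hα0 (Mo3d.QQ I) (Mo3d.monic_QQ I)
    (by rw [hdeg]; rcases hs with rfl | rfl <;> omega) (Mo3d.coeff_QQ_mem I A hA) hQ0
    (Mo3d.eval_QQ_inv_mem I H A hA) ⟨Mo3d.UU I, hUM⟩ (Mo3d.rel_FN I H M hUM) hcard, ?_⟩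
  intro m hm f t0 ht0 hf hdiv
  exact Mo3c.core_t M (G.V hπ) (G.goodCoord hπ) (Mo3d.aa I) (Mo3d.aa_mem I A hA)
    (Mo3d.aa_inv_mem I H A hA) hα0 (Mo3d.QQ I) (Mo3d.monic_QQ I)
    (by rw [hdeg]; rcases hs with rfl | rfl <;> omega) (Mo3d.coeff_QQ_mem I A hA) hQ0
    (Mo3d.eval_QQ_inv_mem I H A hA) ⟨Mo3d.UU I, hUM⟩ (Mo3d.rel_FN I H M hUM) hcard
    (fun c c0 hc hc0 => rank_one_of_liesOverPrime A hℓ hA c c0 hc hc0) m hm f t0 ht0 hf hdiv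

/-- **[SP3] (i)**: at a level `M` as produced by `Asm.exists_level`, there is a good coordinate
with good reduction, and CORE holds. -/
theorem goodLevel {ℓ : ℕ} (hℓ : ℓ.Prime) (hA : A.LiesOverPrime ℓ)
    (hπ : Function.Surjective π)
    (hcase : 5 ≤ ℓ ∨ (ℓ = 3 ∧ 2 ∣ M) ∨ (ℓ = 2 ∧ 3 ∣ M))
    (G : GenData A π (modularFunctionFieldBar M)) :
    (∃ t : FN M, GR.GoodCoord (G.V hπ) t ∧ GRH (G.V hπ) t) ∧ Glue.VCore G hπ := by
  haveI : Fact ℓ.Prime := ⟨hℓ⟩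
  rcases hcase with h5 | ⟨h3, h2⟩ | ⟨h2, h3⟩
  · refine goodLevel_five hℓ hA hπ ?_ G
    have hn : ¬ ℓ ∣ 1728 := by
      intro h
      have h1 : (1728 : ℕ) = 2 ^ 6 * 3 ^ 3 := by norm_num
      rw [h1] at h
      rcases (Nat.Prime.dvd_mul hℓ).1 h with h | h
      · have := (Nat.prime_dvd_prime_iff_eq hℓ Nat.prime_two).1 (hℓ.dvd_of_dvd_pow h)
        omega
      · have := (Nat.prime_dvd_prime_iff_eq hℓ Nat.prime_three).1 (hℓ.dvd_of_dvd_pow h)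
        omega
    have hinv := Mo1.natCast_inv_mem A hA hℓ 1728 hn
    have hmul : (1728 : A) * ⟨((1728 : ℕ) : Kb)⁻¹, hinv⟩ = 1 := by
      apply Subtype.ext
      show (1728 : Kb) * ((1728 : ℕ) : Kb)⁻¹ = 1
      norm_num
    have h2 := congrArg π hmul
    rw [map_mul, map_one, map_ofNat] at h2
    exact left_ne_zero_of_mul_eq_one h2
  · obtain ⟨I, -, -, -, -, H⟩ := Mo3a.exists_haupt_two ℓ (by rw [h3]; decide)
    exact goodLevel_haupt hℓ hA hπ 2 (Or.inl rfl) h2 I H G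
  · obtain ⟨I, -, -, -, -, H⟩ := Mo3a.exists_haupt_three ℓ (by rw [h2]; decide)
    exact goodLevel_haupt hℓ hA hπ 3 (Or.inr rfl) h3 I H G

end level

end Fermat.Agent.S37
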