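import Fermat.Agent.S37.RedFinal
import Fermat.Agent.S37.Level
import Fermat.Agent.S37.Lvl
import Fermat.Agent.S37.Gal

/-!
# S37 [SP8], middle layer: the reduction map at a good level and the Galois action
-/

set_option autoImplicit false
set_option linter.unusedSectionVars false
set_option linter.style.haveILetI false
set_option synthInstance.maxHeartbeats 400000

namespace Fermat.Agent.S37

open ModularCurve AlgebraicCurve IntermediateField Fermat.Agent.S24 Fermat.Agent.S18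
  Fermat.Agent.S18.R1 Fermat.Agent.S37.RR Fermat.Agent.S18.Mo1 Fermat.Agent.S29

section abstract

variable {L F k κ : Type} [Field L] [Field F] [Algebra L F] [Field k] [Field κ] [Algebra k κ]

theorem rrh_of_grh {V : VData L F k κ} {t : F} (ht : GR.GoodCoord V t) (h : GRH V t) :
    ∃ (n : ℕ) (g m0 : ℤ), RRH L t n g m0 ∧ RRH k (V.rd t) n g m0 := by
  obtain ⟨g, m0, h1, h2, h3, h4, -⟩ := h
  refine ⟨Module.finrank L⟮t⟯ F, g, m0,
    ⟨V.transcendental_t ht.htr, ht.fd, ht.sep, rfl, h1, h3⟩,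
    ⟨ht.htr, ht.fdb, ht.sepb, ht.hn.symm, h2, h4⟩⟩

/-- the action of a semilinear automorphism on divisors, as an additive map. -/
noncomputable def smulHom (g : SemilinearAut L F) : Divisor L F →+ Divisor L F :=
  DistribSMul.toAddMonoidHom (Divisor L F) g

theorem smulHom_apply (g : SemilinearAut L F) (D : Divisor L F) : smulHom g D = g • D := rfl

theorem degree_smulHom (g : SemilinearAut L F) (D : Divisor L F) :
    Divisor.degree (smulHom g D) = Divisor.degree D := SemilinearAut.degree_smul g D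

end abstract

section concrete

variable {A : ValuationSubring Kb} {M : ℕ} [NeZero M]
  (G : GenData A (πA A) (modularFunctionFieldBar M))
  {red : Divisor Kb (FN M) →+ Divisor (kA A) (G.kp (πA_surj A))}
  (hred : Red.IsRed (G.V (πA_surj A)) red)
  (X₀ : Divisor Kb (FN M)) (hX₀ : 0 < Divisor.degree X₀)

include hred hX₀

theorem red_inertia (σ : Kb ≃ₐ[ℚ] Kb) (hσ : σ ∈ A.inertiaSubgroupIn ℚ) (E : Divisor Kb (FN M)) :
    red (sg M σ • E) = red E := by
  obtain ⟨g, hg, rfl⟩ := hσ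
  refine hred.comp_eq X₀ hX₀ (smulHom (sg M (g : Kb ≃ₐ[ℚ] Kb))) (AddMonoidHom.id _)
    (degree_smulHom _) (fun _ => rfl) (fun D => ?_) E
  apply SetLike.coe_injective
  rw [smulHom_apply]
  refine (redSpace_smul G g D).trans ?_
  rw [sbar_inertia G g hg]
  exact Set.image_id _

theorem red_frob {ℓ : ℕ} (σ φ : Kb ≃ₐ[ℚ] Kb) (hσ : A.IsFrobeniusAt σ ℓ)
    (hφ : A.IsFrobeniusAt φ ℓ) (E : Divisor Kb (FN M)) :
    red (sg M σ • E) = red (sg M φ • E) := by
  obtain ⟨hσ1, hσ2⟩ := hσ
  obtain ⟨hφ1, hφ2⟩ := hφ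
  refine hred.comp_eq X₀ hX₀ (smulHom (sg M σ)) (smulHom (sg M φ))
    (degree_smulHom _) (degree_smulHom _) (fun D => ?_) E
  apply SetLike.coe_injective
  rw [smulHom_apply, smulHom_apply]
  refine (redSpace_smul G ⟨σ, hσ1⟩ D).trans ?_
  rw [sbar_frob G hσ1 hφ1 hσ2 hφ2]
  exact (redSpace_smul G ⟨φ, hφ1⟩ D).symm

theorem red_decomp_principal (hP : HasPrincipalDivisors Kb (FN M))
    (g : A.decompositionSubgroup ℚ) (E : Divisor Kb (FN M))
    (hE : Divisor.IsPrincipal (red E)) :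
    Divisor.IsPrincipal (red (sg M (g : Kb ≃ₐ[ℚ] Kb) • E)) := by
  refine hred.comp_principal X₀ hX₀ (smulHom (sg M (g : Kb ≃ₐ[ℚ] Kb))) (degree_smulHom _)
    (fun y => (sbar G g).symm y) (fun D y => ?_) (fun f hf => ?_) (fun f hfO hf D hD => ?_) hE
  · have h1 : (((G.V (πA_surj A)).redSpace
        (Lof ((smulHom (sg M (g : Kb ≃ₐ[ℚ] Kb)) D : Divisor Kb (FN M)) : Place Kb (FN M) → ℤ))) :
        Set (G.kp (πA_surj A))) = sbar G g '' ((G.V (πA_surj A)).redSpace
          (Lof (D : Place Kb (FN M) → ℤ)) : Set (G.kp (πA_surj A))) :=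
      redSpace_smul G g D
    constructor
    · intro hy
      have hy' := SetLike.mem_coe.2 hy
      rw [h1] at hy'
      obtain ⟨z, hz, rfl⟩ := hy'
      rw [RingEquiv.symm_apply_apply]
      exact hz
    · intro hz
      apply SetLike.mem_coe.1
      rw [h1]
      exact ⟨_, hz, RingEquiv.apply_symm_apply _ _⟩
  · obtain ⟨D, hD, -⟩ := hP.exists_divisor f hf
    exact ⟨D, hD⟩
  · refine ⟨gal M (g : Kb ≃ₐ[ℚ] Kb) f, gal_mem_O G g hfO, ?_,
      fun P => smul_principal (g : Kb ≃ₐ[ℚ] Kb) D f hD P⟩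
    rw [rd_gal G g f]
    exact (map_ne_zero_iff _ (sbar G g).injective).2 hf

end concrete

end Fermat.Agent.S37
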