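import Mathlib
import Fermat.Prelude.Def_AlgebraicCurve_DivisorClassGroup

set_option autoImplicit false

/-! # S37 [SP6]: a bounded homomorphism from divisors to a free abelian group which kills the
principal divisors kills the divisors of degree zero -/

namespace Fermat.Agent.S37

open AlgebraicCurve

section norm

variable {ι : Type*}

/-- the `ℓ¹`-norm. -/
def nrm (x : ι →₀ ℤ) : ℕ := x.sum fun _ n => n.natAbs

theorem nrm_eq_sum (x : ι →₀ ℤ) (s : Finset ι) (hs : x.support ⊆ s) :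
    nrm x = ∑ i ∈ s, (x i).natAbs :=
  Finsupp.sum_of_support_subset x hs _ fun _ _ => rfl

theorem nrm_zero : nrm (0 : ι →₀ ℤ) = 0 := Finsupp.sum_zero_index

theorem nrm_add_le (x y : ι →₀ ℤ) : nrm (x + y) ≤ nrm x + nrm y := by
  classical
  have h1 : x.support ⊆ x.support ∪ y.support := Finset.subset_union_left
  have h2 : y.support ⊆ x.support ∪ y.support := Finset.subset_union_right
  rw [nrm_eq_sum (x + y) _ Finsupp.support_add, nrm_eq_sum x _ h1, nrm_eq_sum y _ h2,
    ← Finset.sum_add_distrib]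
  exact Finset.sum_le_sum fun i _ => Int.natAbs_add_le _ _

theorem nrm_neg (x : ι →₀ ℤ) : nrm (-x) = nrm x := by
  rw [nrm_eq_sum (-x) x.support (by rw [Finsupp.support_neg]), nrm_eq_sum x x.support subset_rfl]
  exact Finset.sum_congr rfl fun i _ => by rw [Finsupp.neg_apply, Int.natAbs_neg]

theorem nrm_zsmul (n : ℤ) (x : ι →₀ ℤ) : nrm (n • x) = n.natAbs * nrm x := by
  rw [nrm_eq_sum (n • x) x.support Finsupp.support_smul, nrm_eq_sum x x.support subset_rfl,
    Finset.mul_sum]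
  exact Finset.sum_congr rfl fun i _ => by
    rw [Finsupp.smul_apply, smul_eq_mul, Int.natAbs_mul]

theorem nrm_sum_le {α : Type*} (s : Finset α) (f : α → ι →₀ ℤ) :
    nrm (∑ a ∈ s, f a) ≤ ∑ a ∈ s, nrm (f a) := by
  classical
  induction s using Finset.induction_on with
  | empty => simp [nrm_zero]
  | insert a s ha ih =>
    rw [Finset.sum_insert ha, Finset.sum_insert ha]
    exact (nrm_add_le _ _).trans (Nat.add_le_add_left ih _)

theorem eq_zero_of_nrm_eq_zero {x : ι →₀ ℤ} (h : nrm x = 0) : x = 0 := by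
  ext i
  by_cases hi : i ∈ x.support
  · rw [nrm_eq_sum x x.support subset_rfl, Finset.sum_eq_zero_iff] at h
    simpa using h i hi
  · simpa using hi

end norm

variable {K F : Type*} [Field K] [Field F] [Algebra K F] {ι : Type*}

theorem nrm_map_le (Ψ : Divisor K F →+ (ι →₀ ℤ)) (C : ℕ)
    (hC : ∀ P : Place K F, nrm (Ψ (Finsupp.single P 1)) ≤ C) (E : Divisor K F) :
    nrm (Ψ E) ≤ nrm E * C := by
  have h1 : Ψ E = ∑ P ∈ E.support, E P • Ψ (Finsupp.single P 1) := by
    conv_lhs => rw [← Finsupp.sum_single E]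
    rw [Finsupp.sum, map_sum]
    refine Finset.sum_congr rfl fun P _ => ?_
    rw [← map_zsmul, Finsupp.smul_single, smul_eq_mul, mul_one]
  rw [h1, nrm_eq_sum E E.support subset_rfl, Finset.sum_mul]
  refine (nrm_sum_le _ _).trans (Finset.sum_le_sum fun P _ => ?_)
  rw [nrm_zsmul]
  exact Nat.mul_le_mul_left _ (hC P)

theorem nrm_le_degree (hdeg : ∀ P : Place K F, 1 ≤ P.deg) (E : Divisor K F) (hE : ∀ P, 0 ≤ E P) :
    (nrm E : ℤ) ≤ Divisor.degree E := by
  have h1 : Divisor.degree E = ∑ P ∈ E.support, E P * (P.deg : ℤ) := by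
    conv_lhs => rw [← Finsupp.sum_single E]
    rw [Finsupp.sum, map_sum]
    exact Finset.sum_congr rfl fun P _ => Divisor.degree_single P _
  rw [h1, nrm_eq_sum E E.support subset_rfl]
  push_cast
  refine Finset.sum_le_sum fun P _ => ?_
  rw [abs_of_nonneg (hE P)]
  have : (1 : ℤ) ≤ (P.deg : ℤ) := by exact_mod_cast hdeg P
  nlinarith [hE P]

/-- **[SP6]**, with explicit hypotheses. -/
theorem eq_zero_of_bounded (Ψ : Divisor K F →+ (ι →₀ ℤ))
    (hprin : ∀ D : Divisor K F, Divisor.IsPrincipal D → Ψ D = 0) (C : ℕ)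
    (hC : ∀ P : Place K F, (Ψ (Finsupp.single P 1)).sum (fun _ n => n.natAbs) ≤ C)
    (hdeg : ∀ P : Place K F, 1 ≤ P.deg) (P0 : Place K F) (g : ℕ)
    (heff : ∀ D : Divisor K F, (g : ℤ) ≤ Divisor.degree D →
      ∃ y : F, y ≠ 0 ∧ ∀ P : Place K F, 0 ≤ D P + P.ord y)
    (hdiv : ∀ y : F, y ≠ 0 → ∃ E : Divisor K F, (∀ P : Place K F, E P = P.ord y) ∧
      Divisor.degree E = 0)
    (D : Divisor K F) (hD : Divisor.degree D = 0) : Ψ D = 0 := by
  apply eq_zero_of_nrm_eq_zero
  set B : ℕ := g * P0.deg * C + g * C with hB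
  have key : ∀ n : ℕ, n * nrm (Ψ D) ≤ B := by
    intro n
    set D1 : Divisor K F := (n : ℤ) • D + (g : ℤ) • Finsupp.single P0 1 with hD1
    have hdeg1 : Divisor.degree D1 = g * P0.deg := by
      rw [hD1, map_add, map_zsmul, map_zsmul, hD, smul_zero, zero_add, Divisor.degree_single,
        one_mul, smul_eq_mul]
    obtain ⟨y, hy0, hy⟩ := heff D1 (by
      rw [hdeg1]
      have : (1 : ℤ) ≤ (P0.deg : ℤ) := by exact_mod_cast hdeg P0
      have hg : (0 : ℤ) ≤ g := Int.natCast_nonneg g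
      nlinarith)
    obtain ⟨E, hE, hE0⟩ := hdiv y hy0
    have hΨE : Ψ E = 0 := hprin E ⟨y, hy0, hE⟩
    have hpos : ∀ P, 0 ≤ (D1 + E) P := fun P => by
      rw [Finsupp.add_apply, hE]
      exact hy P
    have h1 : (nrm (D1 + E) : ℤ) ≤ g * P0.deg := by
      have := nrm_le_degree hdeg (D1 + E) hpos
      rwa [map_add, hE0, add_zero, hdeg1] at this
    have h1' : nrm (D1 + E) ≤ g * P0.deg := by exact_mod_cast h1
    have h2 : nrm (Ψ (D1 + E)) ≤ g * P0.deg * C :=
      (nrm_map_le Ψ C hC (D1 + E)).trans (Nat.mul_le_mul_right C h1')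
    have h3 : (n : ℤ) • Ψ D = Ψ (D1 + E) + -((g : ℤ) • Ψ (Finsupp.single P0 1)) := by
      rw [map_add, hΨE, add_zero, hD1, map_add, map_zsmul, map_zsmul]
      abel
    have h4 : nrm ((n : ℤ) • Ψ D) = n * nrm (Ψ D) := by rw [nrm_zsmul, Int.natAbs_natCast]
    rw [← h4, h3]
    refine (nrm_add_le _ _).trans ?_
    rw [nrm_neg, nrm_zsmul, Int.natAbs_natCast, hB]
    exact Nat.add_le_add h2 (Nat.mul_le_mul_left g (hC P0))
  by_contra hne
  have h1 : 1 ≤ nrm (Ψ D) := Nat.one_le_iff_ne_zero.mpr hne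
  have h2 := key (B + 1)
  have h3 : B + 1 ≤ (B + 1) * nrm (Ψ D) := Nat.le_mul_of_pos_right _ h1
  omega

end Fermat.Agent.S37
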