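import Mathlib
import Fermat.Prelude.Def_AlgebraicCurve_Correspondence
import Fermat.Agent.S37.RR
import Fermat.Agent.S37.Bounded

set_option autoImplicit false
set_option linter.unusedSectionVars false
set_option linter.style.haveILetI false

/-! # S37, clause (d) [T3]: the Eichler-Shimura relation on all divisors of degree zero -/

namespace Fermat.Agent.S37.CD

open AlgebraicCurve Fermat.Agent.S37.RR
open AlgebraicCurve.Divisor (degree)

section General

variable {K F F' : Type*} [Field K] [Field F] [Field F'] [Algebra K F] [Algebra K F']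

theorem pullbackAlong_nonneg [HasPrincipalDivisors K F'] (φ : F →ₐ[K] F')
    (hφ : φ.toRingHom.IsIntegral) {D : Divisor K F} (hD : 0 ≤ D) :
    0 ≤ Divisor.pullbackAlong φ hφ D := by
  intro w
  rw [Divisor.pullbackAlong_apply]
  exact mul_nonneg (Int.natCast_nonneg _) (hD _)

theorem pullbackAlong_div [HasPrincipalDivisors K F'] (φ : F →ₐ[K] F')
    (hφ : φ.toRingHom.IsIntegral) {D : Divisor K F} {h : F} (hD : ∀ v, D v = v.ord h)
    (w : Place K F') : Divisor.pullbackAlong φ hφ D w = w.ord (φ h) := by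
  rw [Divisor.pullbackAlong_apply, hD, Place.ord_restrictAlong φ hφ]

theorem pushforwardAlong_nonneg (φ : F →ₐ[K] F') (hφ : φ.toRingHom.IsIntegral)
    {D : Divisor K F'} (hD : 0 ≤ D) : 0 ≤ Divisor.pushforwardAlong φ hφ D := by
  classical
  conv_rhs => rw [← Finsupp.sum_single D]
  rw [Finsupp.sum, map_sum]
  apply Finset.sum_nonneg
  intro w _
  rw [Divisor.pushforwardAlong_single]
  intro v
  rw [Finsupp.single_apply]
  simp only [Finsupp.coe_zero, Pi.zero_apply]
  split_ifs
  · exact mul_nonneg (hD w) (Int.natCast_nonneg _)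
  · exact le_rfl

theorem pushforwardAlong_div (φ : F →ₐ[K] F') (hφ : φ.toRingHom.IsIntegral)
    (hfin : FiniteAlong K φ) (hN : NormFormulaAlong K φ hfin) {D : Divisor K F'} {y : F'}
    (hy : y ≠ 0) (hD : ∀ w, D w = w.ord y) (v : Place K F) :
    Divisor.pushforwardAlong φ hφ D v = v.ord (letI := algebraAlong φ; Algebra.norm F y) := by
  letI := algebraAlong φ
  haveI := isScalarTower_along φ
  haveI := isIntegral_along φ hφ
  haveI : Module.Finite F F' := hfin
  exact hN y hy D hD v

theorem smul_nonneg' (γ : SemilinearAut K F) {D : Divisor K F} (hD : 0 ≤ D) : 0 ≤ γ • D := by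
  intro w
  rw [SemilinearAut.divisor_smul_apply]
  exact hD _

theorem smul_div (γ : SemilinearAut K F) {D : Divisor K F} {h : F} (hD : ∀ v, D v = v.ord h)
    (w : Place K F) : (γ • D) w = w.ord (γ • h) := by
  rw [SemilinearAut.divisor_smul_apply, hD (γ⁻¹ • w)]
  have h1 := SemilinearAut.ord_smul γ (γ⁻¹ • w) h
  rw [smul_inv_smul] at h1
  exact h1.symm

end General

section Abstract

variable {K F k κ : Type} [Field K] [Field F] [Algebra K F] [IsAlgClosed K]
  [Field k] [Field κ] [Algebra k κ]
  {t : F} {n : ℕ} {g m0 : ℤ}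

/-- a difference of degree-multiplying, effectivity preserving maps which kills the principal
divisors kills all divisors of degree zero. -/
theorem psi_eq_zero (H : RRH K t n g m0) (hdegκ : ∀ Q : Place k κ, 1 ≤ Q.deg)
    (A B C : Divisor K F →+ Divisor k κ)
    (hA : ∀ D, 0 ≤ D → 0 ≤ A D) (hB : ∀ D, 0 ≤ D → 0 ≤ B D) (hC : ∀ D, 0 ≤ D → 0 ≤ C D)
    (a b c : ℤ) (hAd : ∀ D, degree (A D) = a * degree D) (hBd : ∀ D, degree (B D) = b * degree D)
    (hCd : ∀ D, degree (C D) = c * degree D)
    (hprin : ∀ D : Divisor K F, Divisor.IsPrincipal D → A D - B D + C D = 0)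
    (D : Divisor K F) (hD : degree D = 0) : A D - B D + C D = 0 := by
  haveI := H.fd
  obtain ⟨P0⟩ := H.exists_place
  have hsingle : ∀ P : Place K F, (0 : Divisor K F) ≤ Finsupp.single P 1 := by
    intro P Q
    classical
    rw [Finsupp.single_apply]
    simp only [Finsupp.coe_zero, Pi.zero_apply]
    split_ifs <;> norm_num
  have key := eq_zero_of_bounded (A - B + C) (fun D hD => hprin D hD) (a + b + c).toNat
    (by
      intro P
      change nrm (A (Finsupp.single P 1) - B (Finsupp.single P 1) + C (Finsupp.single P 1)) ≤ _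
      have h1 := nrm_le_degree hdegκ _ (hA _ (hsingle P))
      have h2 := nrm_le_degree hdegκ _ (hB _ (hsingle P))
      have h3 := nrm_le_degree hdegκ _ (hC _ (hsingle P))
      rw [hAd, H.degree_single', mul_one] at h1
      rw [hBd, H.degree_single', mul_one] at h2
      rw [hCd, H.degree_single', mul_one] at h3
      have h4 := nrm_add_le (A (Finsupp.single P 1) - B (Finsupp.single P 1))
        (C (Finsupp.single P 1))
      have h5 := nrm_add_le (A (Finsupp.single P 1)) (-B (Finsupp.single P 1))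
      rw [nrm_neg, ← sub_eq_add_neg] at h5
      omega)
    (fun P => by rw [Fermat.Agent.S24.deg_eq_one t H.tr P]) P0 g.toNat
    (fun D hD => H.exists_effective D (le_trans (Int.self_le_toNat g) hD))
    (fun y _ => ⟨H.dv y, fun P => H.dv_apply y P, H.degree_dv y⟩) D hD
  exact key

end Abstract

section Main

variable {K F F1 F' k κ : Type} [Field K] [Field F] [Field F1] [Field F'] [Algebra K F]
  [Algebra K F1] [Algebra K F'] [IsAlgClosed K] [Field k] [Field κ] [Algebra k κ]
  {t : F} {n : ℕ} {g m0 : ℤ}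

/-- **Clause (d)**, divisor form. -/
theorem clauseD (H : RRH K t n g m0) [HasPrincipalDivisors K F1] [HasPrincipalDivisors K F']
    (α β : F →ₐ[K] F1) (hα : α.toRingHom.IsIntegral) (hβ : β.toRingHom.IsIntegral)
    (hFIβ : FundamentalIdentityAlong K β hβ) (hfin : FiniteAlong K α)
    (hNα : NormFormulaAlong K α hfin)
    (ι : F →ₐ[K] F') (hι : ι.toRingHom.IsIntegral) (hFIι : FundamentalIdentityAlong K ι hι)
    (γ : SemilinearAut K F)
    (red : Divisor K F' →+ Divisor k κ) (hred1 : ∀ E, degree (red E) = degree E)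
    (hred2 : ∀ E, 0 ≤ E → 0 ≤ red E) (hdegκ : ∀ Q : Place k κ, 1 ≤ Q.deg) (ℓ : ℕ)
    (hz : ∀ h : F, h ≠ 0 → ∀ E : Divisor K F',
      (∀ w, E w = w.ord (ι ((γ • γ • h) * h ^ ℓ /
        (letI := algebraAlong α; Algebra.norm F (β (γ • h)))))) → red E = 0)
    (D : Divisor K F) (hD : degree D = 0) :
    red (Divisor.pullbackAlong ι hι
      (γ • γ • D - Divisor.correspondence β α hβ hα (γ • D) + ℓ • D)) = 0 := by
  let R : Divisor K F →+ Divisor k κ := red.comp (Divisor.pullbackAlong ι hι)
  let Γ : Divisor K F →+ Divisor K F := DistribSMul.toAddMonoidHom (Divisor K F) γ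
  let T : Divisor K F →+ Divisor K F := Divisor.correspondence β α hβ hα
  have hR : ∀ D, 0 ≤ D → 0 ≤ R D := fun D hD => hred2 _ (pullbackAlong_nonneg ι hι hD)
  have hRd : ∀ D, degree (R D) = (finrankAlong K ι : ℤ) * degree D := fun D => by
    change degree (red _) = _
    rw [hred1, Divisor.degree_pullbackAlong ι hι hFIι]
  have hΓ : ∀ D, 0 ≤ D → 0 ≤ Γ D := fun D hD => smul_nonneg' γ hD
  have hΓd : ∀ D, degree (Γ D) = degree D := fun D => SemilinearAut.degree_smul γ D
  have hT : ∀ D, 0 ≤ D → 0 ≤ T D := fun D hD =>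
    pushforwardAlong_nonneg α hα (pullbackAlong_nonneg β hβ hD)
  have hTd : ∀ D, degree (T D) = (finrankAlong K β : ℤ) * degree D := fun D =>
    Divisor.degree_correspondence β α hβ hα hFIβ D
  have key := psi_eq_zero H hdegκ ((R.comp Γ).comp Γ) ((R.comp T).comp Γ) (ℓ • R)
    (fun D hD => hR _ (hΓ _ (hΓ _ hD))) (fun D hD => hR _ (hT _ (hΓ _ hD)))
    (fun D hD => nsmul_nonneg (hR _ hD) ℓ)
    (finrankAlong K ι) ((finrankAlong K ι : ℤ) * finrankAlong K β) ((ℓ : ℤ) * finrankAlong K ι)
    (fun D => by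
      change degree (R (Γ (Γ D))) = _
      rw [hRd, hΓd, hΓd])
    (fun D => by
      change degree (R (T (Γ D))) = _
      rw [hRd, hTd, hΓd, mul_assoc])
    (fun D => by
      change degree (ℓ • R D) = _
      rw [map_nsmul, hRd, nsmul_eq_mul, mul_assoc])
    (by
      rintro D ⟨h, hh, hDh⟩
      change R (Γ (Γ D)) - R (T (Γ D)) + ℓ • R D = 0
      rw [← map_sub, ← map_nsmul, ← map_add]
      have hγh : γ • h ≠ 0 := by simpa using hh
      have hγγh : γ • γ • h ≠ 0 := by simpa using hγh
      have hβ0 : β (γ • h) ≠ 0 := by simpa using hγh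
      have hN0 : (letI := algebraAlong α; Algebra.norm F (β (γ • h))) ≠ 0 := by
        letI := algebraAlong α
        haveI : Module.Finite F F1 := hfin
        exact Algebra.norm_ne_zero_iff.mpr hβ0
      apply hz h hh
      intro w
      apply pullbackAlong_div ι hι
      intro v
      rw [Finsupp.add_apply, Finsupp.sub_apply, Finsupp.smul_apply]
      have e1 : Γ (Γ D) v = v.ord (γ • γ • h) := smul_div γ (smul_div γ hDh) v
      have e2 : T (Γ D) v = v.ord (letI := algebraAlong α; Algebra.norm F (β (γ • h))) :=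
        pushforwardAlong_div α hα hfin hNα hβ0 (pullbackAlong_div β hβ (smul_div γ hDh)) v
      rw [e1, e2, hDh, div_eq_mul_inv, v.ord_mul (mul_ne_zero hγγh (pow_ne_zero _ hh))
        (inv_ne_zero hN0), v.ord_mul hγγh (pow_ne_zero _ hh), v.ord_inv,
        Fermat.Agent.S24.ord_pow]
      simp only [nsmul_eq_mul]
      ring)
    D hD
  change R (Γ (Γ D)) - R (T (Γ D)) + ℓ • R D = 0 at key
  rw [← map_sub, ← map_nsmul, ← map_add] at key
  exact key

end Main

end Fermat.Agent.S37.CD
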