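import Mathlib

set_option autoImplicit false
set_option linter.style.haveILetI false
set_option linter.unusedSectionVars false
set_option linter.overlappingInstances false

/-! # S37 [SP4b], abstract part: the valuation of a norm over a discrete valuation ring -/

namespace Fermat.Agent.S37.NF

open IsDedekindDomain WithZero Ideal

section abs

variable (R : Type) {S : Type} [CommRing R] [IsDomain R] [IsDiscreteValuationRing R]
  [CommRing S] [IsDomain S] [IsDedekindDomain S] [Algebra R S] [Module.Finite R S]
  [Module.IsTorsionFree R S] [PerfectField (FractionRing R)]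

/-- a nonzero prime of `S` lies over the maximal ideal. -/
theorem liesOver_maximalIdeal (P : Ideal S) [hP : P.IsPrime] (hP0 : P ≠ ⊥) :
    P.LiesOver (IsLocalRing.maximalIdeal R) := by
  haveI : Algebra.IsIntegral R S := Algebra.IsIntegral.of_finite R S
  constructor
  have h1 : (P.under R).IsPrime := Ideal.IsPrime.under R P
  have h2 : P.under R ≠ ⊥ := mt Ideal.eq_bot_of_comap_eq_bot hP0
  have h3 : (P.under R).IsMaximal := h1.isMaximal h2
  exact (IsLocalRing.eq_maximalIdeal h3).symm

include R in
theorem finite_primes : {I : Ideal S | I.IsPrime}.Finite := by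
  haveI : Algebra.IsIntegral R S := Algebra.IsIntegral.of_finite R S
  have h := IsDedekindDomain.primesOver_finite (IsLocalRing.maximalIdeal R) S
  refine (h.union (Set.finite_singleton ⊥)).subset ?_
  intro I hI
  by_cases h0 : I = ⊥
  · exact Or.inr h0
  · haveI : I.IsPrime := hI
    exact Or.inl ⟨hI, liesOver_maximalIdeal R I h0⟩

include R in
theorem finite_heightOneSpectrum : Finite (HeightOneSpectrum S) := by
  have h := finite_primes R (S := S)
  haveI : Finite {I : Ideal S | I.IsPrime} := h
  exact Finite.of_injective (fun Q : HeightOneSpectrum S =>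
    (⟨Q.asIdeal, Q.isPrime⟩ : {I : Ideal S | I.IsPrime}))
    (fun Q Q' h => HeightOneSpectrum.ext (congrArg Subtype.val h))

/-- the height one prime of the discrete valuation ring. -/
noncomputable def vR : HeightOneSpectrum R := IsDiscreteValuationRing.maximalIdeal R

theorem intValuation_intNorm_prime
    (hf : ∀ P : Ideal S, P.IsMaximal → P.inertiaDeg R = 1) {π : S} (hπ : Prime π) :
    (vR R).intValuation (Algebra.intNorm R S π) = exp (-1 : ℤ) := by
  have hP : (span {π} : Ideal S).IsPrime := (span_singleton_prime hπ.ne_zero).2 hπ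
  have hP0 : (span {π} : Ideal S) ≠ ⊥ := by
    rw [Ne, span_singleton_eq_bot]; exact hπ.ne_zero
  haveI hPm : (span {π} : Ideal S).IsMaximal := hP.isMaximal hP0
  haveI := liesOver_maximalIdeal R (span {π} : Ideal S) hP0
  have h1 := relNorm_eq_pow_of_isMaximal (span {π} : Ideal S) (IsLocalRing.maximalIdeal R)
  rw [hf _ hPm, pow_one, relNorm_singleton] at h1
  apply HeightOneSpectrum.intValuation_singleton
  · intro h0
    rw [h0] at h1
    have : IsLocalRing.maximalIdeal R = ⊥ := by rw [← h1]; simp
    exact IsDiscreteValuationRing.not_a_field R this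
  · exact h1.symm

theorem prod_intValuation_prime [Fintype (HeightOneSpectrum S)] {π : S} (hπ : Prime π) :
    ∏ Q : HeightOneSpectrum S, Q.intValuation π = exp (-1 : ℤ) := by
  have hP : (span {π} : Ideal S).IsPrime := (span_singleton_prime hπ.ne_zero).2 hπ
  have hP0 : (span {π} : Ideal S) ≠ ⊥ := by
    rw [Ne, span_singleton_eq_bot]; exact hπ.ne_zero
  let Q₀ : HeightOneSpectrum S := ⟨span {π}, hP, hP0⟩
  rw [Finset.prod_eq_single Q₀]
  · exact HeightOneSpectrum.intValuation_singleton _ hπ.ne_zero rfl
  · intro Q _ hQ
    rw [HeightOneSpectrum.intValuation_eq_one_iff]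
    intro hmem
    apply hQ
    have hle : (span {π} : Ideal S) ≤ Q.asIdeal := (span_singleton_le_iff_mem _).2 hmem
    have hmax : (span {π} : Ideal S).IsMaximal := hP.isMaximal hP0
    exact HeightOneSpectrum.ext (hmax.eq_of_le Q.isPrime.ne_top hle).symm
  · intro h; exact absurd (Finset.mem_univ _) h

theorem intValuation_intNorm [Fintype (HeightOneSpectrum S)]
    (hf : ∀ P : Ideal S, P.IsMaximal → P.inertiaDeg R = 1) (a : S) :
    (vR R).intValuation (Algebra.intNorm R S a) = ∏ Q : HeightOneSpectrum S, Q.intValuation a := by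
  haveI : IsPrincipalIdealRing S := IsPrincipalIdealRing.of_finite_primes (finite_primes R)
  haveI hne : Nonempty (HeightOneSpectrum S) := by
    haveI : Algebra.IsIntegral R S := Algebra.IsIntegral.of_finite R S
    obtain ⟨P, hPm, hP⟩ := exists_maximal_ideal_liesOver_of_isIntegral (S := S)
      (IsLocalRing.maximalIdeal R)
    refine ⟨⟨P, hPm.isPrime, ?_⟩⟩
    rintro rfl
    have h1 := hP.over
    have h2 : (⊥ : Ideal S).under R = ⊥ := by
      rw [Ideal.under_def]
      exact (RingHom.injective_iff_ker_eq_bot _).1 (FaithfulSMul.algebraMap_injective R S)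
    rw [h2] at h1
    exact IsDiscreteValuationRing.not_a_field R h1
  induction a using UniqueFactorizationMonoid.induction_on_prime with
  | h₁ =>
    rw [Algebra.intNorm_zero, map_zero]
    symm
    obtain ⟨Q⟩ := hne
    exact Finset.prod_eq_zero (Finset.mem_univ Q) (map_zero _)
  | h₂ x hx =>
    have h1 : IsUnit (Algebra.intNorm R S x) := hx.map _
    have h2 : (vR R).intValuation (Algebra.intNorm R S x) = 1 := by
      rw [HeightOneSpectrum.intValuation_eq_one_iff]
      intro hmem
      exact (vR R).isPrime.ne_top (Ideal.eq_top_of_isUnit_mem _ hmem h1)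
    rw [h2]
    symm
    apply Finset.prod_eq_one
    intro Q _
    rw [HeightOneSpectrum.intValuation_eq_one_iff]
    intro hmem
    exact Q.isPrime.ne_top (Ideal.eq_top_of_isUnit_mem _ hmem hx)
  | h₃ a p ha hp ih =>
    rw [map_mul, map_mul, ih, intValuation_intNorm_prime R hf hp]
    simp only [map_mul]
    rw [Finset.prod_mul_distrib, prod_intValuation_prime hp]

end abs

end Fermat.Agent.S37.NF

namespace Fermat.Agent.S37.NF

open IsDedekindDomain WithZero Ideal

section field

variable (R : Type) {S : Type} [CommRing R] [IsDomain R] [IsDiscreteValuationRing R]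
  [CommRing S] [IsDomain S] [IsDedekindDomain S] [Algebra R S] [Module.Finite R S]
  [Module.IsTorsionFree R S] [PerfectField (FractionRing R)]
  (F : Type) {F' : Type} [Field F] [Field F'] [Algebra R F] [IsFractionRing R F] [Algebra S F']
  [IsFractionRing S F'] [Algebra F F'] [Algebra R F'] [IsScalarTower R F F']
  [IsScalarTower R S F'] [IsIntegralClosure S R F'] [FiniteDimensional F F']

theorem valuation_norm [Fintype (HeightOneSpectrum S)]
    (hf : ∀ P : Ideal S, P.IsMaximal → P.inertiaDeg R = 1) (f : F') :
    (vR R).valuation F (Algebra.norm F f) = ∏ Q : HeightOneSpectrum S, Q.valuation F' f := by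
  obtain ⟨a, b, hb, rfl⟩ := IsFractionRing.div_surjective (A := S) f
  have key : ∀ a : S, (vR R).valuation F (Algebra.norm F (algebraMap S F' a)) =
      ∏ Q : HeightOneSpectrum S, Q.valuation F' (algebraMap S F' a) := by
    intro a
    rw [← Algebra.algebraMap_intNorm (A := R) (K := F) (L := F') (B := S) a,
      HeightOneSpectrum.valuation_of_algebraMap, intValuation_intNorm R hf a]
    exact Finset.prod_congr rfl fun Q _ => (Q.valuation_of_algebraMap a).symm
  have hb0 : algebraMap S F' b ≠ 0 :=
    IsFractionRing.to_map_ne_zero_of_mem_nonZeroDivisors hb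
  have hn : Algebra.norm F (algebraMap S F' a / algebraMap S F' b) =
      Algebra.norm F (algebraMap S F' a) / Algebra.norm F (algebraMap S F' b) := by
    rw [eq_div_iff (Algebra.norm_ne_zero_iff.2 hb0), ← map_mul, div_mul_cancel₀ _ hb0]
  rw [hn, map_div₀, key, key]
  simp only [map_div₀]
  rw [Finset.prod_div_distrib]

theorem log_prod {ι : Type} (s : Finset ι) (g : ι → ℤᵐ⁰) (h : ∀ i ∈ s, g i ≠ 0) :
    WithZero.log (∏ i ∈ s, g i) = ∑ i ∈ s, WithZero.log (g i) := by
  classical
  induction s using Finset.induction_on with
  | empty => simp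
  | insert a s ha ih =>
    rw [Finset.prod_insert ha, Finset.sum_insert ha, WithZero.log_mul
      (h a (Finset.mem_insert_self a s))
      (Finset.prod_ne_zero_iff.2 fun i hi => h i (Finset.mem_insert_of_mem hi)),
      ih fun i hi => h i (Finset.mem_insert_of_mem hi)]

end field

end Fermat.Agent.S37.NF
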