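import Mathlib
import Fermat.Prelude.Def_AlgebraicCurve_Correspondence
import Fermat.Agent.S24.Dedekind
import Fermat.Agent.S37.NormA

set_option autoImplicit false
set_option linter.style.haveILetI false
set_option linter.unusedSectionVars false
set_option synthInstance.maxHeartbeats 400000
set_option maxHeartbeats 1000000

/-! # S37 [SP4b]: the norm formula for the push-forward of principal divisors -/

namespace Fermat.Agent.S37.NF

open AlgebraicCurve IsDedekindDomain WithZero Ideal Fermat.Agent.S24

variable {K F F' : Type} [Field K] [Field F] [Field F'] [Algebra K F] [Algebra K F']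
  [Algebra F F'] [IsScalarTower K F F'] [Module.Finite F F'] [IsAlgClosed K] [CharZero K]

theorem bijective_of_deg_eq_one (v : Place K F) (h : v.deg = 1) :
    Function.Bijective (algebraMap K v.ResidueField) := by
  refine ⟨(algebraMap K v.ResidueField).injective, fun x => ?_⟩
  obtain ⟨c, hc⟩ := (finrank_eq_one_iff_of_nonzero' (1 : v.ResidueField) one_ne_zero).1 h x
  exact ⟨c, by rw [← hc, Algebra.smul_def, mul_one]⟩

theorem inertiaDeg_eq_one' (hdeg : ∀ v : Place K F, v.deg = 1) (hdeg' : ∀ w : Place K F', w.deg = 1)
    (w : Place K F') : w.inertiaDeg F = 1 := by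
  have h := w.deg_restrict_mul_inertiaDeg (F := F)
  rw [hdeg, hdeg', one_mul] at h
  exact h

theorem pushforwardNormFormula (hdeg : ∀ v : Place K F, v.deg = 1)
    (hdeg' : ∀ w : Place K F', w.deg = 1) : Divisor.PushforwardNormFormula K F F' := by
  classical
  intro f hf D hD v
  letI : Algebra v.toValuationSubring F' :=
    ((algebraMap F F').comp (algebraMap v.toValuationSubring F)).toAlgebra
  haveI : IsScalarTower v.toValuationSubring F F' := IsScalarTower.of_algebraMap_eq (fun _ => rfl)
  haveI : CharZero F := charZero_of_injective_algebraMap (algebraMap K F).injective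
  haveI : IsDedekindDomain (integralClosure v.toValuationSubring F') :=
    integralClosure.isDedekindDomain v.toValuationSubring F F'
  haveI : IsFractionRing (integralClosure v.toValuationSubring F') F' :=
    integralClosure.isFractionRing_of_finite_extension F F'
  haveI : Module.Finite v.toValuationSubring (integralClosure v.toValuationSubring F') :=
    IsIntegralClosure.finite v.toValuationSubring F F' _
  haveI : Module.IsTorsionFree v.toValuationSubring F' :=
    (Module.isTorsionFree_iff_algebraMap_injective).2
      ((algebraMap F F').injective.comp (IsFractionRing.injective v.toValuationSubring F))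
  haveI : Module.IsTorsionFree v.toValuationSubring (integralClosure v.toValuationSubring F') :=
    inferInstance
  haveI : CharZero v.toValuationSubring :=
    charZero_of_injective_algebraMap (R := K) (algebraMap K v.toValuationSubring).injective
  haveI : CharZero (FractionRing v.toValuationSubring) :=
    charZero_of_injective_algebraMap (R := v.toValuationSubring)
      (IsFractionRing.injective v.toValuationSubring (FractionRing v.toValuationSubring))
  haveI : PerfectField (FractionRing v.toValuationSubring) := inferInstance
  letI : Algebra K (integralClosure v.toValuationSubring F') :=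
    ((algebraMap v.toValuationSubring (integralClosure v.toValuationSubring F')).comp
      (algebraMap K v.toValuationSubring)).toAlgebra
  haveI : IsScalarTower K (integralClosure v.toValuationSubring F') F' :=
    IsScalarTower.of_algebraMap_eq (fun k => IsScalarTower.algebraMap_apply K F F' k)
  haveI : Finite (HeightOneSpectrum (integralClosure v.toValuationSubring F')) :=
    finite_heightOneSpectrum v.toValuationSubring
  letI : Fintype (HeightOneSpectrum (integralClosure v.toValuationSubring F')) :=
    Fintype.ofFinite _
  haveI : Algebra.IsIntegral v.toValuationSubring (integralClosure v.toValuationSubring F') :=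
    Algebra.IsIntegral.of_finite _ _
  have hf1 : ∀ P : Ideal (integralClosure v.toValuationSubring F'), P.IsMaximal →
      P.inertiaDeg v.toValuationSubring = 1 := by
    intro P hP
    haveI hm : (P.comap (algebraMap v.toValuationSubring
        (integralClosure v.toValuationSubring F'))).IsMaximal :=
      Ideal.isMaximal_comap_of_isIntegral_of_isMaximal P
    haveI : P.LiesOver (IsLocalRing.maximalIdeal v.toValuationSubring) :=
      ⟨(IsLocalRing.eq_maximalIdeal hm).symm⟩
    rw [← inertiaDeg'_eq_inertiaDeg (IsLocalRing.maximalIdeal v.toValuationSubring) P]
    exact Fermat.Agent.S24.inertiaDeg_eq_one (K := K) _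
      (RingEquiv.ofBijective (algebraMap K v.ResidueField) (bijective_of_deg_eq_one v (hdeg v))) P
  -- the places above `v`
  have hι : ∀ Q : HeightOneSpectrum (integralClosure v.toValuationSubring F'),
      (Place.ofHeightOneSpectrum (K := K) (F := F') Q).restrict F = v := by
    intro Q
    apply Place.ext
    symm
    haveI : Ring.KrullDimLE 1 v.toValuationSubring := inferInstance
    refine ValuationSubring.eq_of_le_of_ne_top _ ?_
      ((Place.ofHeightOneSpectrum (K := K) (F := F') Q).restrict F).ne_top'
    intro x hx
    have h1 : IsIntegral v.toValuationSubring (algebraMap F F' x) :=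
      isIntegral_algebraMap (R := v.toValuationSubring) (x := (⟨x, hx⟩ : v.toValuationSubring))
    exact Q.valuation_le_one (K := F') (⟨algebraMap F F' x, h1⟩ :
      integralClosure v.toValuationSubring F')
  have hsurj : ∀ w : Place K F', w.restrict F = v →
      ∃ Q : HeightOneSpectrum (integralClosure v.toValuationSubring F'),
        w = Place.ofHeightOneSpectrum (K := K) (F := F') Q := by
    intro w hw
    apply exists_eq_ofHeightOneSpectrum
    intro a
    refine algebraMap_mem_of_isIntegral (R := v.toValuationSubring) w ?_ _ a.2
    intro r
    have : (r : F) ∈ (w.restrict F).toValuationSubring := by rw [hw]; exact r.2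
    exact this
  have hval := valuation_norm v.toValuationSubring F hf1 f
  have hord : v.ord (Algebra.norm F f) =
      ∑ Q : HeightOneSpectrum (integralClosure v.toValuationSubring F'),
        (Place.ofHeightOneSpectrum (K := K) (F := F') Q).ord f := by
    show -(WithZero.log (v.adicValuation (Algebra.norm F f))) = _
    have h1 : v.adicValuation (Algebra.norm F f) =
        ∏ Q : HeightOneSpectrum (integralClosure v.toValuationSubring F'), Q.valuation F' f := hval
    rw [h1, log_prod _ _ (fun Q _ => (Valuation.ne_zero_iff _).2 hf), ← Finset.sum_neg_distrib]
    exact Finset.sum_congr rfl fun Q _ => (ord_ofHeightOneSpectrum Q f).symm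
  rw [hord, Divisor.pushforward_apply]
  have hg : ∀ w ∈ D.support, (if w.restrict F = v then D w * (w.inertiaDeg F : ℤ) else 0) =
      if w.restrict F = v then w.ord f else 0 := by
    intro w _
    rw [inertiaDeg_eq_one' hdeg hdeg' w, hD w, Nat.cast_one, mul_one]
  rw [Finset.sum_congr rfl hg, ← Finset.sum_filter]
  have hinj := ofHeightOneSpectrum_injective (K := K) (F := F')
    (A := integralClosure v.toValuationSubring F')
  rw [← Finset.sum_image (f := fun w : Place K F' => w.ord f) (s := Finset.univ)
    (g := Place.ofHeightOneSpectrum (K := K) (F := F')) hinj.injOn]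
  apply Finset.sum_subset
  · intro w hw
    rw [Finset.mem_filter] at hw
    obtain ⟨Q, rfl⟩ := hsurj w hw.2
    exact Finset.mem_image_of_mem _ (Finset.mem_univ Q)
  · intro w hw hw'
    obtain ⟨Q, -, rfl⟩ := Finset.mem_image.1 hw
    rw [Finset.mem_filter, not_and] at hw'
    by_contra hne
    apply hw' _ (hι Q)
    rw [Finsupp.mem_support_iff, hD]
    exact hne

end Fermat.Agent.S37.NF

namespace Fermat.Agent.S37.NF

open AlgebraicCurve

/-- the norm formula along an embedding of function fields. -/
theorem normFormulaAlong {K F F' : Type} [Field K] [Field F] [Field F'] [Algebra K F]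
    [Algebra K F'] [IsAlgClosed K] [CharZero K] (φ : F →ₐ[K] F') (hfin : FiniteAlong K φ)
    (hdeg : ∀ v : Place K F, v.deg = 1) (hdeg' : ∀ w : Place K F', w.deg = 1) :
    NormFormulaAlong K φ hfin := by
  letI := algebraAlong φ
  haveI := isScalarTower_along φ
  haveI : Module.Finite F F' := hfin
  exact pushforwardNormFormula hdeg hdeg'

end Fermat.Agent.S37.NF
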