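import Mathlib
import Fermat.Agent.S37.FI
import Fermat.Agent.S37.NormF
import Fermat.Agent.S24.Center

set_option autoImplicit false
set_option linter.style.haveILetI false
set_option synthInstance.maxHeartbeats 400000

/-! # S37: the inputs of the Hecke operators on `J₀(N)` -/

namespace Fermat.Agent.S37

open AlgebraicCurve IntermediateField ModularCurve Fermat.Agent.S24 Fermat.Agent.S18

theorem deg_FN (M : ℕ) [NeZero M] (v : Place Kb (FN M)) : v.deg = 1 :=
  haveI := ModB.finiteDimensional_FN M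
  Fermat.Agent.S24.deg_eq_one (jF M) (transcendental_jF M) v

variable (N ℓ : ℕ) [NeZero N] [NeZero ℓ]

theorem normFormulaAlong_alpha (hfin : FiniteAlong Kb (heckeAlphaBar Kb N ℓ)) :
    NormFormulaAlong Kb (heckeAlphaBar Kb N ℓ) hfin :=
  NF.normFormulaAlong _ hfin (deg_FN N) (deg_FN (N * ℓ))

theorem normFormulaAlong_beta (hfin : FiniteAlong Kb (heckeBetaBar Kb N ℓ)) :
    NormFormulaAlong Kb (heckeBetaBar Kb N ℓ) hfin :=
  NF.normFormulaAlong _ hfin (deg_FN N) (deg_FN (N * ℓ))

theorem heckeInputsAlong : HeckeInputsAlong Kb N ℓ :=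
  haveI := hasPrincipalDivisors_FN (N * ℓ)
  heckeInputsAlong_intro (heckeAlphaBarIntegral N ℓ) (heckeBetaBarIntegral N ℓ)
    (fundamentalIdentityAlong_beta N ℓ _) (finiteAlong_alpha N ℓ)
    (normFormulaAlong_alpha N ℓ _)

end Fermat.Agent.S37
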