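import Fermat.Agent.S37.ClauseD

/-!
# S37 / Pb : generic pull-back / push-forward facts along `φ : F →ₐ[K] F'`

(P1) equivariance of the pull-back under intertwining semilinear automorphisms;
(P2)–(P5) aliases of the `CD.*` tools; (P6) the correspondence of a principal divisor.
-/

set_option autoImplicit false

noncomputable section

namespace Fermat.Agent.S37.Pb

open AlgebraicCurve AlgebraicCurve.SemilinearAut
open scoped Pointwise

variable {K F F' : Type*} [Field K] [Field F] [Field F'] [Algebra K F] [Algebra K F']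

theorem mem_restrictAlong_iff (φ : F →ₐ[K] F') (hφ : φ.toRingHom.IsIntegral) (w : Place K F')
    (x : F) :
    x ∈ (w.restrictAlong φ hφ).toValuationSubring ↔ φ x ∈ w.toValuationSubring :=
  Iff.rfl

/-- restriction of places commutes with intertwining semilinear automorphisms. -/
theorem restrictAlong_smul (φ : F →ₐ[K] F') (hφ : φ.toRingHom.IsIntegral)
    {g : SemilinearAut K F} {g' : SemilinearAut K F'}
    (h : IntertwinesAlong φ.toRingHom g g') (w : Place K F') :
    (g' • w).restrictAlong φ hφ = g • (w.restrictAlong φ hφ) := by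
  ext x
  rw [mem_restrictAlong_iff, smul_toValuationSubring, smul_toValuationSubring,
    ValuationSubring.mem_pointwise_smul_iff_inv_smul_mem,
    ValuationSubring.mem_pointwise_smul_iff_inv_smul_mem, mem_restrictAlong_iff]
  have := h.inv x
  rw [show (φ.toRingHom x) = φ x from rfl] at this
  rw [this]
  rfl

theorem exists_ord_eq_one (v : Place K F) : ∃ f : F, v.ord f = 1 := by
  obtain ⟨π, hπ⟩ := IsDiscreteValuationRing.exists_irreducible v.toValuationSubring
  exact ⟨π, v.ord_coe_irreducible hπ⟩

/-- the ramification index is invariant under intertwining semilinear automorphisms. -/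
theorem ramificationIndexAlong_smul (φ : F →ₐ[K] F') (hφ : φ.toRingHom.IsIntegral)
    {g : SemilinearAut K F} {g' : SemilinearAut K F'}
    (h : IntertwinesAlong φ.toRingHom g g') (w : Place K F') :
    Place.ramificationIndexAlong φ (g' • w) = Place.ramificationIndexAlong φ w := by
  obtain ⟨f, hf⟩ := exists_ord_eq_one (w.restrictAlong φ hφ)
  have h1 := Place.ord_restrictAlong φ hφ w f
  have h2 := Place.ord_restrictAlong φ hφ (g' • w) (g • f)
  rw [restrictAlong_smul φ hφ h, ord_smul, hf, mul_one] at h2
  rw [hf, mul_one] at h1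
  have h3 : φ (g • f) = g' • φ f := (h f).symm
  rw [h3, ord_smul, h1] at h2
  exact_mod_cast h2.symm

/-- **(P1)** the pull-back is equivariant. -/
theorem pullbackAlong_smul [HasPrincipalDivisors K F'] (φ : F →ₐ[K] F')
    (hφ : φ.toRingHom.IsIntegral) {g : SemilinearAut K F} {g' : SemilinearAut K F'}
    (h : IntertwinesAlong φ.toRingHom g g') (D : Divisor K F) :
    Divisor.pullbackAlong φ hφ (g • D) = g' • Divisor.pullbackAlong φ hφ D := by
  ext w
  rw [Divisor.pullbackAlong_apply, divisor_smul_apply, divisor_smul_apply,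
    Divisor.pullbackAlong_apply, restrictAlong_smul φ hφ h.inv,
    ramificationIndexAlong_smul φ hφ h.inv]

/-- **(P2)** -/
theorem pullbackAlong_nonneg [HasPrincipalDivisors K F'] (φ : F →ₐ[K] F')
    (hφ : φ.toRingHom.IsIntegral) {D : Divisor K F} (hD : 0 ≤ D) :
    0 ≤ Divisor.pullbackAlong φ hφ D :=
  CD.pullbackAlong_nonneg φ hφ hD

/-- **(P4)** -/
theorem pullbackAlong_div [HasPrincipalDivisors K F'] (φ : F →ₐ[K] F')
    (hφ : φ.toRingHom.IsIntegral) {D : Divisor K F} {h : F} (hD : ∀ v, D v = v.ord h)
    (w : Place K F') : Divisor.pullbackAlong φ hφ D w = w.ord (φ h) :=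
  CD.pullbackAlong_div φ hφ hD w

/-- **(P3)** -/
theorem pushforwardAlong_nonneg (φ : F →ₐ[K] F') (hφ : φ.toRingHom.IsIntegral)
    {D : Divisor K F'} (hD : 0 ≤ D) : 0 ≤ Divisor.pushforwardAlong φ hφ D :=
  CD.pushforwardAlong_nonneg φ hφ hD

/-- **(P5)** -/
theorem pushforwardAlong_div (φ : F →ₐ[K] F') (hφ : φ.toRingHom.IsIntegral)
    (hfin : FiniteAlong K φ) (hN : NormFormulaAlong K φ hfin) {D : Divisor K F'} {y : F'}
    (hy : y ≠ 0) (hD : ∀ w, D w = w.ord y) (v : Place K F) :
    Divisor.pushforwardAlong φ hφ D v = v.ord (letI := algebraAlong φ; Algebra.norm F y) :=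
  CD.pushforwardAlong_div φ hφ hfin hN hy hD v

/-- **(P6)** the correspondence `α_* β^*` of the divisor of `h ≠ 0` is the divisor of
`N_α (β h)`. -/
theorem correspondence_div [HasPrincipalDivisors K F'] (α β : F →ₐ[K] F')
    (hα : α.toRingHom.IsIntegral) (hβ : β.toRingHom.IsIntegral)
    (hfin : FiniteAlong K α) (hN : NormFormulaAlong K α hfin) {D : Divisor K F} {h : F}
    (hh : h ≠ 0) (hD : ∀ v, D v = v.ord h) (v : Place K F) :
    Divisor.correspondence β α hβ hα D v
      = v.ord (letI := algebraAlong α; Algebra.norm F (β h)) := by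
  rw [Divisor.correspondence_apply]
  exact CD.pushforwardAlong_div α hα hfin hN ((map_ne_zero β).mpr hh)
    (CD.pullbackAlong_div β hβ hD) v

/-- the correspondence preserves effectivity. -/
theorem correspondence_nonneg [HasPrincipalDivisors K F'] (α β : F →ₐ[K] F')
    (hα : α.toRingHom.IsIntegral) (hβ : β.toRingHom.IsIntegral) {D : Divisor K F}
    (hD : 0 ≤ D) : 0 ≤ Divisor.correspondence β α hβ hα D := by
  rw [Divisor.correspondence_apply]
  exact CD.pushforwardAlong_nonneg α hα (CD.pullbackAlong_nonneg β hβ hD)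

end Fermat.Agent.S37.Pb
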