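import Mathlib
import Fermat.Agent.S37.RR
import Fermat.Agent.S37.Bounded
import Fermat.Prelude.Def_AlgebraicCurve_Correspondence

set_option autoImplicit false
set_option linter.unusedSectionVars false
set_option linter.style.haveILetI false

/-! # S37 [SP6'], [T3]: bounded homomorphisms on divisors, `RRH` version; positive maps -/

namespace Fermat.Agent.S37

open AlgebraicCurve Fermat.Agent.S37.RR Fermat.Agent.S24
open AlgebraicCurve.Divisor (degree)

section wrapper

variable {K F : Type} [Field K] [Field F] [Algebra K F] [IsAlgClosed K]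
  {t : F} {n : ℕ} {g m0 : ℤ} {ι : Type*}

theorem RRH_deg_eq_one (H : RRH K t n g m0) (P : Place K F) : P.deg = 1 := by
  have h := H.degree_single' P 1
  rw [Divisor.degree_single, one_mul] at h
  exact_mod_cast h

/-- **[SP6]** for a function field satisfying `RRH`. -/
theorem eq_zero_of_bounded_RR (H : RRH K t n g m0) (Ψ : Divisor K F →+ (ι →₀ ℤ))
    (hprin : ∀ y : F, y ≠ 0 → Ψ (H.dv y) = 0) (C : ℕ)
    (hC : ∀ P : Place K F, nrm (Ψ (Finsupp.single P 1)) ≤ C)
    (D : Divisor K F) (hD : degree D = 0) : Ψ D = 0 := by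
  obtain ⟨P0⟩ := H.exists_place
  refine eq_zero_of_bounded Ψ ?_ C hC (fun P => (RRH_deg_eq_one H P).ge) P0 g.toNat ?_ ?_ D hD
  · rintro E ⟨y, hy, hE⟩
    have : E = H.dv y := Finsupp.ext fun P => by rw [hE, H.dv_apply]
    rw [this]
    exact hprin y hy
  · intro E hE
    exact H.exists_effective E ((Int.self_le_toNat g).trans hE)
  · intro y _
    exact ⟨H.dv y, fun P => H.dv_apply y P, H.degree_dv y⟩

end wrapper

section pos

variable {K F : Type*} [Field K] [Field F] [Algebra K F]
variable {K' F' : Type*} [Field K'] [Field F'] [Algebra K' F']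
variable {K'' F'' : Type*} [Field K''] [Field F''] [Algebra K'' F'']

/-- an additive map on divisors which preserves effectivity and multiplies degrees by `c`. -/
structure PosDeg (X : Divisor K F →+ Divisor K' F') (c : ℕ) : Prop where
  pos : ∀ D : Divisor K F, 0 ≤ D → 0 ≤ X D
  deg : ∀ D : Divisor K F, degree (X D) = c * degree D

theorem PosDeg.comp {X : Divisor K F →+ Divisor K' F'} {Y : Divisor K' F' →+ Divisor K'' F''}
    {c c' : ℕ} (hY : PosDeg Y c') (hX : PosDeg X c) : PosDeg (Y.comp X) (c' * c) where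
  pos D hD := hY.pos _ (hX.pos D hD)
  deg D := by
    rw [AddMonoidHom.comp_apply, hY.deg, hX.deg]
    push_cast
    ring

theorem PosDeg.nrm_le {X : Divisor K F →+ Divisor K' F'} {c : ℕ} (hX : PosDeg X c)
    (hdeg : ∀ Q : Place K' F', 1 ≤ Q.deg) (P : Place K F) (hP : P.deg = 1) :
    nrm (X (Finsupp.single P 1)) ≤ c := by
  have h0 : (0 : Divisor K F) ≤ Finsupp.single P 1 := by
    intro Q
    classical
    rw [Finsupp.single_apply]
    split_ifs <;> simp
  have h1 := nrm_le_degree hdeg (X (Finsupp.single P 1)) (fun Q => hX.pos _ h0 Q)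
  rw [hX.deg, Divisor.degree_single, hP] at h1
  have h2 : (nrm (X (Finsupp.single P 1)) : ℤ) ≤ c := by simpa using h1
  exact_mod_cast h2

theorem posDeg_id : PosDeg (AddMonoidHom.id (Divisor K F)) 1 where
  pos D hD := hD
  deg D := by simp

theorem posDeg_nsmul (l : ℕ) : PosDeg (l • AddMonoidHom.id (Divisor K F)) l where
  pos D hD := by
    rw [AddMonoidHom.nsmul_apply, AddMonoidHom.id_apply]
    exact nsmul_nonneg hD l
  deg D := by
    rw [AddMonoidHom.nsmul_apply, AddMonoidHom.id_apply, map_nsmul, nsmul_eq_mul]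

theorem posDeg_smul (γ : SemilinearAut K F) :
    PosDeg (DistribSMul.toAddMonoidHom (Divisor K F) γ) 1 where
  pos D hD := by
    intro Q
    change (0 : ℤ) ≤ (γ • D) Q
    rw [SemilinearAut.divisor_smul_apply]
    exact hD _
  deg D := by
    change degree (γ • D) = _
    rw [SemilinearAut.degree_smul]
    simp

end pos

section along

variable {K F F' : Type*} [Field K] [Field F] [Field F'] [Algebra K F] [Algebra K F']

theorem posDeg_pullbackAlong [HasPrincipalDivisors K F'] (φ : F →ₐ[K] F')
    (hφ : φ.toRingHom.IsIntegral) (hFI : FundamentalIdentityAlong K φ hφ) :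
    PosDeg (Divisor.pullbackAlong φ hφ) (finrankAlong K φ) where
  pos D hD := by
    intro Q
    rw [Divisor.pullbackAlong_apply]
    exact mul_nonneg (Int.natCast_nonneg _) (hD _)
  deg D := Divisor.degree_pullbackAlong φ hφ hFI D

theorem posDeg_pushforwardAlong (φ : F →ₐ[K] F') (hφ : φ.toRingHom.IsIntegral) :
    PosDeg (Divisor.pushforwardAlong φ hφ) 1 where
  pos D hD := by
    have h1 : Divisor.pushforwardAlong φ hφ D
        = ∑ w ∈ D.support, Divisor.pushforwardAlong φ hφ (Finsupp.single w (D w)) := by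
      conv_lhs => rw [← Finsupp.sum_single D]
      rw [Finsupp.sum, map_sum]
    rw [h1]
    refine Finset.sum_nonneg fun w _ => ?_
    rw [Divisor.pushforwardAlong_single]
    intro Q
    classical
    rw [Finsupp.single_apply]
    split_ifs
    · exact mul_nonneg (hD w) (Int.natCast_nonneg _)
    · exact le_rfl
  deg D := by
    rw [Divisor.degree_pushforwardAlong]
    simp

theorem posDeg_correspondence [HasPrincipalDivisors K F'] (φ ψ : F →ₐ[K] F')
    (hφ : φ.toRingHom.IsIntegral) (hψ : ψ.toRingHom.IsIntegral)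
    (hFI : FundamentalIdentityAlong K φ hφ) :
    PosDeg (Divisor.correspondence φ ψ hφ hψ) (finrankAlong K φ) := by
  have h := (posDeg_pushforwardAlong ψ hψ).comp (posDeg_pullbackAlong φ hφ hFI)
  rw [one_mul] at h
  exact h

end along

end Fermat.Agent.S37
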