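import Mathlib
import Fermat.Agent.S37.BoundedRR
import Fermat.Agent.S18.VData

set_option autoImplicit false
set_option linter.unusedSectionVars false
set_option linter.style.haveILetI false

/-! # S37 [T3]: the Eichler-Shimura relation on all divisors of degree zero, from the
congruence between functions -/

namespace Fermat.Agent.S37

open AlgebraicCurve Fermat.Agent.S37.RR Fermat.Agent.S24 Fermat.Agent.S18
open AlgebraicCurve.Divisor (degree)

section dv

variable {K F F' : Type*} [Field K] [Field F] [Field F'] [Algebra K F] [Algebra K F']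

theorem pullbackAlong_of_ord [HasPrincipalDivisors K F'] (φ : F →ₐ[K] F')
    (hφ : φ.toRingHom.IsIntegral) {D : Divisor K F} {f : F} (hD : ∀ v, D v = v.ord f)
    (w : Place K F') : Divisor.pullbackAlong φ hφ D w = w.ord (φ f) := by
  rw [Divisor.pullbackAlong_apply, hD, ← Place.ord_restrictAlong]

theorem pushforwardAlong_of_ord (φ : F →ₐ[K] F') (hφ : φ.toRingHom.IsIntegral)
    (hfin : FiniteAlong K φ) (hN : NormFormulaAlong K φ hfin) {D : Divisor K F'} {f : F'}
    (hf : f ≠ 0) (hD : ∀ w, D w = w.ord f) (v : Place K F) :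
    Divisor.pushforwardAlong φ hφ D v = v.ord (letI := algebraAlong φ; Algebra.norm F f) := by
  letI := algebraAlong φ
  haveI := isScalarTower_along φ
  haveI := isIntegral_along φ hφ
  haveI : Module.Finite F F' := hfin
  exact hN f hf D hD v

theorem smul_of_ord (γ : SemilinearAut K F) {D : Divisor K F} {f : F} (hD : ∀ v, D v = v.ord f)
    (v : Place K F) : (γ • D) v = v.ord (γ • f) := by
  rw [SemilinearAut.divisor_smul_apply, hD]
  have h := SemilinearAut.ord_smul γ (γ⁻¹ • v) f
  rw [smul_inv_smul] at h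
  exact h.symm

end dv

section es

variable {L F F' Z k κ : Type} [Field L] [Field F] [Field F'] [Field Z] [Algebra L F]
  [Algebra L F'] [Algebra L Z] [Field k] [Field κ] [Algebra k κ] [IsAlgClosed L]
  [HasPrincipalDivisors L F'] [HasPrincipalDivisors L Z]

/-- **[T3]**: the Eichler-Shimura relation for divisors of degree `0`. -/
theorem es_divisor {t : F} {n : ℕ} {g m0 : ℤ} (H : RRH L t n g m0)
    (inc : F →ₐ[L] F') (hinc : inc.toRingHom.IsIntegral)
    (hFIinc : FundamentalIdentityAlong L inc hinc)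
    (α β : F →ₐ[L] Z) (hα : α.toRingHom.IsIntegral) (hβ : β.toRingHom.IsIntegral)
    (hFI : FundamentalIdentityAlong L β hβ) (hfin : FiniteAlong L α)
    (hN : NormFormulaAlong L α hfin)
    (γ : SemilinearAut L F) (V : VData L F' k κ) (red : Divisor L F' →+ Divisor k κ)
    (hred1 : ∀ D, degree (red D) = degree D) (hred2 : ∀ D, 0 ≤ D → 0 ≤ red D)
    (hred3 : ∀ f ∈ V.O, V.rd f ≠ 0 → ∀ D : Divisor L F', (∀ P, D P = P.ord f) →
        ∀ Q, red D Q = Q.ord (V.rd f))
    (hdegk : ∀ Q : Place k κ, 1 ≤ Q.deg)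
    (TTf : F → F) (hTT : ∀ x : F, (letI := algebraAlong α; Algebra.norm F (β x)) = TTf x)
    (ℓ : ℕ)
    (hγ : ∀ h : F, V.rd (inc h) ≠ 0 → V.rd (inc (γ • h)) ≠ 0)
    (hES : ∀ h : F, V.rd (inc h) ≠ 0 →
      V.rd (inc (TTf (γ • h))) = V.rd (inc (γ • γ • h)) * V.rd (inc h) ^ ℓ)
    (D : Divisor L F) (hD : degree D = 0) :
    red (Divisor.pullbackAlong inc hinc
      (γ • γ • D - Divisor.correspondence β α hβ hα (γ • D) + ℓ • D)) = 0 := by
  -- the maps
  set G : Divisor L F →+ Divisor L F := DistribSMul.toAddMonoidHom (Divisor L F) γ with hG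
  set T : Divisor L F →+ Divisor L F := Divisor.correspondence β α hβ hα with hT
  set R : Divisor L F →+ Divisor k κ := red.comp (Divisor.pullbackAlong inc hinc) with hR
  have hGp : PosDeg G 1 := posDeg_smul γ
  have hTp : PosDeg T (finrankAlong L β) := posDeg_correspondence β α hβ hα hFI
  have hredp : PosDeg red 1 := ⟨hred2, fun D => by rw [hred1]; simp⟩
  have hRp : PosDeg R (1 * finrankAlong L inc) := hredp.comp (posDeg_pullbackAlong inc hinc hFIinc)
  set X1 : Divisor L F →+ Divisor k κ := R.comp (G.comp G) with hX1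
  set X2 : Divisor L F →+ Divisor k κ := R.comp (T.comp G) with hX2
  set X3 : Divisor L F →+ Divisor k κ := R.comp (ℓ • AddMonoidHom.id (Divisor L F)) with hX3
  have hX1p := hRp.comp (hGp.comp hGp)
  have hX2p := hRp.comp (hTp.comp hGp)
  have hX3p := hRp.comp (posDeg_nsmul (K := L) (F := F) ℓ)
  set Ψ : Divisor L F →+ Divisor k κ := X1 - X2 + X3 with hΨ
  have hΨa : ∀ E : Divisor L F, Ψ E = red (Divisor.pullbackAlong inc hinc
      (γ • γ • E - Divisor.correspondence β α hβ hα (γ • E) + ℓ • E)) := by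
    intro E
    rw [map_add, map_sub, map_add, map_sub]
    rfl
  rw [← hΨa]
  refine eq_zero_of_bounded_RR H Ψ ?_ (1 * finrankAlong L inc * (1 * 1)
    + 1 * finrankAlong L inc * (finrankAlong L β * 1) + 1 * finrankAlong L inc * ℓ) ?_ D hD
  · -- principal divisors
    intro y hy
    have hincy : inc y ≠ 0 := by simpa using hy
    obtain ⟨c, hc, hne⟩ := V.exists_scale hincy
    set h : F := algebraMap L F c * y with hh
    have hinch : inc h = algebraMap L F' c * inc y := by
      rw [hh, map_mul, AlgHom.commutes]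
    rw [← hinch] at hne
    have hcF : algebraMap L F c ≠ 0 := by simpa using hc
    have hh0 : h ≠ 0 := mul_ne_zero hcF hy
    have hdv : ∀ v : Place L F, H.dv y v = v.ord h := by
      intro v
      rw [H.dv_apply, hh, v.ord_mul hcF hy, ord_algebraMap v c, zero_add]
    -- the three pieces
    have hne1 := hγ h hne
    have hne2 := hγ (γ • h) hne1
    have e1 : ∀ Q, X1 (H.dv y) Q = Q.ord (V.rd (inc (γ • γ • h))) := by
      intro Q
      refine hred3 _ (V.mem_of_rd_ne_zero hne2) hne2 _ (fun P => ?_) Q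
      exact pullbackAlong_of_ord inc hinc (smul_of_ord γ (smul_of_ord γ hdv)) P
    have hγh0 : γ • h ≠ 0 := by
      intro h0
      rw [h0, map_zero, V.rd_zero] at hne1
      exact hne1 rfl
    have hne3 : V.rd (inc (TTf (γ • h))) ≠ 0 := by
      rw [hES h hne]
      exact mul_ne_zero hne2 (pow_ne_zero _ hne)
    have e2 : ∀ Q, X2 (H.dv y) Q = Q.ord (V.rd (inc (TTf (γ • h)))) := by
      intro Q
      refine hred3 _ (V.mem_of_rd_ne_zero hne3) hne3 _ (fun P => ?_) Q
      refine pullbackAlong_of_ord inc hinc (fun v => ?_) P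
      rw [← hTT]
      refine pushforwardAlong_of_ord α hα hfin hN (by simpa using hγh0) (fun w => ?_) v
      exact pullbackAlong_of_ord β hβ (smul_of_ord γ hdv) w
    have e3 : ∀ Q, X3 (H.dv y) Q = ℓ * Q.ord (V.rd (inc h)) := by
      intro Q
      have : X3 (H.dv y) = ℓ • R (H.dv y) := by
        rw [hX3, AddMonoidHom.comp_apply, AddMonoidHom.nsmul_apply, AddMonoidHom.id_apply,
          map_nsmul]
      rw [this, Finsupp.smul_apply, nsmul_eq_mul]
      congr 1
      refine hred3 _ (V.mem_of_rd_ne_zero hne) hne _ (fun P => ?_) Q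
      exact pullbackAlong_of_ord inc hinc hdv P
    ext Q
    rw [hΨ, AddMonoidHom.add_apply, AddMonoidHom.sub_apply, Finsupp.add_apply, Finsupp.sub_apply,
      e1, e2, e3, hES h hne, Q.ord_mul hne2 (pow_ne_zero _ hne), ord_pow Q]
    simp
  · intro P
    have hP := RRH_deg_eq_one H P
    rw [hΨ, AddMonoidHom.add_apply, AddMonoidHom.sub_apply, sub_eq_add_neg]
    refine (nrm_add_le _ _).trans (Nat.add_le_add ((nrm_add_le _ _).trans (Nat.add_le_add ?_ ?_)) ?_)
    · exact hX1p.nrm_le hdegk P hP
    · rw [nrm_neg]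
      exact hX2p.nrm_le hdegk P hP
    · exact hX3p.nrm_le hdegk P hP

end es

end Fermat.Agent.S37
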