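import Mathlib
import Fermat.Agent.S18.VData
import Fermat.Agent.S24.PlaceBasic

set_option autoImplicit false
set_option linter.unusedSectionVars false

/-! # S37 [SP8] (c): injectivity of the specialisation on torsion prime to the residue
characteristic, abstract form -/

namespace Fermat.Agent.S37.Tors

open AlgebraicCurve Fermat.Agent.S18 Fermat.Agent.S24

variable {L F k κ : Type} [Field L] [Field F] [Algebra L F] [Field k] [Field κ] [Algebra k κ]

/-- if `m E = div f` and `red E` is principal then `f` is an `m`-th power. -/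
theorem exists_root [IsAlgClosed L] [IsAlgClosed k] (V : VData L F k κ)
    (red : Divisor L F →+ Divisor k κ)
    (h3 : ∀ f ∈ V.O, V.rd f ≠ 0 → ∀ D : Divisor L F, (∀ P, D P = P.ord f) →
      ∀ Q, red D Q = Q.ord (V.rd f))
    (hconst : ∀ x : κ, (∀ Q : Place k κ, 0 ≤ Q.ord x) → ∃ c : k, x = algebraMap k κ c)
    (hcore : ∀ m : ℕ, (m : k) ≠ 0 → ∀ (f : F) (t0 : κ), t0 ≠ 0 → V.rd f = t0 ^ m →
      (∀ P : Place L F, (m : ℤ) ∣ P.ord f) → ∃ s : F, f = s ^ m)
    (m : ℕ) (hm0 : 0 < m) (hmk : (m : k) ≠ 0) (E : Divisor L F) (f : F) (hf0 : f ≠ 0)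
    (hf : ∀ P, (m : ℤ) * E P = P.ord f)
    (h0 : κ) (hh0 : h0 ≠ 0) (hh : ∀ Q, red E Q = Q.ord h0) : ∃ s : F, f = s ^ m := by
  obtain ⟨c, hc0, hcO, hcr⟩ := V.scale f hf0
  have hcF : algebraMap L F c ≠ 0 := (map_ne_zero _).2 hc0
  set f' : F := algebraMap L F c * f with hf'
  have hr : V.rd f' ≠ 0 := by rw [V.rd_of_mem hcO]; exact hcr
  have hord : ∀ P : Place L F, P.ord f' = P.ord f := by
    intro P
    rw [hf', P.ord_mul hcF hf0, ord_algebraMap, zero_add]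
  have h1 : ∀ Q, (red (m • E)) Q = Q.ord (V.rd f') := by
    refine h3 f' hcO hr (m • E) fun P => ?_
    rw [hord, ← hf P]
    simp
  have h2 : ∀ Q : Place k κ, Q.ord (V.rd f') = Q.ord (h0 ^ m) := by
    intro Q
    rw [← h1 Q, map_nsmul, ord_pow, ← hh Q]
    simp
  have hp0 : h0 ^ m ≠ 0 := pow_ne_zero _ hh0
  obtain ⟨c', hc'⟩ := hconst (V.rd f' * (h0 ^ m)⁻¹) (fun Q => by
    rw [Q.ord_mul hr (inv_ne_zero hp0), Q.ord_inv, h2 Q, add_neg_cancel])
  obtain ⟨c'', hc''⟩ := IsAlgClosed.exists_pow_nat_eq c' hm0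
  have h4 : V.rd f' = (algebraMap k κ c'' * h0) ^ m := by
    rw [mul_pow, ← map_pow, hc'', ← hc', inv_mul_cancel_right₀ hp0]
  have hne : algebraMap k κ c'' * h0 ≠ 0 := by
    intro h
    rw [h, zero_pow hm0.ne'] at h4
    exact hr h4
  obtain ⟨s, hs⟩ := hcore m hmk f' _ hne h4 (fun P => ⟨E P, by rw [hord, hf P]⟩)
  obtain ⟨c1, hc1⟩ := IsAlgClosed.exists_pow_nat_eq c hm0
  have hc10 : algebraMap L F c1 ≠ 0 := by
    rw [map_ne_zero]
    rintro rfl
    rw [zero_pow hm0.ne'] at hc1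
    exact hc0 hc1.symm
  refine ⟨s * (algebraMap L F c1)⁻¹, ?_⟩
  rw [mul_pow, ← hs, hf', inv_pow, ← map_pow, hc1, mul_comm, inv_mul_cancel_left₀ hcF]

end Fermat.Agent.S37.Tors
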