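import Mathlib
import Fermat.Agent.S37.Tors
import Fermat.Agent.S18.AsmN

set_option autoImplicit false
set_option linter.unusedSectionVars false
set_option synthInstance.maxHeartbeats 400000

/-! # S37 [SP8] (c): injectivity of the specialisation on torsion, modular form -/

namespace Fermat.Agent.S37.Tors

open AlgebraicCurve ModularCurve Fermat.Agent.S18 Fermat.Agent.S18.Asm Fermat.Agent.S24

variable {k κ : Type} [Field k] [Field κ] [Algebra k κ] {N M : ℕ} [NeZero N] [NeZero M]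

/-- clause (c), on divisors: `m D` principal and `red (pullback D)` principal imply `D`
principal. -/
theorem isPrincipal_of_red [IsAlgClosed k] (hNM : N ∣ M) (V : VData Kb (FN M) k κ)
    (red : Divisor Kb (FN M) →+ Divisor k κ)
    (h3 : ∀ f ∈ V.O, V.rd f ≠ 0 → ∀ D : Divisor Kb (FN M), (∀ P, D P = P.ord f) →
      ∀ Q, red D Q = Q.ord (V.rd f))
    (hconst : ∀ x : κ, (∀ Q : Place k κ, 0 ≤ Q.ord x) → ∃ c : k, x = algebraMap k κ c)
    (hcore : ∀ m : ℕ, (m : k) ≠ 0 → ∀ (f : FN M) (t0 : κ), t0 ≠ 0 → V.rd f = t0 ^ m →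
      (∀ P : Place Kb (FN M), (m : ℤ) ∣ P.ord f) → ∃ s : FN M, f = s ^ m)
    (pb : Divisor Kb (FN N) →+ Divisor Kb (FN M))
    (hpb : ∀ (D : Divisor Kb (FN N)) (f : FN N), (∀ v, D v = v.ord f) →
      ∀ w, pb D w = w.ord (IntermediateField.inclusion (FN_le hNM) f))
    (m : ℕ) (hm0 : 0 < m) (hmk : (m : k) ≠ 0)
    (hcop : Nat.Coprime (dedekindPsi M / dedekindPsi N) m)
    (D : Divisor Kb (FN N)) (hD : (m • D).IsPrincipal) (hred : (red (pb D)).IsPrincipal) :
    D.IsPrincipal := by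
  obtain ⟨f, hf0, hf⟩ := hD
  obtain ⟨h0, hh0, hh⟩ := hred
  have hι0 : IntermediateField.inclusion (FN_le hNM) f ≠ 0 := (map_ne_zero _).2 hf0
  obtain ⟨s, hs⟩ := exists_root V red h3 hconst hcore m hm0 hmk (pb D)
    (IntermediateField.inclusion (FN_le hNM) f) hι0 (fun w => by
      rw [← hpb (m • D) f hf w, map_nsmul]
      simp) h0 hh0 hh
  obtain ⟨s', hs'⟩ := norm_descent hNM m hcop f s hs
  have hs0 : s' ≠ 0 := by
    rintro rfl
    rw [zero_pow hm0.ne'] at hs'
    exact hf0 hs'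
  refine ⟨s', hs0, fun v => ?_⟩
  have e := hf v
  rw [hs', ord_pow] at e
  have hm' : (m : ℤ) ≠ 0 := by exact_mod_cast hm0.ne'
  apply mul_left_cancel₀ hm'
  rw [← e]
  simp

end Fermat.Agent.S37.Tors
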