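import Fermat.Agent.S37.AsmTop
import Fermat.Agent.S37.AsmMid
import Fermat.Agent.S37.TorsMod
import Fermat.Agent.S37.ClauseD
import Fermat.Agent.S37.FI
import Fermat.Agent.S37.Psi
import Fermat.Agent.S37.Pb
import Fermat.Agent.S37.HeckeIn
import Fermat.Agent.S37.NormHecke
import Fermat.Agent.S18.Asm5
import Fermat.Agent.S18.AsmB
import Fermat.Agent.Lib.Frobenius

/-!
# S37 [SP8]: final assembly (the remaining inputs are hypotheses)
-/

set_option autoImplicit false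
set_option linter.unusedSectionVars false
set_option linter.style.haveILetI false
set_option synthInstance.maxHeartbeats 400000

namespace Fermat.Agent.S37

open ModularCurve AlgebraicCurve IntermediateField Fermat.Agent.S24 Fermat.Agent.S18
  Fermat.Agent.S18.R1 Fermat.Agent.S37.RR Fermat.Agent.S18.Mo1 Fermat.Agent.S29

/-- the remaining input [SP3 (iv)]: the Eichler--Shimura congruence for functions. -/
def ESInput (N ℓ : ℕ) [NeZero N] [NeZero ℓ] (A : ValuationSubring Kb) : Prop :=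
  ∀ (M : ℕ) [NeZero M] (hNM : N ∣ M) (_ : ¬ ℓ ∣ M)
    (G : GenData A (πA A) (modularFunctionFieldBar M))
    (φ : Kb ≃ₐ[ℚ] Kb) (_ : A.IsFrobeniusAt φ ℓ) (h : FN N),
    (G.V (πA_surj A)).rd (incl hNM h) ≠ 0 →
      (G.V (πA_surj A)).rd (incl hNM (TT N ℓ (gal N φ h))) =
        (G.V (πA_surj A)).rd (incl hNM (gal N φ (gal N φ h) * h ^ ℓ))

theorem pb_smul {N M : ℕ} [NeZero N] [NeZero M] (hNM : N ∣ M) [HasPrincipalDivisors Kb (FN M)]
    (σ : Kb ≃ₐ[ℚ] Kb) (D : Divisor Kb (FN N)) :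
    pb hNM (gD N σ D) = sg M σ • pb hNM D :=
  Pb.pullbackAlong_smul (incl hNM) (incl_integral hNM) (intertwines hNM σ) D

theorem rd_incl_gal_ne_zero {A : ValuationSubring Kb} {N M : ℕ} [NeZero N] [NeZero M]
    (hNM : N ∣ M) (G : GenData A (πA A) (modularFunctionFieldBar M))
    (g : A.decompositionSubgroup ℚ) (h : FN N)
    (hh : (G.V (πA_surj A)).rd (incl hNM h) ≠ 0) :
    (G.V (πA_surj A)).rd (incl hNM (gal N (g : Kb ≃ₐ[ℚ] Kb) h)) ≠ 0 := by
  rw [incl_gal, rd_gal G g]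
  exact (map_ne_zero_iff _ (sbar G g).injective).2 hh

set_option maxHeartbeats 1000000 in
theorem final_of (N p : ℕ) [NeZero N] (hcomm : HeckeOperatorsCommuteBar N)
    (hs : letI := heckeModuleBar N; SMulCommClass (Kb ≃ₐ[ℚ] Kb) HeckeAlg (JZero N))
    (ℓ : ℕ) (hℓ : ℓ.Prime) [NeZero ℓ] (hℓNp : ¬ ℓ ∣ N * p) (A : ValuationSubring Kb)
    (hA : A.LiesOverPrime ℓ) (I : ESInput N ℓ A) :
    letI := heckeModuleBar N
    ∃ (J' : Type) (_ : AddCommGroup J') (_ : Module HeckeAlg J') (sp : JZero N →+ J')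
      (F : J' →+ J'),
      IsSpecialization (K := ℚ) p (JZero N) J' A ℓ sp F ∧ SpecialFibreRelation J' ℓ hℓ F := by
  have hℓN : ¬ ℓ ∣ N := fun h => hℓNp (Dvd.dvd.mul_right h p)
  have hℓp : ¬ ℓ ∣ p := fun h => hℓNp (Dvd.dvd.mul_left h N)
  obtain ⟨M, hM0, hNM, hℓM, hcase, e, he⟩ := Asm.exists_level ℓ N (NeZero.ne N) hℓ hℓN
  haveI : NeZero M := ⟨hM0⟩
  haveI : IsAlgClosed (kA A) := Asm.isAlgClosed_residueField A
  obtain ⟨G⟩ := Mo1.exists_genData hℓ A hA M hℓM (πA A)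
  obtain ⟨⟨t, ht, hgrh⟩, hcore⟩ := goodLevel hℓ hA (πA_surj A) hcase G
  obtain ⟨n, g, m0, HL, Hk⟩ := rrh_of_grh ht hgrh
  obtain ⟨red, hred⟩ := Red.exists_isRed (V := G.V (πA_surj A)) ⟨ht.htr, ht.fd, ht.hn⟩ HL Hk
  obtain ⟨P₀⟩ := HL.exists_place
  have hX₀ : 0 < Divisor.degree (Finsupp.single P₀ (1 : ℤ)) := by
    rw [HL.degree_single']; exact one_pos
  obtain ⟨φ, hφ⟩ := Fermat.Agent.Lib.Frobenius.exists_isFrobeniusAt A ℓ hℓ hA
  have hPM : HasPrincipalDivisors Kb (FN M) := hasPrincipalDivisors_FN M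
  haveI := hPM
  haveI : HasPrincipalDivisors Kb (FN (N * ℓ)) := hasPrincipalDivisors_FN (N * ℓ)
  have hpbs : ∀ (σ : Kb ≃ₐ[ℚ] Kb) (D : Divisor Kb (FN N)),
      pb hNM (gD N σ D) = sg M σ • pb hNM D := pb_smul hNM
  haveI : Fact ℓ.Prime := ⟨hℓ⟩
  have hnorm := normFormulaAlong_alpha N ℓ (finiteAlong_alpha N ℓ)
  have hfinι : FiniteAlong Kb (incl hNM) := by
    haveI : FiniteDimensional Kb⟮incl hNM (jF N)⟯ (FN M) := by
      rw [Asm.inclusion_jF hNM]
      exact ModB.finiteDimensional_FN M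
    exact finiteAlong_of (incl hNM) (jF N)
  have hFIι : FundamentalIdentityAlong Kb (incl hNM) (incl_integral hNM) :=
    haveI := ModB.finiteDimensional_FN N
    fundamentalIdentityAlong _ _ (jF N) (transcendental_jF N) hfinι
  obtain ⟨gN, m0N, HN⟩ : ∃ g m0 : ℤ, RRH Kb (jF N) (Module.finrank Kb⟮jF N⟯ (FN N)) g m0 :=
    haveI := ModB.finiteDimensional_FN N
    exists_RRH (jF N) (transcendental_jF N)
  refine of_R p hcomm hs A ℓ hℓ (heckeAlphaBarIntegral N ℓ) (heckeBetaBarIntegral N ℓ)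
    (fundamentalIdentityAlong_beta N ℓ _) (finiteAlong_alpha N ℓ) hnorm (red.comp (pb hNM))
    ?_ ?_ φ hφ ?_ ?_ ?_ ?_
  · -- R1
    intro D hD
    rw [AddMonoidHom.comp_apply]
    have h1 : Divisor.IsPrincipal (pb hNM D) :=
      Divisor.isPrincipal_pullbackAlong (incl hNM) (incl_integral hNM) hD
    exact hred.isPrincipal h1
  · -- R2
    intro σ hσ D _
    rw [AddMonoidHom.comp_apply, AddMonoidHom.comp_apply, hpbs]
    exact red_inertia G hred _ hX₀ σ hσ _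
  · -- R3a
    intro D _ hD
    rw [AddMonoidHom.comp_apply, hpbs]
    exact red_decomp_principal G hred _ hX₀ hPM ⟨φ, hφ.mem_decompositionSubgroup⟩ _ hD
  · -- R3b
    intro σ hσ D _
    rw [AddMonoidHom.comp_apply, AddMonoidHom.comp_apply, hpbs, hpbs]
    exact red_frob G hred _ hX₀ σ φ hσ hφ _
  · -- R4
    intro D _ n hD hR
    have hn : ¬ ℓ ∣ p ^ n := fun h => hℓp (hℓ.dvd_of_dvd_pow h)
    have hp0 : 0 < p ^ n := Nat.pos_of_ne_zero (by rintro h0; exact hn (h0 ▸ dvd_zero _))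
    exact Tors.isPrincipal_of_red hNM (G.V (πA_surj A)) red hred.principal
      Hk.const_of_ord_nonneg hcore (pb hNM)
      (fun D f hDf w => CD.pullbackAlong_div (incl hNM) (incl_integral hNM) hDf w)
      (p ^ n) hp0 (Asm.natCast_map_ne_zero A hℓ hA (πA A) (p ^ n) hn)
      (by rw [he]; exact Nat.Coprime.pow_left _ ((Nat.Prime.coprime_iff_not_dvd hℓ).2 hn))
      D hD hR
  · -- R5
    intro D hD
    have hφ1 := hφ.mem_decompositionSubgroup
    have hγ : ∀ h : FN N, (G.V (πA_surj A)).rd (incl hNM h) ≠ 0 →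
        (G.V (πA_surj A)).rd (incl hNM (gal N φ h)) ≠ 0 := fun h hh =>
      rd_incl_gal_ne_zero hNM G ⟨φ, hφ1⟩ h hh
    exact es_divisor HN (incl hNM) (incl_integral hNM) hFIι (heckeAlphaBar Kb N ℓ)
      (heckeBetaBar Kb N ℓ) (heckeAlphaBarIntegral N ℓ)
      (heckeBetaBarIntegral N ℓ) (fundamentalIdentityAlong_beta N ℓ _) (finiteAlong_alpha N ℓ)
      hnorm (sg N φ) (G.V (πA_surj A)) red hred.degree_eq hred.nonneg hred.principal
      (fun Q => (Red.deg_eq_one Hk Q).ge) (TT N ℓ) (NH.norm_heckeBeta hℓN) ℓ hγ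
      (fun h hh => by
        have h1 := I M hNM hℓM G φ hφ h hh
        have h2 := hγ _ (hγ h hh)
        rw [map_mul, map_pow, (G.V (πA_surj A)).rd_mul ((G.V (πA_surj A)).mem_of_rd_ne_zero h2)
          (pow_mem ((G.V (πA_surj A)).mem_of_rd_ne_zero hh) ℓ),
          (G.V (πA_surj A)).rd_pow ((G.V (πA_surj A)).mem_of_rd_ne_zero hh)] at h1
        exact h1) D hD

end Fermat.Agent.S37
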