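import Mathlib
import Fermat.Agent.S37.Level
import Fermat.Agent.S37.Gal
import Fermat.Agent.S37.Lvl
import Fermat.Agent.S37.RR
import Fermat.Agent.S29.ESFinal
import Fermat.Agent.S29.HeckeMem

set_option autoImplicit false
set_option synthInstance.maxHeartbeats 400000
set_option linter.style.haveILetI false
set_option linter.unusedSectionVars false

/-! # S37 [SP3]: final interface (good level, Galois action on the reduction, the reduction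
identity of Eichler-Shimura) -/

namespace Fermat.Agent.S37

noncomputable section

open ModularCurve AlgebraicCurve IntermediateField Fermat.Agent.S24
open Fermat.Agent.S18 Fermat.Agent.S18.Mo1 Fermat.Agent.S18.R1 Fermat.Agent.S29
open Fermat.Agent.S37.RR

variable {A : ValuationSubring Kb} {M : ℕ} [NeZero M]
variable (G : GenData A (πA A) (modularFunctionFieldBar M))

/-- **(i)** -/
theorem goodLevel_RRH {ℓ : ℕ} (hℓ : ℓ.Prime) (hA : A.LiesOverPrime ℓ)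
    (hcase : 5 ≤ ℓ ∨ (ℓ = 3 ∧ 2 ∣ M) ∨ (ℓ = 2 ∧ 3 ∣ M)) :
    ∃ (t : FN M) (n : ℕ) (g m0 : ℤ), (G.V (πA_surj A)).GoodCoord t ∧ RRH Kb t n g m0 ∧
      RRH (kA A) ((G.V (πA_surj A)).rd t) n g m0 ∧ Glue.VCore G (πA_surj A) := by
  obtain ⟨⟨t, ht, g, m0, h1, h2, h3, h4, -, -, -⟩, hcore⟩ := goodLevel hℓ hA (πA_surj A) hcase G
  have ht' : (G.V (πA_surj A)).GoodCoord t := ⟨ht.htr, ht.fd, ht.hn⟩
  exact ⟨t, Module.finrank Kb⟮t⟯ (FN M), g, m0, ht',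
    ⟨ht'.transcendental, ht.fd, ht.sep, rfl, h1, h3⟩,
    ⟨ht.htr, ht.fdb, ht.sepb, ht.hn.symm, h2, h4⟩, hcore⟩

/-- **(G1)** inertia acts trivially on the reduction. -/
theorem gal_inertia (σ : Kb ≃ₐ[ℚ] Kb) (hσ : σ ∈ A.inertiaSubgroupIn ℚ) (x : FN M) :
    (gal M σ x ∈ (G.V (πA_surj A)).O ↔ x ∈ (G.V (πA_surj A)).O) ∧
      (G.V (πA_surj A)).rd (gal M σ x) = (G.V (πA_surj A)).rd x := by
  obtain ⟨g, hg, rfl⟩ := hσ
  refine ⟨gal_mem_O_iff G g, ?_⟩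
  have h := rd_gal G g x
  rw [sbar_inertia G g hg] at h
  exact h

/-- **(G2)** all Frobenius lifts act in the same way on the reduction. -/
theorem gal_frob (ℓ : ℕ) : ∃ Fr : G.kp (πA_surj A) ≃+* G.kp (πA_surj A),
    ∀ σ : Kb ≃ₐ[ℚ] Kb, A.IsFrobeniusAt σ ℓ → ∀ x : FN M,
      (gal M σ x ∈ (G.V (πA_surj A)).O ↔ x ∈ (G.V (πA_surj A)).O) ∧
        (G.V (πA_surj A)).rd (gal M σ x) = Fr ((G.V (πA_surj A)).rd x) := by
  by_cases h : ∃ σ : Kb ≃ₐ[ℚ] Kb, A.IsFrobeniusAt σ ℓ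
  · obtain ⟨σ₀, hσ₀, hfr₀⟩ := h
    refine ⟨sbar G ⟨σ₀, hσ₀⟩, ?_⟩
    rintro σ ⟨hσ, hfr⟩ x
    refine ⟨gal_mem_O_iff G ⟨σ, hσ⟩, ?_⟩
    rw [← sbar_frob G hσ hσ₀ hfr hfr₀]
    exact rd_gal G ⟨σ, hσ⟩ x
  · exact ⟨RingEquiv.refl _, fun σ hσ => absurd ⟨σ, hσ⟩ h⟩

end

end Fermat.Agent.S37
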