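import Mathlib
import Fermat.Agent.S37.SP3

set_option autoImplicit false
set_option synthInstance.maxHeartbeats 400000
set_option linter.style.haveILetI false
set_option linter.unusedSectionVars false

/-! # S37 [SP3] (iv): the reduction identity of Eichler-Shimura -/

namespace Fermat.Agent.S37

noncomputable section

open ModularCurve AlgebraicCurve IntermediateField Fermat.Agent.S24
open Fermat.Agent.S18 Fermat.Agent.S18.Mo1 Fermat.Agent.S29

variable {A : ValuationSubring Kb} {N M : ℕ} [NeZero N] [NeZero M]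
variable (G : GenData A (πA A) (modularFunctionFieldBar M))

theorem rd_eq_div {x : FN M} {s a : WF A (modularFunctionFieldBar M)}
    (hs : rW A (πA A) _ s ≠ 0) (e : iW A _ s * x = iW A _ a) :
    (((G.V (πA_surj A)).rd x : G.kp (πA_surj A)) : LaurentSeries (kA A)) =
      rW A (πA A) _ a / rW A (πA A) _ s := by
  rw [vdata_rd G.normHyp (πA_surj A) ⟨s, a, hs, e⟩, rdF_eq_div hs e]

theorem rd_eq_div' {x : FN M} (s a : LaurentSeries A)
    (hsF : coeffMap A.subtype s ∈ modularFunctionFieldBar M)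
    (haF : coeffMap A.subtype a ∈ modularFunctionFieldBar M)
    (hs : coeffMap (πA A) s ≠ 0)
    (e : coeffMap A.subtype s * (x : LaurentSeries Kb) = coeffMap A.subtype a) :
    (((G.V (πA_surj A)).rd x : G.kp (πA_surj A)) : LaurentSeries (kA A)) =
      coeffMap (πA A) a / coeffMap (πA A) s :=
  rd_eq_div G (s := ⟨s, hsF⟩) (a := ⟨a, haF⟩) hs (Subtype.ext e)

theorem rd_incl_eq_div (hNM : N ∣ M) {x : FN N} {s a : WF A (modularFunctionFieldBar N)}
    (hs : rW A (πA A) _ s ≠ 0) (e : iW A _ s * x = iW A _ a) :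
    (((G.V (πA_surj A)).rd (incl hNM x) : G.kp (πA_surj A)) : LaurentSeries (kA A)) =
      rW A (πA A) _ a / rW A (πA A) _ s := by
  have e' : coeffMap A.subtype s.1 * (x : LaurentSeries Kb) = coeffMap A.subtype a.1 :=
    congrArg Subtype.val e
  have hs' : coeffMap (πA A) s.1 ≠ 0 := hs
  have e'' : coeffMap A.subtype s.1 * ((incl hNM x : FN M) : LaurentSeries Kb) =
      coeffMap A.subtype a.1 := by
    rw [coe_incl]; exact e'
  have hsN : coeffMap A.subtype s.1 ∈ modularFunctionFieldBar N := s.2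
  have haN : coeffMap A.subtype a.1 ∈ modularFunctionFieldBar N := a.2
  have key := rd_eq_div' G (x := incl hNM x) s.1 a.1 (Asm.FN_le hNM hsN) (Asm.FN_le hNM haN)
    hs' e''
  rw [key]
  rfl

theorem rd_incl_iW (hNM : N ∣ M) (a : WF A (modularFunctionFieldBar N)) :
    (((G.V (πA_surj A)).rd (incl hNM (iW A _ a)) : G.kp (πA_surj A)) : LaurentSeries (kA A)) =
      rW A (πA A) _ a := by
  rw [rd_incl_eq_div G hNM (s := 1) (a := a) (by rw [map_one]; exact one_ne_zero)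
    (by rw [map_one, one_mul]), map_one, div_one]

/-- a unit for the Gauss valuation of level `M` which has level `N` is a quotient of integral
elements of level `N` with nonzero reduction. -/
theorem exists_frac {ℓ : ℕ} (hℓ : ℓ.Prime) (hA : A.LiesOverPrime ℓ) (hNM : N ∣ M) (hN : ¬ ℓ ∣ N)
    (h : FN N) (hh : (G.V (πA_surj A)).rd (incl hNM h) ≠ 0) :
    ∃ a b : WF A (modularFunctionFieldBar N), rW A (πA A) _ a ≠ 0 ∧ rW A (πA A) _ b ≠ 0 ∧
      iW A _ b * h = iW A _ a := by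
  have hh0 : h ≠ 0 := by
    rintro rfl
    rw [map_zero, VData.rd_zero] at hh
    exact hh rfl
  obtain ⟨GN⟩ := Mo1.exists_genData hℓ A hA N hN (πA A)
  obtain ⟨c, a, b, hc, ha, hb, e⟩ := GN.normHyp h hh0
  set V := G.V (πA_surj A) with hV
  have hra : V.rd (incl hNM (iW A _ a)) ≠ 0 := by
    intro h0
    apply ha
    rw [← rd_incl_iW G hNM a, ← hV, h0]
    rfl
  have hrb : V.rd (incl hNM (iW A _ b)) ≠ 0 := by
    intro h0
    apply hb
    rw [← rd_incl_iW G hNM b, ← hV, h0]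
    rfl
  have hia0 : incl hNM (iW A _ a) ≠ 0 := by
    intro h0
    rw [h0, VData.rd_zero] at hra
    exact hra rfl
  have e' : algebraMap Kb (FN M) c =
      incl hNM (iW A _ b) * incl hNM h * (incl hNM (iW A _ a))⁻¹ := by
    rw [← map_mul, e, map_mul, AlgHom.commutes, mul_assoc, mul_inv_cancel₀ hia0, mul_one]
  have hbh : incl hNM (iW A _ b) * incl hNM h ∈ V.O :=
    mul_mem (V.mem_of_rd_ne_zero hrb) (V.mem_of_rd_ne_zero hh)
  have hcO : algebraMap Kb (FN M) c ∈ V.O := by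
    rw [e']
    exact mul_mem hbh (V.inv_mem_of_rd_ne_zero hra)
  have hcA : c ∈ A := (V.mem_iff c).2 hcO
  have e2 : iW A _ b * h = iW A _ (cW A _ ⟨c, hcA⟩ * a) := by rw [map_mul, iW_cW, e]
  have hib0 : incl hNM (iW A _ b) ≠ 0 := by
    intro h0
    rw [h0, VData.rd_zero] at hrb
    exact hrb rfl
  have hih0 : incl hNM h ≠ 0 := by
    intro h0
    rw [h0, VData.rd_zero] at hh
    exact hh rfl
  have hne : V.rd (incl hNM (iW A _ (cW A _ ⟨c, hcA⟩ * a))) ≠ 0 := by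
    rw [← e2, map_mul]
    refine V.rd_ne_zero_of_inv_mem (mul_ne_zero hib0 hih0) hbh ?_
    rw [mul_inv]
    exact mul_mem (V.inv_mem_of_rd_ne_zero hrb) (V.inv_mem_of_rd_ne_zero hh)
  refine ⟨cW A _ ⟨c, hcA⟩ * a, b, ?_, hb, e2⟩
  intro h0
  apply hne
  apply Subtype.ext
  rw [hV, rd_incl_iW G hNM, h0]
  rfl

/-- `T_ℓ` preserves integrality, and its reduction is `V · Frob`. -/
theorem exists_TT {ℓ : ℕ} [NeZero ℓ] (hℓ : ℓ.Prime) (hA : A.LiesOverPrime ℓ) (hm : HeckeMem N ℓ)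
    (Fr : kA A →+* kA A) (hFr : ∀ c, Fr c = c ^ ℓ) (w : WF A (modularFunctionFieldBar N)) :
    ∃ z : WF A (modularFunctionFieldBar N), iW A _ z = TT N ℓ (iW A _ w) ∧
      rW A (πA A) _ z = qExpand _ ℓ (rW A (πA A) _ w) * coeffMap Fr (rW A (πA A) _ w) := by
  haveI : Fact ℓ.Prime := ⟨hℓ⟩
  haveI : CharP (kA A) ℓ := (CharP.charP_iff_prime_eq_zero hℓ).2
    (natCast_map_eq_zero A hA (πA A) (πA_surj A))
  have hFr' : Fr = frobenius (kA A) ℓ := RingHom.ext fun c => by rw [hFr, frobenius_def]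
  subst hFr'
  obtain ⟨v, hv1, hv2⟩ := exists_unit_of_pow_eq_one A (zl ℓ) hℓ.ne_zero (zl_spec ℓ).pow_eq_one
  have hv3 : Units.map (πA A : A →* kA A) v = 1 := by
    apply Units.ext
    apply frobenius_inj (kA A) ℓ
    rw [frobenius_def, frobenius_def, Units.val_one, one_pow, ← Units.val_pow_eq_pow_val, ← map_pow,
      hv2, map_one, Units.val_one]
  have h1 : coeffMap A.subtype (heckeS ℓ v w.1) = (TT N ℓ (iW A _ w) : LaurentSeries Kb) := by
    rw [coe_TT hm, coeffMap_heckeS]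
    show heckeS ℓ (Units.map (A.subtype : A →* Kb) v) _ = _
    rw [hv1]
    rfl
  refine ⟨⟨heckeS ℓ v w.1, ?_⟩, Subtype.ext h1, ?_⟩
  · rw [mem_WF, h1]
    exact (TT N ℓ _).2
  · show coeffMap (πA A) (heckeS ℓ v w.1) = _
    rw [coeffMap_heckeS]
    show heckeS ℓ (Units.map (πA A : A →* kA A) v) _ = _
    rw [hv3]
    exact heckeS_char ℓ _

/-- **(iv)** the reduction identity: `T_ℓ (φ h)` and `φ φ h · h ^ ℓ` have the same reduction. -/
theorem es_red {ℓ : ℕ} [NeZero ℓ] (hℓ : ℓ.Prime) (hA : A.LiesOverPrime ℓ) (hNM : N ∣ M)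
    (hN : ¬ ℓ ∣ N) (φ : Kb ≃ₐ[ℚ] Kb) (hφ : A.IsFrobeniusAt φ ℓ) (h : FN N)
    (hh : (G.V (πA_surj A)).rd (incl hNM h) ≠ 0) :
    (G.V (πA_surj A)).rd (incl hNM (TT N ℓ (gal N φ h))) =
        (G.V (πA_surj A)).rd (incl hNM (gal N φ (gal N φ h) * h ^ ℓ)) ∧
      (G.V (πA_surj A)).rd (incl hNM (TT N ℓ (gal N φ h))) ≠ 0 := by
  haveI : Fact ℓ.Prime := ⟨hℓ⟩
  have hm : HeckeMem N ℓ := HA.heckeMem hN
  obtain ⟨hdec, hfr⟩ := hφ
  set g : A.decompositionSubgroup ℚ := ⟨φ, hdec⟩ with hg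
  have h0k : (ℓ : kA A) = 0 := natCast_map_eq_zero A hA (πA A) (πA_surj A)
  haveI : CharP (kA A) ℓ := (CharP.charP_iff_prime_eq_zero hℓ).2 h0k
  set Fr : kA A →+* kA A := frobenius (kA A) ℓ with hFrd
  have hFr : ∀ c, Fr c = c ^ ℓ := fun c => frobenius_def ℓ c
  have hφ' : ∀ r : kA A, g • r = Fr r := fun r => by rw [hFr]; exact hfr r
  obtain ⟨a, b, ha, hb, e⟩ := exists_frac G hℓ hA hNM hN h hh
  set γ : FN N ≃+* FN N := gal N φ with hγ
  set ra := rW A (πA A) _ a with hra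
  set rb := rW A (πA A) _ b with hrb
  obtain ⟨Ta, hTa1, hTa2⟩ := exists_TT hℓ hA hm Fr hFr (ES.gW A N g a)
  obtain ⟨Tb, hTb1, hTb2⟩ := exists_TT hℓ hA hm Fr hFr (ES.gW A N g b)
  rw [ES.rW_gW A N g _ hφ', ← hra] at hTa2
  rw [ES.rW_gW A N g _ hφ', ← hrb] at hTb2
  have hiWg : ∀ w, iW A _ (ES.gW A N g w) = γ (iW A _ w) := fun w => ES.iW_gW A N g w
  rw [hiWg] at hTa1 hTb1
  have hΦ : Function.Injective (coeffMap Fr) := S24.coeffMap_injective Fr Fr.injective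
  have hΦne : ∀ y : LaurentSeries (kA A), y ≠ 0 → coeffMap Fr y ≠ 0 :=
    fun y hy => (map_ne_zero_iff _ hΦ).2 hy
  have hVne : ∀ y : LaurentSeries (kA A), y ≠ 0 → qExpand (kA A) ℓ y ≠ 0 :=
    fun y hy => (map_ne_zero_iff _ (qExpand_injective ℓ)).2 hy
  have hTa0 : rW A (πA A) _ Ta ≠ 0 := by
    rw [hTa2]; exact mul_ne_zero (hVne _ (hΦne _ ha)) (hΦne _ (hΦne _ ha))
  have hTb0 : rW A (πA A) _ Tb ≠ 0 := by
    rw [hTb2]; exact mul_ne_zero (hVne _ (hΦne _ hb)) (hΦne _ (hΦne _ hb))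
  have e1 : iW A _ Tb * TT N ℓ (γ h) = iW A _ Ta := by
    rw [hTb1, hTa1, ← TT_mul hm, ← map_mul, e]
  set s2 : WF A (modularFunctionFieldBar N) := ES.gW A N g (ES.gW A N g b) * b ^ ℓ with hs2
  set a2 : WF A (modularFunctionFieldBar N) := ES.gW A N g (ES.gW A N g a) * a ^ ℓ with ha2
  have hrs2 : rW A (πA A) _ s2 = coeffMap Fr (coeffMap Fr rb) * qExpand _ ℓ (coeffMap Fr rb) := by
    rw [hs2, map_mul, map_pow, ES.rW_gW A N g _ hφ', ES.rW_gW A N g _ hφ', ← hrb,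
      ES.pow_char_eq hℓ h0k Fr hFr]
  have hra2 : rW A (πA A) _ a2 = coeffMap Fr (coeffMap Fr ra) * qExpand _ ℓ (coeffMap Fr ra) := by
    rw [ha2, map_mul, map_pow, ES.rW_gW A N g _ hφ', ES.rW_gW A N g _ hφ', ← hra,
      ES.pow_char_eq hℓ h0k Fr hFr]
  have hs20 : rW A (πA A) _ s2 ≠ 0 := by
    rw [hrs2]; exact mul_ne_zero (hΦne _ (hΦne _ hb)) (hVne _ (hΦne _ hb))
  have e2 : iW A _ s2 * (γ (γ h) * h ^ ℓ) = iW A _ a2 := by
    rw [hs2, ha2, map_mul, map_mul, map_pow, map_pow, hiWg, hiWg, hiWg, hiWg, ← e, map_mul,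
      map_mul, mul_pow]
    ring
  have k1 := rd_incl_eq_div G hNM hTb0 e1
  have k2 := rd_incl_eq_div G hNM hs20 e2
  refine ⟨Subtype.ext ?_, ?_⟩
  · rw [k1, k2, hTa2, hTb2, hrs2, hra2, mul_comm (qExpand _ ℓ (coeffMap Fr ra)),
      mul_comm (qExpand _ ℓ (coeffMap Fr rb))]
  · intro h0
    rw [h0] at k1
    exact div_ne_zero hTa0 hTb0 k1.symm

end

end Fermat.Agent.S37
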