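import Fermat.Agent.S37.Quot
import Fermat.Prelude.Def_ModularCurve_HeckeModule

/-!
# S37 [SP8], top level: from an additive map `R` on divisors to the specialization datum
-/

set_option autoImplicit false
set_option linter.unusedSectionVars false

namespace Fermat.Agent.S37

open ModularCurve AlgebraicCurve

local notation "Qb" => AlgebraicClosure ℚ
local notation "GQ" => (AlgebraicClosure ℚ ≃ₐ[ℚ] AlgebraicClosure ℚ)
local notation "FNb" N => modularFunctionFieldBar N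

/-- the Galois action on divisors of level `N`. -/
noncomputable abbrev gD (N : ℕ) (σ : GQ) (D : Divisor Qb (FNb N)) : Divisor Qb (FNb N) :=
  arithmeticGalois (modularFunctionFieldFull N) σ • D

variable {k κ : Type} [Field k] [Field κ] [Algebra k κ]

/-- the additive map induced on `Pic0` by an additive map on divisors preserving principal
divisors. -/
noncomputable def sp0Of {N : ℕ} (R : Divisor Qb (FNb N) →+ Divisor k κ)
    (R1 : ∀ D, Divisor.IsPrincipal D → Divisor.IsPrincipal (R D)) :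
    JZero N →+ Pic k κ :=
  QuotientAddGroup.lift _
    ((QuotientAddGroup.mk' (Divisor.principal (K := k) (F := κ))).comp
      (R.comp (Divisor.degZero (K := Qb) (F := FNb N)).subtype))
    (by
      rintro ⟨D, hD0⟩ hD
      rw [AddSubgroup.mem_addSubgroupOf] at hD
      change ((R D : Divisor k κ) : Pic k κ) = 0
      rw [QuotientAddGroup.eq_zero_iff]
      exact R1 D hD)

theorem sp0Of_mk {N : ℕ} (R : Divisor Qb (FNb N) →+ Divisor k κ)
    (R1 : ∀ D, Divisor.IsPrincipal D → Divisor.IsPrincipal (R D))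
    (D : Divisor.degZero (K := Qb) (F := FNb N)) :
    sp0Of R R1 (Pic0.mk D) = ((R (D : Divisor Qb (FNb N)) : Divisor k κ) : Pic k κ) := rfl

theorem sp0Of_mk_eq_zero {N : ℕ} (R : Divisor Qb (FNb N) →+ Divisor k κ)
    (R1 : ∀ D, Divisor.IsPrincipal D → Divisor.IsPrincipal (R D))
    (D : Divisor.degZero (K := Qb) (F := FNb N)) :
    sp0Of R R1 (Pic0.mk D) = 0 ↔ Divisor.IsPrincipal (R (D : Divisor Qb (FNb N))) := by
  rw [sp0Of_mk, QuotientAddGroup.eq_zero_iff]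
  rfl

theorem mk_eq_zero_iff {N : ℕ} (D : Divisor.degZero (K := Qb) (F := FNb N)) :
    Pic0.mk D = 0 ↔ Divisor.IsPrincipal (D : Divisor Qb (FNb N)) := by
  rw [Pic0.mk, QuotientAddGroup.eq_zero_iff, AddSubgroup.mem_addSubgroupOf]
  rfl

theorem galois_smul_mk {N : ℕ} (σ : GQ) (D : Divisor.degZero (K := Qb) (F := FNb N)) :
    σ • (Pic0.mk D : JZero N) =
      Pic0.mk ⟨gD N σ D, SemilinearAut.smul_mem_degZero _ D.2⟩ := rfl

section Top

variable {N : ℕ} [NeZero N] (p : ℕ)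

theorem heckeGen_smul_mk (hcomm : HeckeOperatorsCommuteBar N) (ℓ : ℕ) (hℓ : ℓ.Prime) [NeZero ℓ]
    (hα : HeckeAlphaBarIntegral Qb N ℓ) (hβ : HeckeBetaBarIntegral Qb N ℓ)
    [HasPrincipalDivisors Qb (FNb (N * ℓ))]
    (hFI : FundamentalIdentityAlong Qb (heckeBetaBar Qb N ℓ) hβ)
    (hfin : FiniteAlong Qb (heckeAlphaBar Qb N ℓ))
    (hN : NormFormulaAlong Qb (heckeAlphaBar Qb N ℓ) hfin)
    (D : Divisor.degZero (K := Qb) (F := FNb N)) :
    (letI := heckeModuleBar N; heckeGen ⟨ℓ, hℓ⟩ • (Pic0.mk D : JZero N)) =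
      Pic0.mk ⟨heckeDivBar hα hβ (D : Divisor Qb (FNb N)),
        Divisor.correspondence_mem_degZero _ _ hβ hα hFI D.2⟩ := by
  refine (heckeModuleBar_heckeGen_smul hcomm (⟨ℓ, hℓ⟩ : Nat.Primes) (Pic0.mk D)).trans ?_
  change heckeOperatorAlong Qb N ℓ (Pic0.mk D) = _
  rw [heckeOperatorAlong_eq hα hβ hFI hfin hN]
  rfl

theorem of_R (hcomm : HeckeOperatorsCommuteBar N)
    (hs : letI := heckeModuleBar N; SMulCommClass GQ HeckeAlg (JZero N))
    (A : ValuationSubring Qb) (ℓ : ℕ) (hℓ : ℓ.Prime) [NeZero ℓ]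
    (hα : HeckeAlphaBarIntegral Qb N ℓ) (hβ : HeckeBetaBarIntegral Qb N ℓ)
    [HasPrincipalDivisors Qb (FNb (N * ℓ))]
    (hFI : FundamentalIdentityAlong Qb (heckeBetaBar Qb N ℓ) hβ)
    (hfin : FiniteAlong Qb (heckeAlphaBar Qb N ℓ))
    (hN : NormFormulaAlong Qb (heckeAlphaBar Qb N ℓ) hfin)
    (R : Divisor Qb (FNb N) →+ Divisor k κ)
    (R1 : ∀ D, Divisor.IsPrincipal D → Divisor.IsPrincipal (R D))
    (R2 : ∀ σ ∈ A.inertiaSubgroupIn ℚ, ∀ D, Divisor.degree D = 0 → R (gD N σ D) = R D)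
    (φ : GQ) (hφ : A.IsFrobeniusAt φ ℓ)
    (R3a : ∀ D, Divisor.degree D = 0 → Divisor.IsPrincipal (R D) →
      Divisor.IsPrincipal (R (gD N φ D)))
    (R3b : ∀ σ : GQ, A.IsFrobeniusAt σ ℓ → ∀ D, Divisor.degree D = 0 →
      R (gD N σ D) = R (gD N φ D))
    (R4 : ∀ D, Divisor.degree D = 0 → ∀ n : ℕ, Divisor.IsPrincipal (p ^ n • D) →
      Divisor.IsPrincipal (R D) → Divisor.IsPrincipal D)
    (R5 : ∀ D, Divisor.degree D = 0 →
      R (gD N φ (gD N φ D) - heckeDivBar hα hβ (gD N φ D) + ℓ • D) = 0) :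
    letI := heckeModuleBar N
    ∃ (J' : Type) (_ : AddCommGroup J') (_ : Module HeckeAlg J') (sp : JZero N →+ J')
      (F : J' →+ J'),
      IsSpecialization (K := ℚ) p (JZero N) J' A ℓ sp F ∧ SpecialFibreRelation J' ℓ hℓ F := by
  letI := heckeModuleBar N
  haveI := hs
  refine exists_specialization (K := ℚ) p A ℓ hℓ (sp0Of R R1) φ hφ ?_ ?_ ?_ ?_ ?_
  · intro σ hσ x
    obtain ⟨D, rfl⟩ := Pic0.mk_surjective x
    rw [galois_smul_mk, sp0Of_mk, sp0Of_mk]
    exact congrArg _ (R2 σ hσ D (Divisor.mem_degZero.1 D.2))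
  · intro x hx
    obtain ⟨D, rfl⟩ := Pic0.mk_surjective x
    rw [galois_smul_mk, sp0Of_mk_eq_zero]
    rw [sp0Of_mk_eq_zero] at hx
    exact R3a D (Divisor.mem_degZero.1 D.2) hx
  · intro σ hσ x
    obtain ⟨D, rfl⟩ := Pic0.mk_surjective x
    rw [galois_smul_mk, galois_smul_mk, sp0Of_mk, sp0Of_mk]
    exact congrArg _ (R3b σ hσ D (Divisor.mem_degZero.1 D.2))
  · rintro x ⟨n, hn⟩ hx
    obtain ⟨D, rfl⟩ := Pic0.mk_surjective x
    rw [sp0Of_mk_eq_zero] at hx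
    rw [mk_eq_zero_iff]
    refine R4 D (Divisor.mem_degZero.1 D.2) n ?_ hx
    have h1 : (p ^ n • (Pic0.mk D : JZero N)) = Pic0.mk (p ^ n • D) := rfl
    rw [h1, mk_eq_zero_iff] at hn
    exact hn
  · intro x
    obtain ⟨D, rfl⟩ := Pic0.mk_surjective x
    rw [galois_smul_mk, galois_smul_mk, heckeGen_smul_mk hcomm ℓ hℓ hα hβ hFI hfin hN]
    have h1 : ∀ E E' : Divisor.degZero (K := Qb) (F := FNb N),
        (Pic0.mk E : JZero N) - Pic0.mk E' = Pic0.mk (E - E') := fun _ _ => rfl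
    have h2 : (ℓ • (Pic0.mk D : JZero N)) = Pic0.mk (ℓ • D) := rfl
    rw [h1, h2, ← Pic0.mk_add, sp0Of_mk]
    have h3 := R5 D (Divisor.mem_degZero.1 D.2)
    rw [QuotientAddGroup.eq_zero_iff]
    change R (gD N φ (gD N φ D) - heckeDivBar hα hβ (gD N φ D) + ℓ • (D : Divisor Qb (FNb N))) ∈ _
    rw [h3]
    exact zero_mem _

end Top

end Fermat.Agent.S37
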