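import Mathlib
import Fermat.Agent.S18.R1a

set_option autoImplicit false
set_option linter.unusedSectionVars false

/-! # S37 [SP1]: the smallest divisor `bar R` with `R ⊆ L(bar R)`, for a finite-dimensional
space of functions `R` -/

namespace Fermat.Agent.S37

open AlgebraicCurve Fermat.Agent.S24 Fermat.Agent.S18.R1

variable {K F : Type} [Field K] [Field F] [Algebra K F]

/-- functions with a pole of order at most `B` at `Q`. -/
def LQ (Q : Place K F) (B : ℤ) : Submodule K F where
  carrier := {x | x = 0 ∨ - B ≤ Q.ord x}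
  zero_mem' := Or.inl rfl
  add_mem' := by
    rintro x y hx hy
    by_cases hxy : x + y = 0
    · exact Or.inl hxy
    rcases hx with rfl | hx
    · simpa using hy
    rcases hy with rfl | hy
    · simpa using Or.inr hx
    exact Or.inr ((le_min hx hy).trans (ord_add_ge Q hxy))
  smul_mem' := by
    rintro c x hx
    rcases hx with rfl | hx
    · exact Or.inl (smul_zero c)
    by_cases hc : c = 0
    · exact Or.inl (by rw [hc, zero_smul])
    by_cases hx0 : x = 0
    · exact Or.inl (by rw [hx0, smul_zero])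
    refine Or.inr ?_
    rw [Algebra.smul_def, Q.ord_mul (by simpa using hc) hx0, ord_algebraMap, zero_add]
    exact hx

theorem mem_LQ_of_ne {Q : Place K F} {B : ℤ} {x : F} (hx : x ≠ 0) :
    x ∈ LQ Q B ↔ - B ≤ Q.ord x := by
  show (x = 0 ∨ _) ↔ _
  rw [or_iff_right hx]

/-- the pole orders at `Q` of the nonzero elements of `R`. -/
def ordSet (R : Submodule K F) (Q : Place K F) : Set ℤ := {n | ∃ h ∈ R, h ≠ 0 ∧ - Q.ord h = n}

/-- the largest pole order at `Q` of an element of `R`. -/
noncomputable def barFun (R : Submodule K F) (Q : Place K F) : ℤ := sSup (ordSet R Q)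

theorem ordSet_nonempty {R : Submodule K F} (hR : R ≠ ⊥) (Q : Place K F) :
    (ordSet R Q).Nonempty := by
  obtain ⟨h, hh, h0⟩ := Submodule.exists_mem_ne_zero_of_ne_bot hR
  exact ⟨_, h, hh, h0, rfl⟩

theorem ordSet_bddAbove (R : Submodule K F) [FiniteDimensional K R] (Q : Place K F) :
    BddAbove (ordSet R Q) := by
  obtain ⟨S, hS⟩ : R.FG := (Submodule.fg_top R).mp Module.Finite.fg_top
  refine ⟨∑ s ∈ S, |Q.ord s|, ?_⟩
  rintro _ ⟨h, hh, h0, rfl⟩
  have hle : R ≤ LQ Q (∑ s ∈ S, |Q.ord s|) := by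
    rw [← hS, Submodule.span_le]
    intro s hs
    refine Or.inr ?_
    have h1 : |Q.ord s| ≤ ∑ s ∈ S, |Q.ord s| :=
      Finset.single_le_sum (f := fun s => |Q.ord s|) (fun _ _ => abs_nonneg _) hs
    have h2 := neg_abs_le (Q.ord s)
    linarith
  have := (mem_LQ_of_ne h0).mp (hle hh)
  linarith

theorem le_barFun {R : Submodule K F} [FiniteDimensional K R] {h : F} (hh : h ∈ R) (h0 : h ≠ 0)
    (Q : Place K F) : - Q.ord h ≤ barFun R Q :=
  le_csSup (ordSet_bddAbove R Q) ⟨h, hh, h0, rfl⟩

theorem exists_eq_barFun {R : Submodule K F} [FiniteDimensional K R] (hR : R ≠ ⊥)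
    (Q : Place K F) : ∃ h ∈ R, h ≠ 0 ∧ - Q.ord h = barFun R Q :=
  Int.csSup_mem (ordSet_nonempty hR Q) (ordSet_bddAbove R Q)

theorem barFun_le {R : Submodule K F} [FiniteDimensional K R] (hR : R ≠ ⊥) {Q : Place K F} {B : ℤ}
    (h : ∀ x ∈ R, x ≠ 0 → - Q.ord x ≤ B) : barFun R Q ≤ B := by
  obtain ⟨x, hx, hx0, e⟩ := exists_eq_barFun hR Q
  rw [← e]
  exact h x hx hx0

theorem barFun_bot (Q : Place K F) : barFun (⊥ : Submodule K F) Q = 0 := by
  have : ordSet (⊥ : Submodule K F) Q = ∅ := by
    ext n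
    simp only [ordSet, Submodule.mem_bot, Set.mem_ofPred_eq, Set.mem_empty_iff_false, iff_false]
    rintro ⟨h, rfl, h0, -⟩
    exact h0 rfl
  rw [barFun, this]
  exact Int.csSup_empty

theorem le_Lof_barFun (R : Submodule K F) [FiniteDimensional K R] : R ≤ Lof (barFun R) := by
  intro h hh
  by_cases h0 : h = 0
  · exact Or.inl h0
  · refine Or.inr fun Q => ?_
    have := le_barFun hh h0 Q
    linarith

theorem barFun_le_of_le_Lof {R : Submodule K F} [FiniteDimensional K R] (hR : R ≠ ⊥)
    {E : Place K F → ℤ} (h : R ≤ Lof E) (Q : Place K F) : barFun R Q ≤ E Q :=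
  barFun_le hR fun x hx hx0 => by
    have := (mem_Lof_of_ne hx0).mp (h hx) Q
    linarith

theorem barFun_mono {R R' : Submodule K F} [FiniteDimensional K R] [FiniteDimensional K R']
    (hR : R ≠ ⊥) (h : R ≤ R') (Q : Place K F) : barFun R Q ≤ barFun R' Q :=
  barFun_le hR fun _ hx hx0 => le_barFun (h hx) hx0 Q

/-- **(B)** -/
theorem barFun_add_le {R1 R2 R3 : Submodule K F} [FiniteDimensional K R1]
    [FiniteDimensional K R2] [FiniteDimensional K R3] (h1 : R1 ≠ ⊥) (h2 : R2 ≠ ⊥)
    (h : ∀ x ∈ R1, ∀ y ∈ R2, x * y ∈ R3) (Q : Place K F) :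
    barFun R1 Q + barFun R2 Q ≤ barFun R3 Q := by
  obtain ⟨x, hx, hx0, ex⟩ := exists_eq_barFun h1 Q
  obtain ⟨y, hy, hy0, ey⟩ := exists_eq_barFun h2 Q
  have := le_barFun (h x hx y hy) (mul_ne_zero hx0 hy0) Q
  rw [Q.ord_mul hx0 hy0] at this
  linarith

/-- multiplication by a function. -/
theorem barFun_mul {R R' : Submodule K F} [FiniteDimensional K R] [FiniteDimensional K R']
    (hR : R ≠ ⊥) {f : F} (hf : f ≠ 0) (h : ∀ x, x ∈ R' ↔ ∃ y ∈ R, x = f * y) (Q : Place K F) :
    barFun R' Q = barFun R Q - Q.ord f := by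
  have hR' : R' ≠ ⊥ := by
    obtain ⟨y, hy, hy0⟩ := Submodule.exists_mem_ne_zero_of_ne_bot hR
    intro hb
    have : f * y ∈ R' := (h _).mpr ⟨y, hy, rfl⟩
    rw [hb, Submodule.mem_bot] at this
    exact mul_ne_zero hf hy0 this
  apply le_antisymm
  · apply barFun_le hR'
    intro x hx hx0
    obtain ⟨y, hy, rfl⟩ := (h x).mp hx
    have hy0 : y ≠ 0 := right_ne_zero_of_mul hx0
    rw [Q.ord_mul hf hy0]
    have := le_barFun hy hy0 Q
    linarith
  · obtain ⟨y, hy, hy0, ey⟩ := exists_eq_barFun hR Q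
    have := le_barFun ((h _).mpr ⟨y, hy, rfl⟩) (mul_ne_zero hf hy0) Q
    rw [Q.ord_mul hf hy0] at this
    linarith

/-- finiteness of the support. -/
theorem finite_support_barFun (hfin : ∀ f : F, f ≠ 0 → {P : Place K F | P.ord f ≠ 0}.Finite)
    (R : Submodule K F) [FiniteDimensional K R] : (Function.support (barFun R)).Finite := by
  by_cases hR : R = ⊥
  · subst hR
    have : Function.support (barFun (⊥ : Submodule K F)) = ∅ := by
      ext Q
      simp [barFun_bot]
    rw [this]
    exact Set.finite_empty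
  obtain ⟨S, hS⟩ : R.FG := (Submodule.fg_top R).mp Module.Finite.fg_top
  have hfinU : (⋃ s ∈ S, {P : Place K F | P.ord s ≠ 0}).Finite := by
    refine Set.Finite.biUnion S.finite_toSet fun s _ => ?_
    by_cases hs : s = 0
    · subst hs
      simp
    · exact hfin s hs
  refine hfinU.subset ?_
  intro Q hQ
  by_contra hcon
  simp only [Set.mem_iUnion, Set.mem_ofPred_eq, not_exists, not_not] at hcon
  apply hQ
  apply le_antisymm
  · apply barFun_le hR
    have hle : R ≤ LQ Q 0 := by
      rw [← hS, Submodule.span_le]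
      intro s hs
      refine Or.inr ?_
      rw [hcon s hs]
      simp
    intro x hx hx0
    have := (mem_LQ_of_ne hx0).mp (hle hx)
    linarith
  · have hex : ∃ s ∈ S, s ≠ 0 := by
      by_contra hno
      push Not at hno
      apply hR
      rw [← hS, Submodule.span_eq_bot]
      exact fun s hs => hno s hs
    obtain ⟨s, hs, hs0⟩ := hex
    have hsR : s ∈ R := hS ▸ Submodule.subset_span hs
    have := le_barFun hsR hs0 Q
    rw [hcon s hs] at this
    simpa using this

/-- the divisor `bar R`. -/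
noncomputable def barOf (hfin : ∀ f : F, f ≠ 0 → {P : Place K F | P.ord f ≠ 0}.Finite)
    (R : Submodule K F) [FiniteDimensional K R] : Divisor K F :=
  Finsupp.ofSupportFinite (barFun R) (finite_support_barFun hfin R)

theorem barOf_apply (hfin : ∀ f : F, f ≠ 0 → {P : Place K F | P.ord f ≠ 0}.Finite)
    (R : Submodule K F) [FiniteDimensional K R] (Q : Place K F) :
    barOf hfin R Q = barFun R Q := rfl

theorem coe_barOf (hfin : ∀ f : F, f ≠ 0 → {P : Place K F | P.ord f ≠ 0}.Finite)
    (R : Submodule K F) [FiniteDimensional K R] : ⇑(barOf hfin R) = barFun R := rfl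

end Fermat.Agent.S37
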