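import Mathlib
import Fermat.Agent.S37.Lvl
import Fermat.Agent.S37.RedGal
import Fermat.Agent.S37.Bounded

set_option autoImplicit false
set_option linter.unusedSectionVars false
set_option synthInstance.maxHeartbeats 400000

/-! # S37 [SP8] R5: the Eichler--Shimura relation on all divisors of degree `0` -/

namespace Fermat.Agent.S37.ES

open AlgebraicCurve ModularCurve Fermat.Agent.S18 Fermat.Agent.S24 Fermat.Agent.S29
  Fermat.Agent.S37.Red

local notation "GQ" => (AlgebraicClosure ℚ ≃ₐ[ℚ] AlgebraicClosure ℚ)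

section general

variable {K F : Type*} [Field K] [Field F] [Algebra K F]

theorem smul_div (g : SemilinearAut K F) {D : Divisor K F} {f : F} (h : ∀ P, D P = P.ord f)
    (P : Place K F) : (g • D) P = P.ord (g • f) := by
  rw [SemilinearAut.divisor_smul_apply, h (g⁻¹ • P)]
  have e := SemilinearAut.ord_smul g (g⁻¹ • P) f
  rw [smul_inv_smul] at e
  exact e.symm

theorem smul_nonneg (g : SemilinearAut K F) {D : Divisor K F} (h : 0 ≤ D) : 0 ≤ g • D := by
  intro P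
  rw [SemilinearAut.divisor_smul_apply]
  exact h _

end general

variable {k κ : Type} [Field k] [Field κ] [Algebra k κ]
variable {N M ℓ : ℕ} [NeZero N] [NeZero M] [NeZero ℓ]
  [HasPrincipalDivisors Kb (FN (N * ℓ))]

/-- the operator `φ² - T_ℓ φ + ℓ` on divisors. -/
noncomputable def esOp (hα : HeckeAlphaBarIntegral Kb N ℓ) (hβ : HeckeBetaBarIntegral Kb N ℓ)
    (φ : GQ) : Divisor Kb (FN N) →+ Divisor Kb (FN N) :=
  (DistribSMul.toAddMonoidHom (Divisor Kb (FN N)) (sg N φ)).comp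
      (DistribSMul.toAddMonoidHom (Divisor Kb (FN N)) (sg N φ))
    - (heckeDivBar hα hβ).comp (DistribSMul.toAddMonoidHom (Divisor Kb (FN N)) (sg N φ))
    + ℓ • AddMonoidHom.id _

theorem esOp_apply (hα : HeckeAlphaBarIntegral Kb N ℓ) (hβ : HeckeBetaBarIntegral Kb N ℓ)
    (φ : GQ) (D : Divisor Kb (FN N)) :
    esOp hα hβ φ D = sg N φ • sg N φ • D - heckeDivBar hα hβ (sg N φ • D) + ℓ • D := rfl

/-- `R ∘ (φ² - T_ℓ φ + ℓ)` kills the principal divisors. -/
theorem principal (hNM : N ∣ M) (hα : HeckeAlphaBarIntegral Kb N ℓ)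
    (hβ : HeckeBetaBarIntegral Kb N ℓ) (V : VData Kb (FN M) k κ)
    (red : Divisor Kb (FN M) →+ Divisor k κ)
    (h3 : ∀ f ∈ V.O, V.rd f ≠ 0 → ∀ D : Divisor Kb (FN M), (∀ P, D P = P.ord f) →
      ∀ Q, red D Q = Q.ord (V.rd f))
    (pb : Divisor Kb (FN N) →+ Divisor Kb (FN M))
    (hpb : ∀ (D : Divisor Kb (FN N)) (f : FN N), (∀ v, D v = v.ord f) →
      ∀ w, pb D w = w.ord (incl hNM f))
    (φ : GQ)
    (hT : ∀ (D : Divisor Kb (FN N)) (h : FN N), (∀ P, D P = P.ord h) →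
      ∀ P, heckeDivBar hα hβ D P = P.ord (TT N ℓ h))
    (hO : ∀ x : FN M, gal M φ x ∈ V.O ↔ x ∈ V.O)
    (hiv : ∀ h : FN N, V.rd (incl hNM h) ≠ 0 →
      V.rd (incl hNM (TT N ℓ (gal N φ h))) = V.rd (incl hNM (gal N φ (gal N φ h) * h ^ ℓ)))
    (D : Divisor Kb (FN N)) (hD : D.IsPrincipal) : red (pb (esOp hα hβ φ D)) = 0 := by
  obtain ⟨h, h0, hh⟩ := hD
  obtain ⟨c, hc0, hcO, hcr⟩ := V.scale (incl hNM h) ((map_ne_zero _).2 h0)
  set h' : FN N := algebraMap Kb (FN N) c * h with hh'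
  have hcF : algebraMap Kb (FN N) c ≠ 0 := (map_ne_zero _).2 hc0
  have h'0 : h' ≠ 0 := mul_ne_zero hcF h0
  have hD' : ∀ P, D P = P.ord h' := by
    intro P
    rw [hh', P.ord_mul hcF h0, ord_algebraMap, zero_add, hh P]
  have hx : incl hNM h' = algebraMap Kb (FN M) c * incl hNM h := by
    rw [hh', map_mul, AlgHom.commutes]
  have hxO : incl hNM h' ∈ V.O := by rw [hx]; exact hcO
  have hxr : V.rd (incl hNM h') ≠ 0 := by
    rw [V.rd_of_mem hxO]
    convert hcr using 2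
    exact Subtype.ext hx
  -- units are preserved by `gal M φ`
  have hunit : ∀ x : FN M, V.rd x ≠ 0 → V.rd (gal M φ x) ≠ 0 := by
    intro x hx
    have hx0 : x ≠ 0 := by
      rintro rfl
      exact hx V.rd_zero
    refine V.rd_ne_zero_of_inv_mem ((map_ne_zero _).2 hx0) ((hO x).2 (V.mem_of_rd_ne_zero hx)) ?_
    rw [← map_inv₀]
    exact (hO _).2 (V.inv_mem_of_rd_ne_zero hx)
  have hb : V.rd (incl hNM (gal N φ (gal N φ h') * h' ^ ℓ)) ≠ 0 := by
    rw [map_mul, map_pow, incl_gal, incl_gal]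
    have h1 := hunit _ (hunit _ hxr)
    rw [V.rd_mul (V.mem_of_rd_ne_zero h1) (pow_mem hxO _), V.rd_pow hxO]
    exact mul_ne_zero h1 (pow_ne_zero _ hxr)
  have ha : V.rd (incl hNM (TT N ℓ (gal N φ h'))) ≠ 0 := by rw [hiv h' hxr]; exact hb
  have hD1 : ∀ P, (sg N φ • D) P = P.ord (gal N φ h') := smul_div _ hD'
  have hD2 : ∀ P, (sg N φ • sg N φ • D) P = P.ord (gal N φ (gal N φ h')) := smul_div _ hD1
  have hX : ∀ P, (sg N φ • sg N φ • D + ℓ • D) P = P.ord (gal N φ (gal N φ h') * h' ^ ℓ) := by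
    intro P
    rw [P.ord_mul ((map_ne_zero _).2 ((map_ne_zero _).2 h'0)) (pow_ne_zero _ h'0), ord_pow,
      Finsupp.add_apply, hD2 P, Finsupp.smul_apply, hD' P]
    simp
  have e : esOp hα hβ φ D = (sg N φ • sg N φ • D + ℓ • D) - heckeDivBar hα hβ (sg N φ • D) := by
    rw [esOp_apply]
    abel
  rw [e, map_sub, map_sub, sub_eq_zero]
  ext Q
  rw [h3 _ (V.mem_of_rd_ne_zero hb) hb _ (hpb _ _ hX) Q,
    h3 _ (V.mem_of_rd_ne_zero ha) ha _ (hpb _ _ (hT _ _ hD1)) Q, hiv h' hxr]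

end Fermat.Agent.S37.ES
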