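import Mathlib

set_option autoImplicit false

/-! # S37 [SP1](E): a map which is additive on the elements of large degree extends to a
homomorphism -/

namespace Fermat.Agent.S37

variable {G H : Type*} [AddCommGroup G] [AddCommGroup H] (deg : G →+ ℤ) (c : ℤ) (E0 : G)
  (bar : G → H)

/-- the extension: `D ↦ bar (D + a E0) - bar (a E0)`, `a ≫ 0`. -/
noncomputable def extFun (D : G) : H :=
  bar (D + (|c| + |deg D|).toNat • E0) - bar ((|c| + |deg D|).toNat • E0)

variable {deg c E0 bar}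

theorem extFun_eq (hE0 : 0 < deg E0)
    (hadd : ∀ D1 D2, c ≤ deg D1 → c ≤ deg D2 → bar (D1 + D2) = bar D1 + bar D2)
    (D : G) (a : ℕ) (h1 : c ≤ deg D + a * deg E0) (h2 : c ≤ a * deg E0) :
    extFun deg c E0 bar D = bar (D + a • E0) - bar (a • E0) := by
  unfold extFun
  set b : ℕ := (|c| + |deg D|).toNat with hb
  have hb' : (b : ℤ) = |c| + |deg D| := Int.toNat_of_nonneg (by positivity)
  have hbE : (b : ℤ) ≤ b * deg E0 := by nlinarith [Int.natCast_nonneg b]
  have h3 : c ≤ b * deg E0 := by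
    have := le_abs_self c
    have := abs_nonneg (deg D)
    linarith
  have h4 : c ≤ deg D + b * deg E0 := by
    have := le_abs_self c
    have := neg_abs_le (deg D)
    linarith
  have e1 : bar ((D + b • E0) + a • E0) = bar (D + b • E0) + bar (a • E0) :=
    hadd _ _ (by rw [map_add, map_nsmul, nsmul_eq_mul]; exact h4)
      (by rw [map_nsmul, nsmul_eq_mul]; exact h2)
  have e2 : bar ((D + a • E0) + b • E0) = bar (D + a • E0) + bar (b • E0) :=
    hadd _ _ (by rw [map_add, map_nsmul, nsmul_eq_mul]; exact h1)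
      (by rw [map_nsmul, nsmul_eq_mul]; exact h3)
  have e3 : (D + b • E0) + a • E0 = (D + a • E0) + b • E0 := by abel
  rw [e3, e2] at e1
  rw [sub_eq_sub_iff_add_eq_add, ← e1]

/-- **(E)** -/
theorem exists_additive_extension (hE0 : 0 < deg E0)
    (hadd : ∀ D1 D2, c ≤ deg D1 → c ≤ deg D2 → bar (D1 + D2) = bar D1 + bar D2) :
    ∃ red : G →+ H, (∀ D, c ≤ deg D → red D = bar D) ∧
      ∀ (D : G) (a : ℕ), c ≤ deg D + a * deg E0 → c ≤ a * deg E0 →
        red D = bar (D + a • E0) - bar (a • E0) := by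
  have hex : ∀ D : G, ∃ a : ℕ, |c| ≤ deg D + a * deg E0 ∧ |c| ≤ a * deg E0 := by
    intro D
    have hb' : (((|c| + |deg D|).toNat : ℕ) : ℤ) = |c| + |deg D| :=
      Int.toNat_of_nonneg (by positivity)
    have hbE : (((|c| + |deg D|).toNat : ℕ) : ℤ) ≤ ((|c| + |deg D|).toNat : ℕ) * deg E0 := by
      nlinarith [Int.natCast_nonneg (|c| + |deg D|).toNat]
    have h1 := neg_abs_le (deg D)
    have h2 := abs_nonneg (deg D)
    exact ⟨(|c| + |deg D|).toNat, by linarith, by linarith⟩
  have hc := le_abs_self c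
  have hc0 := abs_nonneg c
  have hmap : ∀ D1 D2, extFun deg c E0 bar (D1 + D2) =
      extFun deg c E0 bar D1 + extFun deg c E0 bar D2 := by
    intro D1 D2
    obtain ⟨a1, h1, h1'⟩ := hex D1
    obtain ⟨a2, h2, h2'⟩ := hex D2
    rw [extFun_eq hE0 hadd D1 a1 (hc.trans h1) (hc.trans h1'),
      extFun_eq hE0 hadd D2 a2 (hc.trans h2) (hc.trans h2'),
      extFun_eq hE0 hadd (D1 + D2) (a1 + a2)
        (by rw [map_add]; push_cast; linarith) (by push_cast; linarith)]
    have e1 : bar ((D1 + a1 • E0) + (D2 + a2 • E0)) = bar (D1 + a1 • E0) + bar (D2 + a2 • E0) :=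
      hadd _ _ (by rw [map_add, map_nsmul, nsmul_eq_mul]; exact hc.trans h1)
        (by rw [map_add, map_nsmul, nsmul_eq_mul]; exact hc.trans h2)
    have e2 : bar (a1 • E0 + a2 • E0) = bar (a1 • E0) + bar (a2 • E0) :=
      hadd _ _ (by rw [map_nsmul, nsmul_eq_mul]; exact hc.trans h1')
        (by rw [map_nsmul, nsmul_eq_mul]; exact hc.trans h2')
    have e3 : D1 + D2 + (a1 + a2) • E0 = (D1 + a1 • E0) + (D2 + a2 • E0) := by
      rw [add_nsmul]; abel
    rw [e3, e1, add_nsmul, e2]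
    abel
  refine ⟨AddMonoidHom.mk' (extFun deg c E0 bar) hmap, fun D hD => ?_, fun D a h1 h2 => ?_⟩
  · obtain ⟨a, h1, h1'⟩ := hex D
    show extFun deg c E0 bar D = bar D
    rw [extFun_eq hE0 hadd D a (hc.trans h1) (hc.trans h1'),
      hadd D (a • E0) hD (by rw [map_nsmul, nsmul_eq_mul]; exact hc.trans h1')]
    abel
  · exact extFun_eq hE0 hadd D a h1 h2

end Fermat.Agent.S37
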