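import Mathlib
import Fermat.Agent.S37.RedGal
import Fermat.Prelude.Def_AlgebraicCurve_BaseChangeGalois

set_option autoImplicit false
set_option linter.style.haveILetI false
set_option linter.unusedSectionVars false

/-! # S37 [SP1]/[SP3]: semilinear automorphisms and the specialisation map (abstract) -/

namespace Fermat.Agent.S37.Red

open AlgebraicCurve Fermat.Agent.S18 Fermat.Agent.S18.R1 Module

variable {L F k κ : Type} [Field L] [Field F] [Algebra L F] [Field k] [Field κ] [Algebra k κ]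

theorem mem_Lof_smul (g : SemilinearAut L F) (D : Divisor L F) (y : F) :
    y ∈ Lof ((g • D : Divisor L F) : Place L F → ℤ) ↔ g⁻¹ • y ∈ Lof (D : Place L F → ℤ) := by
  rw [mem_Lof, mem_Lof]
  refine or_congr ?_ ?_
  · exact (smul_eq_zero_iff_eq g⁻¹).symm
  · constructor
    · intro h P
      have h1 := h (g • P)
      rw [SemilinearAut.divisor_smul_apply_smul] at h1
      have h2 := SemilinearAut.ord_smul g P (g⁻¹ • y)
      rw [smul_inv_smul] at h2
      rw [← h2]
      exact h1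
    · intro h P
      have h1 := h (g⁻¹ • P)
      rw [SemilinearAut.divisor_smul_apply]
      have h2 := SemilinearAut.ord_smul g⁻¹ P y
      rw [← h2]
      exact h1

theorem smul_mem_Lof_smul (g : SemilinearAut L F) (D : Divisor L F) (y : F) :
    g • y ∈ Lof ((g • D : Divisor L F) : Place L F → ℤ) ↔ y ∈ Lof (D : Place L F → ℤ) := by
  rw [mem_Lof_smul, inv_smul_smul]

variable {V : VData L F k κ} {red : Divisor L F →+ Divisor k κ}

/-- the reduction of `L(g • D)` is the image of the reduction of `L(D)`. -/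
theorem mem_redSpace_smul {g : SemilinearAut L F} {Fr : κ → κ}
    (hO : ∀ x : F, g • x ∈ V.O ↔ x ∈ V.O) (hrd : ∀ x ∈ V.O, V.rd (g • x) = Fr (V.rd x))
    (D : Divisor L F) (y : κ) :
    y ∈ V.redSpace (Lof ((g • D : Divisor L F) : Place L F → ℤ)) ↔
      ∃ z ∈ V.redSpace (Lof (D : Place L F → ℤ)), Fr z = y := by
  constructor
  · rintro ⟨x, hx, hxO, rfl⟩
    have hO' : g⁻¹ • x ∈ V.O := by rw [← hO, smul_inv_smul]; exact hxO
    refine ⟨V.rd (g⁻¹ • x), ⟨g⁻¹ • x, (mem_Lof_smul g D x).1 hx, hO', rfl⟩, ?_⟩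
    rw [← hrd _ hO', smul_inv_smul]
  · rintro ⟨z, ⟨x, hx, hxO, rfl⟩, rfl⟩
    exact ⟨g • x, (smul_mem_Lof_smul g D x).2 hx, (hO x).2 hxO, hrd x hxO⟩

/-- the additive endomorphism of the divisor group given by `g`. -/
noncomputable def smulHom (g : SemilinearAut L F) : Divisor L F →+ Divisor L F :=
  DistribSMul.toAddMonoidHom (Divisor L F) g

@[simp] theorem smulHom_apply (g : SemilinearAut L F) (D : Divisor L F) : smulHom g D = g • D := rfl

namespace IsRed

/-- variant of `comp_congr`. -/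
theorem comp_congr' (h : IsRed V red) (X₀ : Divisor L F) (hX₀ : 0 < Divisor.degree X₀)
    (s : Divisor L F →+ Divisor L F) (hs : ∀ D, Divisor.degree (s D) = Divisor.degree D)
    (hR : ∀ D D' : Divisor L F, V.redSpace (Lof (D : Place L F → ℤ)) =
      V.redSpace (Lof (D' : Place L F → ℤ)) → V.redSpace (Lof (s D : Place L F → ℤ)) =
      V.redSpace (Lof (s D' : Place L F → ℤ)))
    {D₁ D₂ : Divisor L F} (h12 : red D₁ = red D₂) : red (s D₁) = red (s D₂) := by
  obtain ⟨c, hc⟩ := h.inj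
  obtain ⟨c', hc'⟩ := h.eq_Lof
  have hdeg : Divisor.degree D₁ = Divisor.degree D₂ := by
    rw [← h.degree_eq D₁, ← h.degree_eq D₂, h12]
  obtain ⟨X, hX1, hX2⟩ := exists_large Divisor.degree X₀ hX₀ (max c c') D₁
  have hX3 : max c c' ≤ Divisor.degree (D₂ + X) := by
    rw [map_add, ← hdeg, ← map_add]; exact hX2
  have e1 : V.redSpace (Lof (D₁ + X : Divisor L F)) = V.redSpace (Lof (D₂ + X : Divisor L F)) := by
    rw [hc' _ (le_trans (le_max_right _ _) hX2), hc' _ (le_trans (le_max_right _ _) hX3),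
      map_add, map_add, h12]
  have h1 := hc _ _ (by rw [hs]; exact le_trans (le_max_left _ _) hX2)
    (by rw [hs]; exact le_trans (le_max_left _ _) hX3) (hR _ _ e1)
  rw [map_add, map_add, map_add, map_add] at h1
  exact add_right_cancel h1

/-- two semilinear automorphisms inducing the same map on the residue field. -/
theorem red_smul_eq (h : IsRed V red) (X₀ : Divisor L F) (hX₀ : 0 < Divisor.degree X₀)
    {g₁ g₂ : SemilinearAut L F} {Fr : κ → κ}
    (hO₁ : ∀ x : F, g₁ • x ∈ V.O ↔ x ∈ V.O) (hrd₁ : ∀ x ∈ V.O, V.rd (g₁ • x) = Fr (V.rd x))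
    (hO₂ : ∀ x : F, g₂ • x ∈ V.O ↔ x ∈ V.O) (hrd₂ : ∀ x ∈ V.O, V.rd (g₂ • x) = Fr (V.rd x))
    (E : Divisor L F) : red (g₁ • E) = red (g₂ • E) :=
  h.comp_eq X₀ hX₀ (smulHom g₁) (smulHom g₂) (fun D => SemilinearAut.degree_smul g₁ D)
    (fun D => SemilinearAut.degree_smul g₂ D)
    (fun D => by
      ext y
      rw [smulHom_apply, smulHom_apply, mem_redSpace_smul hO₁ hrd₁, mem_redSpace_smul hO₂ hrd₂]) E

/-- a semilinear automorphism inducing the identity on the residue field. -/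
theorem red_smul_self (h : IsRed V red) (X₀ : Divisor L F) (hX₀ : 0 < Divisor.degree X₀)
    {g : SemilinearAut L F}
    (hO : ∀ x : F, g • x ∈ V.O ↔ x ∈ V.O) (hrd : ∀ x ∈ V.O, V.rd (g • x) = V.rd x)
    (E : Divisor L F) : red (g • E) = red E :=
  h.comp_eq X₀ hX₀ (smulHom g) (AddMonoidHom.id _) (fun D => SemilinearAut.degree_smul g D)
    (fun _ => rfl)
    (fun D => by
      ext y
      rw [smulHom_apply, mem_redSpace_smul (Fr := id) hO hrd]
      simp) E

theorem red_smul_congr (h : IsRed V red) (X₀ : Divisor L F) (hX₀ : 0 < Divisor.degree X₀)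
    {g : SemilinearAut L F} {Fr : κ → κ}
    (hO : ∀ x : F, g • x ∈ V.O ↔ x ∈ V.O) (hrd : ∀ x ∈ V.O, V.rd (g • x) = Fr (V.rd x))
    {D₁ D₂ : Divisor L F} (h12 : red D₁ = red D₂) : red (g • D₁) = red (g • D₂) :=
  h.comp_congr' X₀ hX₀ (smulHom g) (fun D => SemilinearAut.degree_smul g D)
    (fun D D' hDD' => by
      ext y
      rw [smulHom_apply, smulHom_apply, mem_redSpace_smul hO hrd, mem_redSpace_smul hO hrd,
        hDD']) h12

theorem red_smul_principal (h : IsRed V red) (X₀ : Divisor L F) (hX₀ : 0 < Divisor.degree X₀)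
    {g : SemilinearAut L F} {Fr : κ → κ}
    (hO : ∀ x : F, g • x ∈ V.O ↔ x ∈ V.O) (hrd : ∀ x ∈ V.O, V.rd (g • x) = Fr (V.rd x))
    (hdiv : ∀ f : F, f ≠ 0 → ∃ D : Divisor L F, ∀ P, D P = P.ord f) {E : Divisor L F}
    (hE : Divisor.IsPrincipal (red E)) : Divisor.IsPrincipal (red (g • E)) := by
  obtain ⟨h0, hh0, hDh⟩ := hE
  obtain ⟨f, hfO, hf⟩ := V.rd_surj h0
  have hf' : V.rd f ≠ 0 := by rw [hf]; exact hh0
  have hf0 : f ≠ 0 := by rintro rfl; exact hf' V.rd_zero
  obtain ⟨Df, hDf⟩ := hdiv f hf0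
  have h1 : red E = red Df := by
    ext Q
    rw [hDh, h.principal f hfO hf' Df hDf, hf]
  rw [h.red_smul_congr X₀ hX₀ hO hrd h1]
  have hgf0 : g • f ≠ 0 := by simpa using hf0
  have hgO : g • f ∈ V.O := (hO f).2 hfO
  have hgO' : (g • f)⁻¹ ∈ V.O := by
    rw [← smul_inv'' g f]
    exact (hO _).2 (V.inv_mem_of_rd_ne_zero hf')
  have hne : V.rd (g • f) ≠ 0 := V.rd_ne_zero_of_inv_mem hgf0 hgO hgO'
  refine ⟨V.rd (g • f), hne, h.principal _ hgO hne _ fun P => ?_⟩
  rw [SemilinearAut.divisor_smul_apply, hDf]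
  have h2 := SemilinearAut.ord_smul g (g⁻¹ • P) f
  rw [smul_inv_smul] at h2
  exact h2.symm

theorem red_principal (h : IsRed V red) {E : Divisor L F} (hE : Divisor.IsPrincipal E) :
    Divisor.IsPrincipal (red E) := h.isPrincipal hE

end IsRed

end Fermat.Agent.S37.Red
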