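import Mathlib
import Fermat.Agent.S37.Lvl

set_option autoImplicit false
set_option linter.unusedSectionVars false
set_option synthInstance.maxHeartbeats 400000

/-! # S37 [P1]: the pull-back of divisors commutes with semilinear automorphisms -/

namespace Fermat.Agent.S37

open AlgebraicCurve ModularCurve Fermat.Agent.S24
open scoped Pointwise

section general

variable {K F F' : Type*} [Field K] [Field F] [Field F'] [Algebra K F] [Algebra K F']

theorem restrictAlong_smul (φ : F →ₐ[K] F') (hφ : φ.toRingHom.IsIntegral)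
    {g : SemilinearAut K F} {g' : SemilinearAut K F'}
    (h : SemilinearAut.IntertwinesAlong (φ : F →+* F') g g') (w : Place K F') :
    (g' • w).restrictAlong φ hφ = g • w.restrictAlong φ hφ := by
  apply Place.ext
  ext x
  have e : g'⁻¹ • φ x = φ (g⁻¹ • x) := h.inv x
  show φ x ∈ g' • w.toValuationSubring ↔ x ∈ g • (w.restrictAlong φ hφ).toValuationSubring
  rw [ValuationSubring.mem_pointwise_smul_iff_inv_smul_mem,
    ValuationSubring.mem_pointwise_smul_iff_inv_smul_mem, e]
  rfl

theorem ramificationIndexAlong_smul (φ : F →ₐ[K] F')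
    {g : SemilinearAut K F} {g' : SemilinearAut K F'}
    (h : SemilinearAut.IntertwinesAlong (φ : F →+* F') g g') (w : Place K F') :
    (g' • w).ramificationIndexAlong φ = w.ramificationIndexAlong φ := by
  have key : ∀ f : F, (g' • w).ord (φ (g • f)) = w.ord (φ f) := by
    intro f
    have e : g' • φ f = φ (g • f) := h f
    rw [← e, SemilinearAut.ord_smul]
  show sInf {n : ℕ | 0 < n ∧ ∃ f : F, f ≠ 0 ∧ (g' • w).ord (φ f) = n} =
    sInf {n : ℕ | 0 < n ∧ ∃ f : F, f ≠ 0 ∧ w.ord (φ f) = n}
  congr 1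
  ext n
  constructor
  · rintro ⟨hn, f, hf, hfn⟩
    refine ⟨hn, g⁻¹ • f, by simpa using hf, ?_⟩
    rw [← key, smul_inv_smul, hfn]
  · rintro ⟨hn, f, hf, hfn⟩
    exact ⟨hn, g • f, by simpa using hf, by rw [key, hfn]⟩

/-- **[P1]** -/
theorem pullbackAlong_smul [HasPrincipalDivisors K F'] (φ : F →ₐ[K] F')
    (hφ : φ.toRingHom.IsIntegral) {g : SemilinearAut K F} {g' : SemilinearAut K F'}
    (h : SemilinearAut.IntertwinesAlong (φ : F →+* F') g g') (D : Divisor K F) :
    Divisor.pullbackAlong φ hφ (g • D) = g' • Divisor.pullbackAlong φ hφ D := by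
  ext w
  rw [Divisor.pullbackAlong_apply, SemilinearAut.divisor_smul_apply,
    SemilinearAut.divisor_smul_apply, Divisor.pullbackAlong_apply,
    restrictAlong_smul φ hφ h.inv, ramificationIndexAlong_smul φ h.inv]

end general

theorem pb_smul {N M : ℕ} [NeZero N] [NeZero M] (hNM : N ∣ M) [HasPrincipalDivisors Kb (FN M)]
    (σ : Kb ≃ₐ[ℚ] Kb) (D : Divisor Kb (FN N)) :
    pb hNM (sg N σ • D) = sg M σ • pb hNM D :=
  pullbackAlong_smul (incl hNM) (incl_integral hNM) (intertwines hNM σ) D

end Fermat.Agent.S37
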