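import Mathlib
import Fermat.Agent.S24.Dedekind
import Fermat.Prelude.Def_AlgebraicCurve_Correspondence

set_option autoImplicit false
set_option linter.style.haveILetI false
set_option linter.unusedSectionVars false

/-! # S37 [SP4b]: the norm formula for the push-forward of divisors, via the relative norm of
ideals -/

namespace Fermat.Agent.S37.NR

open AlgebraicCurve IsDedekindDomain WithZero Module Fermat.Agent.S24

section ideals

variable {R A : Type} [CommRing R] [IsDedekindDomain R] [CommRing A] [IsDedekindDomain A]
  [Algebra R A] [Module.Finite R A] [IsTorsionFree R A] [PerfectField (FractionRing R)]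

/-- the multiplicity of `P` in `I`. -/
noncomputable def cnt (P : HeightOneSpectrum A) (I : Ideal A) : ℕ :=
  (Associates.mk P.asIdeal).count (Associates.mk I).factors

theorem relNorm_eq_pow (p : Ideal R) [p.IsMaximal]
    (hP : ∀ P : HeightOneSpectrum A, P.asIdeal.LiesOver p)
    (hf : ∀ P : HeightOneSpectrum A, P.asIdeal.inertiaDeg R = 1)
    [Fintype (HeightOneSpectrum A)] (I : Ideal A) (hI : I ≠ ⊥) :
    Ideal.relNorm R I = p ^ (∑ P : HeightOneSpectrum A, cnt P I) := by
  conv_lhs => rw [← Ideal.finprod_heightOneSpectrum_factorization hI]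
  rw [finprod_eq_prod_of_fintype, map_prod, ← Finset.prod_pow_eq_pow_sum]
  refine Finset.prod_congr rfl fun P _ => ?_
  haveI := hP P
  haveI : P.asIdeal.IsMaximal := P.isMaximal
  rw [HeightOneSpectrum.maxPowDividing, map_pow, Ideal.relNorm_eq_pow_of_isMaximal P.asIdeal p,
    hf P, pow_one]
  rfl

theorem cnt_pow_self (p : HeightOneSpectrum R) (m : ℕ) : cnt p (p.asIdeal ^ m) = m := by
  classical
  rw [cnt, Associates.mk_pow, Associates.count_pow (Associates.mk_ne_zero.2 p.ne_bot)
    p.associates_irreducible, Associates.count_self p.associates_irreducible, mul_one]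

end ideals

section ord

variable {K F : Type} [Field K] [Field F] [Algebra K F]
variable {A : Type} [CommRing A] [IsDedekindDomain A] [Algebra A F] [IsFractionRing A F]
  [Algebra K A] [IsScalarTower K A F]

theorem ord_algebraMap_eq_cnt (P : HeightOneSpectrum A) (a : A) (ha : a ≠ 0) :
    (Place.ofHeightOneSpectrum (K := K) P).ord (algebraMap A F a) = cnt P (Ideal.span {a}) := by
  rw [ord_ofHeightOneSpectrum, HeightOneSpectrum.valuation_of_algebraMap,
    HeightOneSpectrum.intValuation_if_neg _ ha, log_exp, neg_neg]
  rfl

end ord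

section abs

variable {K F F' : Type} [Field K] [Field F] [Field F'] [Algebra K F] [Algebra K F']
  [Algebra F F'] [FiniteDimensional F F']
variable {R A : Type} [CommRing R] [IsDedekindDomain R] [CommRing A] [IsDedekindDomain A]
  [Algebra R A] [Module.Finite R A] [IsTorsionFree R A] [PerfectField (FractionRing R)]
  [Algebra R F] [IsFractionRing R F] [Algebra A F'] [IsFractionRing A F'] [Algebra R F']
  [IsScalarTower R A F'] [IsScalarTower R F F'] [Algebra K R] [IsScalarTower K R F]
  [Algebra K A] [IsScalarTower K A F']

theorem ord_norm_algebraMap (p : HeightOneSpectrum R)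
    (hP : ∀ P : HeightOneSpectrum A, P.asIdeal.LiesOver p.asIdeal)
    (hf : ∀ P : HeightOneSpectrum A, P.asIdeal.inertiaDeg R = 1)
    [Fintype (HeightOneSpectrum A)] (a : A) (ha : a ≠ 0) :
    (Place.ofHeightOneSpectrum (K := K) p).ord (Algebra.norm F (algebraMap A F' a)) =
      ∑ P : HeightOneSpectrum A, (Place.ofHeightOneSpectrum (K := K) P).ord (algebraMap A F' a) := by
  haveI : Algebra.IsIntegral R A := Algebra.IsIntegral.of_finite R A
  haveI : IsIntegralClosure A R F' := IsIntegralClosure.of_isIntegrallyClosed A R F'
  haveI : p.asIdeal.IsMaximal := p.isMaximal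
  have hne : Algebra.intNorm R A a ≠ 0 := by
    intro h0
    have h1 := Algebra.algebraMap_intNorm (A := R) (K := F) (L := F') (B := A) a
    rw [h0, map_zero, eq_comm, Algebra.norm_eq_zero_iff] at h1
    exact ha ((IsFractionRing.injective A F') (by rw [h1, map_zero]))
  rw [← Algebra.algebraMap_intNorm (A := R) (K := F) (L := F') (B := A) a,
    ord_algebraMap_eq_cnt p _ hne, ← Ideal.relNorm_singleton,
    relNorm_eq_pow p.asIdeal hP hf _ (by simpa using ha), cnt_pow_self, Nat.cast_sum]
  exact Finset.sum_congr rfl fun P _ => (ord_algebraMap_eq_cnt P a ha).symm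

theorem ord_norm (p : HeightOneSpectrum R)
    (hP : ∀ P : HeightOneSpectrum A, P.asIdeal.LiesOver p.asIdeal)
    (hf : ∀ P : HeightOneSpectrum A, P.asIdeal.inertiaDeg R = 1)
    [Fintype (HeightOneSpectrum A)] (f : F') (hf0 : f ≠ 0) :
    (Place.ofHeightOneSpectrum (K := K) p).ord (Algebra.norm F f) =
      ∑ P : HeightOneSpectrum A, (Place.ofHeightOneSpectrum (K := K) P).ord f := by
  obtain ⟨a, b, hb, rfl⟩ := IsFractionRing.div_surjective (A := A) f
  have hb0 : b ≠ 0 := nonZeroDivisors.ne_zero hb
  have hb1 : algebraMap A F' b ≠ 0 := by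
    intro h; exact hb0 ((IsFractionRing.injective A F') (by rw [h, map_zero]))
  have ha1 : algebraMap A F' a ≠ 0 := by
    intro h; apply hf0; rw [h, zero_div]
  have ha0 : a ≠ 0 := by rintro rfl; exact ha1 (map_zero _)
  have hinv : Algebra.norm F (algebraMap A F' b)⁻¹ = (Algebra.norm F (algebraMap A F' b))⁻¹ := by
    apply eq_inv_of_mul_eq_one_left
    rw [← map_mul, inv_mul_cancel₀ hb1, map_one]
  rw [div_eq_mul_inv, map_mul, hinv, Place.ord_mul _ (Algebra.norm_ne_zero_iff.2 ha1)
    (inv_ne_zero (Algebra.norm_ne_zero_iff.2 hb1)), Place.ord_inv,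
    ord_norm_algebraMap p hP hf a ha0, ord_norm_algebraMap p hP hf b hb0, ← sub_eq_add_neg,
    ← Finset.sum_sub_distrib]
  refine Finset.sum_congr rfl fun P _ => ?_
  rw [Place.ord_mul _ ha1 (inv_ne_zero hb1), Place.ord_inv, sub_eq_add_neg]

end abs

section abs2

variable {K F F' : Type} [Field K] [Field F] [Field F'] [Algebra K F] [Algebra K F']
  [Algebra F F'] [IsScalarTower K F F'] [FiniteDimensional F F'] [IsAlgClosed K]
variable {R A : Type} [CommRing R] [IsDedekindDomain R] [IsLocalRing R] [CommRing A]
  [IsDedekindDomain A]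
  [Algebra R A] [Module.Finite R A] [IsTorsionFree R A] [PerfectField (FractionRing R)]
  [Algebra R F] [IsFractionRing R F] [Algebra A F'] [IsFractionRing A F'] [Algebra R F']
  [IsScalarTower R A F'] [IsScalarTower R F F'] [Algebra K R] [IsScalarTower K R F]
  [Algebra K A] [IsScalarTower K A F']

theorem heightOneSpectrum_eq (p p' : HeightOneSpectrum R) : p = p' :=
  HeightOneSpectrum.ext ((IsLocalRing.eq_maximalIdeal p.isMaximal).trans
    (IsLocalRing.eq_maximalIdeal p'.isMaximal).symm)

theorem liesOver (p : HeightOneSpectrum R) (P : HeightOneSpectrum A) :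
    P.asIdeal.LiesOver p.asIdeal := by
  haveI : Algebra.IsIntegral R A := Algebra.IsIntegral.of_finite R A
  haveI : P.asIdeal.IsMaximal := P.isMaximal
  have h1 : (P.asIdeal.under R).IsMaximal :=
    Ideal.isMaximal_comap_of_isIntegral_of_isMaximal P.asIdeal
  exact ⟨(IsLocalRing.eq_maximalIdeal p.isMaximal).trans (IsLocalRing.eq_maximalIdeal h1).symm⟩

theorem restrict_eq_iff (p : HeightOneSpectrum R) (w : Place K F') :
    w.restrict F = Place.ofHeightOneSpectrum (K := K) p ↔
      ∃ P : HeightOneSpectrum A, w = Place.ofHeightOneSpectrum (K := K) P := by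
  haveI : Algebra.IsIntegral R A := Algebra.IsIntegral.of_finite R A
  constructor
  · intro h
    have hR : ∀ r : R, algebraMap R F' r ∈ w.toValuationSubring := by
      intro r
      have h1 : algebraMap R F r ∈ (w.restrict F).toValuationSubring := by
        rw [h]
        exact p.valuation_le_one r
      rw [IsScalarTower.algebraMap_apply R F F']
      exact h1
    refine exists_eq_ofHeightOneSpectrum w fun a => ?_
    apply algebraMap_mem_of_isIntegral w hR
    exact (Algebra.IsIntegral.isIntegral (R := R) a).map (IsScalarTower.toAlgHom R A F')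
  · rintro ⟨P, rfl⟩
    obtain ⟨p', hp'⟩ := exists_eq_ofHeightOneSpectrum (A := R)
      ((Place.ofHeightOneSpectrum (K := K) (F := F') P).restrict F) (fun r => by
        show algebraMap F F' (algebraMap R F r) ∈
          (Place.ofHeightOneSpectrum (K := K) (F := F') P).toValuationSubring
        rw [← IsScalarTower.algebraMap_apply R F F', IsScalarTower.algebraMap_apply R A F']
        exact P.valuation_le_one _)
    rw [hp', heightOneSpectrum_eq p' p]

end abs2

section abs3

variable {K F F' : Type} [Field K] [Field F] [Field F'] [Algebra K F] [Algebra K F']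
  [Algebra F F'] [IsScalarTower K F F'] [FiniteDimensional F F'] [IsAlgClosed K]
variable {R : Type} [CommRing R] [IsDedekindDomain R] [IsLocalRing R]
  [PerfectField (FractionRing R)] [Algebra R F] [IsFractionRing R F] [Algebra R F']
  [IsScalarTower R F F'] [Algebra K R] [IsScalarTower K R F]

theorem pushforward_apply_eq (A : Type) [CommRing A] [IsDedekindDomain A]
    [Algebra R A] [Module.Finite R A] [IsTorsionFree R A] [Algebra A F'] [IsFractionRing A F']
    [IsScalarTower R A F'] [Algebra K A] [IsScalarTower K A F']
    [HasPrincipalDivisors K F'] (p : HeightOneSpectrum R)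
    (e : K ≃+* R ⧸ p.asIdeal) (hin : ∀ w : Place K F', w.inertiaDeg F = 1)
    (f : F') (hf0 : f ≠ 0) (D : Divisor K F') (hD : ∀ w, D w = w.ord f) :
    Divisor.pushforward F D (Place.ofHeightOneSpectrum (K := K) p) =
      (Place.ofHeightOneSpectrum (K := K) p).ord (Algebra.norm F f) := by
  classical
  haveI : Finite (HeightOneSpectrum A) := by
    have hfin := Place.restrict_fiber_finite (K := K) (F := F) (F' := F')
      (Place.ofHeightOneSpectrum (K := K) p)
    haveI := hfin.to_subtype
    refine Finite.of_injective (fun P : HeightOneSpectrum A =>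
      (⟨Place.ofHeightOneSpectrum (K := K) P, (restrict_eq_iff p _).2 ⟨P, rfl⟩⟩ :
        {w : Place K F' | w.restrict F = Place.ofHeightOneSpectrum (K := K) p})) ?_
    intro P P' h
    exact ofHeightOneSpectrum_injective (K := K) (F := F') (congrArg Subtype.val h)
  letI : Fintype (HeightOneSpectrum A) := Fintype.ofFinite _
  haveI : p.asIdeal.IsMaximal := p.isMaximal
  have hf : ∀ P : HeightOneSpectrum A, P.asIdeal.inertiaDeg R = 1 := by
    intro P
    haveI := liesOver p P
    haveI : P.asIdeal.IsMaximal := P.isMaximal
    rw [← Ideal.inertiaDeg'_eq_inertiaDeg p.asIdeal P.asIdeal]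
    exact inertiaDeg_eq_one p.asIdeal e P.asIdeal
  rw [ord_norm p (liesOver p) hf f hf0, Divisor.pushforward_apply, ← Finset.sum_filter]
  have himg : ∑ P : HeightOneSpectrum A, (Place.ofHeightOneSpectrum (K := K) P).ord f =
      ∑ w ∈ Finset.univ.image (fun P : HeightOneSpectrum A =>
        Place.ofHeightOneSpectrum (K := K) (F := F') P), w.ord f := by
    rw [Finset.sum_image]
    intro P _ P' _ h
    exact ofHeightOneSpectrum_injective (K := K) (F := F') h
  rw [himg]
  refine Finset.sum_subset_zero_on_sdiff ?_ ?_ ?_
  · intro w hw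
    rw [Finset.mem_filter] at hw
    obtain ⟨P, rfl⟩ := (restrict_eq_iff (A := A) p w).1 hw.2
    exact Finset.mem_image_of_mem _ (Finset.mem_univ P)
  · intro w hw
    rw [Finset.mem_sdiff, Finset.mem_image, Finset.mem_filter, Finsupp.mem_support_iff] at hw
    obtain ⟨⟨P, -, rfl⟩, h2⟩ := hw
    by_contra h3
    exact h2 ⟨by rw [hD]; exact h3, (restrict_eq_iff p _).2 ⟨P, rfl⟩⟩
  · intro w _
    rw [hD, hin, Nat.cast_one, mul_one]

end abs3

section concrete

variable {K F F' : Type} [Field K] [Field F] [Field F'] [Algebra K F] [Algebra K F']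
  [Algebra F F'] [IsScalarTower K F F'] [FiniteDimensional F F'] [IsAlgClosed K] [CharZero K]

theorem bijective_algebraMap_residue (v : Place K F) (hv : v.deg = 1) :
    Function.Bijective (algebraMap K v.ResidueField) := by
  have h1 : Module.finrank K v.ResidueField = 1 := hv
  have h2 : (⊥ : Subalgebra K v.ResidueField) = ⊤ := Subalgebra.bot_eq_top_of_finrank_eq_one h1
  exact Algebra.bijective_algebraMap_iff.2 h2.symm

theorem inertiaDeg_eq_one_of_deg (hdeg : ∀ v : Place K F, v.deg = 1)
    (hdeg' : ∀ w : Place K F', w.deg = 1) (w : Place K F') : w.inertiaDeg F = 1 := by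
  have h := w.deg_restrict_mul_inertiaDeg (F := F)
  rw [hdeg, hdeg', one_mul] at h
  exact h

/-- **[SP4b]** the norm formula. -/
theorem pushforwardNormFormula [HasPrincipalDivisors K F'] (hdeg : ∀ v : Place K F, v.deg = 1)
    (hdeg' : ∀ w : Place K F', w.deg = 1) : Divisor.PushforwardNormFormula K F F' := by
  intro f hf0 D hD v
  haveI : CharZero F := charZero_of_injective_algebraMap (algebraMap K F).injective
  letI : Algebra v.toValuationSubring F' :=
    ((algebraMap F F').comp (algebraMap v.toValuationSubring F)).toAlgebra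
  haveI : IsScalarTower v.toValuationSubring F F' := IsScalarTower.of_algebraMap_eq' rfl
  haveI : IsTorsionFree v.toValuationSubring F' := by
    rw [isTorsionFree_iff_algebraMap_injective]
    exact (algebraMap F F').injective.comp (IsFractionRing.injective v.toValuationSubring F)
  haveI : IsTorsionFree v.toValuationSubring (integralClosure v.toValuationSubring F') :=
    Subalgebra.instIsTorsionFree _
  haveI : IsDedekindDomain (integralClosure v.toValuationSubring F') :=
    integralClosure.isDedekindDomain v.toValuationSubring F F'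
  haveI : Module.Finite v.toValuationSubring (integralClosure v.toValuationSubring F') :=
    IsIntegralClosure.finite v.toValuationSubring F F' _
  haveI : IsFractionRing (integralClosure v.toValuationSubring F') F' :=
    integralClosure.isFractionRing_of_finite_extension F F'
  letI : Algebra K (integralClosure v.toValuationSubring F') :=
    ((algebraMap v.toValuationSubring (integralClosure v.toValuationSubring F')).comp
      (algebraMap K v.toValuationSubring)).toAlgebra
  haveI : IsScalarTower K (integralClosure v.toValuationSubring F') F' :=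
    IsScalarTower.of_algebraMap_eq fun x => by
      rw [IsScalarTower.algebraMap_apply K F F']
      rfl
  haveI : CharZero (FractionRing v.toValuationSubring) :=
    charZero_of_injective_algebraMap
      (IsFractionRing.injective v.toValuationSubring (FractionRing v.toValuationSubring))
  obtain ⟨p, hp⟩ := exists_eq_ofHeightOneSpectrum (A := v.toValuationSubring) v (fun a => a.2)
  have hpm : p.asIdeal = IsLocalRing.maximalIdeal v.toValuationSubring :=
    IsLocalRing.eq_maximalIdeal p.isMaximal
  let e0 : K ≃+* v.ResidueField :=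
    RingEquiv.ofBijective (algebraMap K v.ResidueField) (bijective_algebraMap_residue v (hdeg v))
  let e : K ≃+* v.toValuationSubring ⧸ p.asIdeal :=
    e0.trans (Ideal.quotEquivOfEq hpm.symm)
  have key := pushforward_apply_eq (K := K) (F := F) (F' := F')
    (integralClosure v.toValuationSubring F') p e (inertiaDeg_eq_one_of_deg hdeg hdeg') f hf0 D hD
  rw [← hp] at key
  exact key

end concrete

section along

variable {K F F' : Type} [Field K] [Field F] [Field F'] [Algebra K F] [Algebra K F']
  [IsAlgClosed K] [CharZero K]

theorem normFormulaAlong (φ : F →ₐ[K] F') (hfin : FiniteAlong K φ) [HasPrincipalDivisors K F']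
    (hdeg : ∀ v : Place K F, v.deg = 1) (hdeg' : ∀ w : Place K F', w.deg = 1) :
    NormFormulaAlong K φ hfin := by
  letI := algebraAlong φ
  haveI := isScalarTower_along φ
  haveI : Module.Finite F F' := hfin
  exact pushforwardNormFormula hdeg hdeg'

end along

end Fermat.Agent.S37.NR
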