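import Mathlib
import Fermat.Agent.S37.NormRel
import Fermat.Agent.S37.FI

set_option autoImplicit false
set_option linter.style.haveILetI false
set_option linter.unusedSectionVars false

/-! # S37 [SP4b]: the norm formula and the Hecke inputs for the modular function fields -/

namespace Fermat.Agent.S37.NR

open AlgebraicCurve ModularCurve Fermat.Agent.S24 Fermat.Agent.S18

theorem deg_FN (M : ℕ) [NeZero M] (v : Place Kb (FN M)) : v.deg = 1 :=
  haveI := ModB.finiteDimensional_FN M
  deg_eq_one (jF M) (transcendental_jF M) v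

variable (N ℓ : ℕ) [NeZero N] [NeZero ℓ]

theorem normFormulaAlong_alpha (hfin : FiniteAlong Kb (heckeAlphaBar Kb N ℓ)) :
    NormFormulaAlong Kb (heckeAlphaBar Kb N ℓ) hfin :=
  haveI := hasPrincipalDivisors_FN (N * ℓ)
  normFormulaAlong _ hfin (deg_FN N) (deg_FN (N * ℓ))

theorem normFormulaAlong_beta (hfin : FiniteAlong Kb (heckeBetaBar Kb N ℓ)) :
    NormFormulaAlong Kb (heckeBetaBar Kb N ℓ) hfin :=
  haveI := hasPrincipalDivisors_FN (N * ℓ)
  normFormulaAlong _ hfin (deg_FN N) (deg_FN (N * ℓ))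

theorem heckeInputsAlong : HeckeInputsAlong Kb N ℓ :=
  haveI := hasPrincipalDivisors_FN (N * ℓ)
  heckeInputsAlong_intro (heckeAlphaBarIntegral N ℓ) (heckeBetaBarIntegral N ℓ)
    (fundamentalIdentityAlong_beta N ℓ _) (finiteAlong_alpha N ℓ)
    (normFormulaAlong_alpha N ℓ _)

end Fermat.Agent.S37.NR
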