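import Mathlib
import Fermat.Prelude.Def_HeckeGalois_EichlerShimura

/-!
# S37 [SP7]: from an additive map `sp0` to a specialization datum

Hecke compatibility is obtained for free by dividing by the largest Hecke submodule contained in
the kernel of `sp0`.
-/

set_option autoImplicit false
set_option linter.unusedSectionVars false

namespace Fermat.Agent.S37

open ModularCurve

variable {K L : Type*} [Field K] [Field L] [Algebra K L]
variable {J : Type} [AddCommGroup J] [Module HeckeAlg J]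
  [DistribMulAction (L ≃ₐ[K] L) J] [SMulCommClass (L ≃ₐ[K] L) HeckeAlg J]
variable {J0 : Type*} [AddCommGroup J0]

/-- the largest Hecke submodule contained in the kernel of `sp0`. -/
def heckeKer (sp0 : J →+ J0) : Submodule HeckeAlg J where
  carrier := {x | ∀ T : HeckeAlg, sp0 (T • x) = 0}
  zero_mem' := fun T => by rw [smul_zero, map_zero]
  add_mem' := fun {x y} hx hy T => by rw [smul_add, map_add, hx T, hy T, add_zero]
  smul_mem' := fun c x hx T => by rw [smul_smul]; exact hx _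

theorem mem_heckeKer {sp0 : J →+ J0} {x : J} :
    x ∈ heckeKer sp0 ↔ ∀ T : HeckeAlg, sp0 (T • x) = 0 := Iff.rfl

theorem exists_specialization (p : ℕ) (A : ValuationSubring L) (ℓ : ℕ) (hℓ : ℓ.Prime)
    (sp0 : J →+ J0) (φ : L ≃ₐ[K] L) (hφ : A.IsFrobeniusAt φ ℓ)
    (ha : ∀ σ ∈ A.inertiaSubgroupIn K, ∀ x : J, sp0 (σ • x) = sp0 x)
    (hb : ∀ z : J, sp0 z = 0 → sp0 (φ • z) = 0)
    (hb' : ∀ σ : L ≃ₐ[K] L, A.IsFrobeniusAt σ ℓ → ∀ z : J, sp0 (σ • z) = sp0 (φ • z))
    (hc : ∀ x : J, (∃ n : ℕ, p ^ n • x = 0) → sp0 x = 0 → x = 0)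
    (hd : ∀ x : J, sp0 (φ • φ • x - heckeGen ⟨ℓ, hℓ⟩ • (φ • x) + ℓ • x) = 0) :
    ∃ (J' : Type) (_ : AddCommGroup J') (_ : Module HeckeAlg J') (sp : J →+ J')
      (F : J' →+ J'),
      IsSpecialization (K := K) p J J' A ℓ sp F ∧ SpecialFibreRelation J' ℓ hℓ F := by
  set Kk : Submodule HeckeAlg J := heckeKer sp0 with hKk
  have hstab : ∀ x ∈ Kk, φ • x ∈ Kk := by
    intro x hx T
    rw [← smul_comm φ T x]
    exact hb _ (hx T)
  -- the map induced by `φ`
  let φa : J →+ J := DistribSMul.toAddMonoidHom J φ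
  let F : (J ⧸ Kk) →+ (J ⧸ Kk) :=
    QuotientAddGroup.map Kk.toAddSubgroup Kk.toAddSubgroup φa (fun x hx => hstab x hx)
  have hF : ∀ x : J, F (Kk.mkQ x) = Kk.mkQ (φ • x) := fun x => rfl
  refine ⟨J ⧸ Kk, inferInstance, inferInstance, Kk.mkQ.toAddMonoidHom, F, ⟨?_, ?_, ?_, ?_⟩, ?_⟩
  · intro T x
    exact map_smul Kk.mkQ T x
  · intro σ hσ x
    change Kk.mkQ (σ • x) = Kk.mkQ x
    rw [← sub_eq_zero, ← map_sub, Submodule.mkQ_apply, Submodule.Quotient.mk_eq_zero]
    intro T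
    rw [smul_sub, ← smul_comm σ T x, map_sub, ha σ hσ, sub_self]
  · intro σ hσ x
    change Kk.mkQ (σ • x) = F (Kk.mkQ x)
    rw [hF, ← sub_eq_zero, ← map_sub, Submodule.mkQ_apply, Submodule.Quotient.mk_eq_zero]
    intro T
    rw [smul_sub, ← smul_comm σ T x, ← smul_comm φ T x, map_sub, hb' σ hσ, sub_self]
  · intro x hx h0
    change Kk.mkQ x = 0 at h0
    rw [Submodule.mkQ_apply, Submodule.Quotient.mk_eq_zero] at h0
    have := h0 1
    rw [one_smul] at this
    exact hc x hx this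
  · intro y
    obtain ⟨x, rfl⟩ := Kk.mkQ_surjective y
    rw [hF, hF, ← map_smul, ← map_nsmul, ← map_sub, ← map_add, Submodule.mkQ_apply,
      Submodule.Quotient.mk_eq_zero]
    intro T
    have h1 : T • (φ • φ • x - heckeGen ⟨ℓ, hℓ⟩ • φ • x + ℓ • x) =
        φ • φ • (T • x) - heckeGen ⟨ℓ, hℓ⟩ • (φ • (T • x)) + ℓ • (T • x) := by
      rw [smul_add, smul_sub, smul_comm φ T x, smul_comm φ T (φ • x),
        smul_comm T (heckeGen ⟨ℓ, hℓ⟩) (φ • x), smul_comm T ℓ x]
    rw [h1]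
    exact hd _

end Fermat.Agent.S37
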