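import Mathlib
import Fermat.Agent.S37.RedAbs
import Fermat.Agent.S37.RR

set_option autoImplicit false
set_option linter.style.haveILetI false
set_option linter.unusedSectionVars false

/-! # S37 [SP1]: specialisation of divisors -/

namespace Fermat.Agent.S37.Red

open AlgebraicCurve Fermat.Agent.S18 Fermat.Agent.S18.R1 Module Fermat.Agent.S37.RR

variable {L F k κ : Type} [Field L] [Field F] [Algebra L F] [Field k] [Field κ] [Algebra k κ]
variable [IsAlgClosed L] [IsAlgClosed k]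
variable {V : VData L F k κ}

theorem deg_eq_one {K E : Type} [Field K] [Field E] [Algebra K E] [IsAlgClosed K]
    {t : E} {n : ℕ} {g m0 : ℤ} (H : RRH K t n g m0) (Q : Place K E) : Q.deg = 1 := by
  have h1 := H.degree_eq_sum (Finsupp.single Q 1)
  rw [Divisor.degree_single, Finsupp.sum_single_index rfl, one_mul] at h1
  exact_mod_cast h1

/-- **[SP1]** -/
theorem exists_red {t : F} (ht : V.GoodCoord t) {n : ℕ} {g m0 m0' : ℤ} (HL : RRH L t n g m0)
    (Hk : RRH k (V.rd t) n g m0') :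
    ∃ red : Divisor L F →+ Divisor k κ,
      (∀ D, Divisor.degree (red D) = Divisor.degree D) ∧
      (∀ D, 0 ≤ D → 0 ≤ red D) ∧
      (∀ f ∈ V.O, V.rd f ≠ 0 → ∀ D : Divisor L F, (∀ P, D P = P.ord f) →
        ∀ Q, red D Q = Q.ord (V.rd f)) ∧
      (∃ c : ℤ, ∀ D D' : Divisor L F, c ≤ Divisor.degree D → c ≤ Divisor.degree D' →
        V.redSpace (Lof (D : Place L F → ℤ)) = V.redSpace (Lof (D' : Place L F → ℤ)) →
        red D = red D') ∧
      ∃ c : ℤ, ∀ D : Divisor L F, c ≤ Divisor.degree D →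
        V.redSpace (Lof (D : Place L F → ℤ)) = Lof (red D : Place k κ → ℤ) := by
  have hn : (0 : ℤ) < n := by
    haveI := HL.fd
    rw [← HL.hn]
    exact_mod_cast Module.finrank_pos
  refine exists_red_abs ht g n hn HL.finiteDimensional_Lof HL.riemann_ge HL.riemann_eq
    Hk.finiteDimensional_Lof
    Hk.finrank_le Hk.riemann_eq (fun h _ => Hk.finite_support_ord h)
    (fun Q => by rw [deg_eq_one Hk Q]; exact one_pos)
    (fun a => HL.Ed a 0) (fun a => Hk.Ed a 0)
    (fun a => by rw [HL.degree_Ed, add_zero]) (fun a => by rw [Hk.degree_Ed, add_zero])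
    ⟨0, fun a _ => ?_⟩
  have h1 : (HL.Ed a 0 : Place L F → ℤ) = Efun t a 0 := funext (HL.Ed_apply a 0)
  have h2 : (Hk.Ed a 0 : Place k κ → ℤ) = Efun (V.rd t) a 0 := funext (Hk.Ed_apply a 0)
  rw [Rsp, h1, h2, ← HL.Lsp_eq_Lof, ← Hk.Lsp_eq_Lof]
  exact ht.redSpace_Lsp_le a 0

end Fermat.Agent.S37.Red
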