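import Mathlib
import Fermat.Agent.S37.Red
import Fermat.Agent.S37.RedGal

set_option autoImplicit false
set_option linter.style.haveILetI false
set_option linter.unusedSectionVars false

/-! # S37 [SP1]: existence of the specialisation map, packaged -/

namespace Fermat.Agent.S37.Red

open AlgebraicCurve Fermat.Agent.S18 Fermat.Agent.S18.R1 Module Fermat.Agent.S37.RR

variable {L F k κ : Type} [Field L] [Field F] [Algebra L F] [Field k] [Field κ] [Algebra k κ]
variable [IsAlgClosed L] [IsAlgClosed k]
variable {V : VData L F k κ}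

theorem exists_isRed {t : F} (ht : V.GoodCoord t) {n : ℕ} {g m0 m0' : ℤ} (HL : RRH L t n g m0)
    (Hk : RRH k (V.rd t) n g m0') : ∃ red : Divisor L F →+ Divisor k κ, IsRed V red := by
  obtain ⟨red, h1, h2, h3, h4, h5⟩ := exists_red ht HL Hk
  exact ⟨red, h1, h2, h3, h4, h5⟩

end Fermat.Agent.S37.Red
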